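import Fermat.Agent.Arith.Chebotarev.Main

/-!
# Dirichlet densities of counting functions on the primes

Densities and upper densities, sets of primes of density zero, and Chebotarev's theorem avoiding
such a set (`exists_frobenius_eq_avoiding`).
-/

set_option autoImplicit false

noncomputable section

namespace Fermat.Agent.LT.ClassBound

open scoped Pointwise
open Filter Topology NumberField Fermat.Agent.Arith Fermat.Agent.Arith.Density
  Fermat.Agent.Arith.Chebotarev

/-- The indicator of the primes. -/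
def primeInd (n : ℕ) : ℝ := if n.Prime then 1 else 0

/-- Nonnegative and bounded by a multiple of the indicator of the primes. -/
def Sparse (c : ℕ → ℝ) : Prop :=
  (∀ n, 0 ≤ c n) ∧ ∃ C : ℝ, ∀ n, c n ≤ C * primeInd n

/-- The normalised Dirichlet series. -/
def dens (c : ℕ → ℝ) (s : ℝ) : ℝ := (∑' n : ℕ, c n * (n : ℝ) ^ (-s)) / (-Real.log (s - 1))

/-- `c` has density `a`. -/
def HasDens (c : ℕ → ℝ) (a : ℝ) : Prop := Tendsto (dens c) (𝓝[>] 1) (𝓝 a)

/-- `c` has upper density at most `a`. -/
def UpperDens (c : ℕ → ℝ) (a : ℝ) : Prop := ∀ ε > 0, ∀ᶠ s in 𝓝[>] (1 : ℝ), dens c s ≤ a + ε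

theorem log_pos_eventually : ∀ᶠ s in 𝓝[>] (1 : ℝ), 0 < -Real.log (s - 1) :=
  tendsto_neg_log_sub_one.eventually_gt_atTop 0

namespace Sparse

variable {c c' : ℕ → ℝ}

theorem summable (h : Sparse c) :
    ∀ᶠ s in 𝓝[>] (1 : ℝ), Summable fun n : ℕ => c n * (n : ℝ) ^ (-s) := by
  obtain ⟨hc, C, hC⟩ := h
  obtain ⟨C', hC'⟩ := hasLogPole_primes.smul C
  filter_upwards [hC'] with s hs
  exact Summable.of_nonneg_of_le
    (fun n => mul_nonneg (hc n) (Real.rpow_nonneg (Nat.cast_nonneg n) _))
    (fun n => mul_le_mul_of_nonneg_right (hC n) (Real.rpow_nonneg (Nat.cast_nonneg n) _)) hs.1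

/-- A sum of two sparse functions is sparse. -/
theorem add (h : Sparse c) (h' : Sparse c') : Sparse fun n => c n + c' n := by
  obtain ⟨hc, C, hC⟩ := h
  obtain ⟨hc', C', hC'⟩ := h'
  exact ⟨fun n => add_nonneg (hc n) (hc' n), C + C', fun n => by
    rw [add_mul]; exact add_le_add (hC n) (hC' n)⟩

theorem smul (h : Sparse c) {r : ℝ} (hr : 0 ≤ r) : Sparse fun n => r * c n := by
  obtain ⟨hc, C, hC⟩ := h
  exact ⟨fun n => mul_nonneg hr (hc n), r * C, fun n => by
    rw [mul_assoc]; exact mul_le_mul_of_nonneg_left (hC n) hr⟩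

theorem of_le (h : Sparse c') (h0 : ∀ n, 0 ≤ c n) (hle : ∀ n, c n ≤ c' n) : Sparse c :=
  ⟨h0, h.2.imp fun _ hC n => (hle n).trans (hC n)⟩

theorem zero : Sparse fun _ => 0 := ⟨fun _ => le_rfl, 0, fun n => by simp⟩

theorem primes : Sparse primeInd :=
  ⟨fun n => by rw [primeInd]; split_ifs <;> norm_num, 1, fun n => (one_mul _).ge⟩

theorem finite_part (h : Sparse c) (B : ℕ) : Sparse fun n => if n ≤ B then c n else 0 :=
  h.of_le (fun n => by split_ifs <;> simp [h.1 n]) fun n => by split_ifs <;> simp [h.1 n]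

theorem finset_sum {ι : Type*} (F : Finset ι) {c : ι → ℕ → ℝ} (h : ∀ i ∈ F, Sparse (c i)) :
    Sparse fun n => ∑ i ∈ F, c i n := by
  classical
  induction F using Finset.induction_on with
  | empty => simpa using zero
  | insert i F hi ih =>
    simp only [Finset.sum_insert hi]
    exact (h i (Finset.mem_insert_self i F)).add (ih fun j hj => h j (Finset.mem_insert_of_mem hj))

end Sparse

theorem dens_add_eventually {c c' : ℕ → ℝ} (h : Sparse c) (h' : Sparse c') :
    ∀ᶠ s in 𝓝[>] (1 : ℝ), dens (fun n => c n + c' n) s = dens c s + dens c' s := by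
  filter_upwards [h.summable, h'.summable] with s h1 h2
  simp only [dens, add_mul]
  rw [h1.tsum_add h2, add_div]

theorem dens_mono_eventually {c c' : ℕ → ℝ} (h : Sparse c) (h' : Sparse c')
    (hle : ∀ n, c n ≤ c' n) : ∀ᶠ s in 𝓝[>] (1 : ℝ), dens c s ≤ dens c' s := by
  filter_upwards [h.summable, h'.summable, log_pos_eventually] with s h1 h2 h3
  exact div_le_div_of_nonneg_right (h1.tsum_le_tsum
    (fun n => mul_le_mul_of_nonneg_right (hle n) (Real.rpow_nonneg (Nat.cast_nonneg n) _)) h2) h3.le

theorem dens_nonneg_eventually {c : ℕ → ℝ} (h : Sparse c) :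
    ∀ᶠ s in 𝓝[>] (1 : ℝ), 0 ≤ dens c s := by
  filter_upwards [log_pos_eventually] with s h3
  exact div_nonneg (tsum_nonneg fun n => mul_nonneg (h.1 n)
    (Real.rpow_nonneg (Nat.cast_nonneg n) _)) h3.le

/-- A finitely supported series has density zero. -/
theorem hasDens_finite {c : ℕ → ℝ} (B : ℕ) (hc : ∀ n, B < n → c n = 0) : HasDens c 0 :=
  (HasLogPole.of_finite_support B hc).tendsto

/-- Densities of sparse functions add. -/
theorem HasDens.add {c c' : ℕ → ℝ} {a a' : ℝ} (h : HasDens c a) (h' : HasDens c' a')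
    (hs : Sparse c) (hs' : Sparse c') : HasDens (fun n => c n + c' n) (a + a') :=
  (Tendsto.add h h').congr' ((dens_add_eventually hs hs').mono fun _ e => e.symm)

theorem HasDens.smul {c : ℕ → ℝ} {a : ℝ} (h : HasDens c a) (r : ℝ) :
    HasDens (fun n => r * c n) (r * a) :=
  (Tendsto.const_mul r h).congr fun s => by
    simp only [dens, mul_assoc, tsum_mul_left]
    rw [mul_div_assoc]

theorem HasDens.finset_sum {ι : Type*} (F : Finset ι) {c : ι → ℕ → ℝ} {a : ι → ℝ}
    (h : ∀ i ∈ F, HasDens (c i) (a i)) (hs : ∀ i ∈ F, Sparse (c i)) :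
    HasDens (fun n => ∑ i ∈ F, c i n) (∑ i ∈ F, a i) := by
  classical
  induction F using Finset.induction_on with
  | empty => simpa using hasDens_finite (c := fun _ => 0) 0 fun _ _ => rfl
  | insert i F hi ih =>
    simp only [Finset.sum_insert hi]
    exact (h i (Finset.mem_insert_self i F)).add
      (ih (fun j hj => h j (Finset.mem_insert_of_mem hj))
        fun j hj => hs j (Finset.mem_insert_of_mem hj))
      (hs i (Finset.mem_insert_self i F))
      (Sparse.finset_sum F fun j hj => hs j (Finset.mem_insert_of_mem hj))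

theorem HasDens.congr_above {c c' : ℕ → ℝ} {a : ℝ} (h : HasDens c a) (hs : Sparse c)
    (hs' : Sparse c') (B : ℕ) (heq : ∀ n, B < n → c n = c' n) : HasDens c' a := by
  have h1 := dens_add_eventually hs (hs'.finite_part B)
  have h2 := dens_add_eventually hs' (hs.finite_part B)
  have e : (fun n => c n + if n ≤ B then c' n else 0) = fun n => c' n
      + if n ≤ B then c n else 0 := by
    funext n
    split_ifs with hn
    · ring
    · rw [heq n (not_le.mp hn)]
  have h3 := (Tendsto.add h (hasDens_finite (c := fun n => if n ≤ B then c' n else 0) B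
    fun n hn => if_neg (not_le.mpr hn))).sub (hasDens_finite
      (c := fun n => if n ≤ B then c n else 0) B fun n hn => if_neg (not_le.mpr hn))
  rw [add_zero, sub_zero] at h3
  refine h3.congr' ?_
  filter_upwards [h1, h2] with s e1 e2
  rw [← e1, e, e2, add_sub_cancel_right]

theorem HasDens.upper {c : ℕ → ℝ} {a : ℝ} (h : HasDens c a) : UpperDens c a := fun _ε hε =>
  (h.eventually (eventually_lt_nhds (lt_add_of_pos_right a hε))).mono fun _ => le_of_lt

/-- An upper density bound passes to smaller sparse functions. -/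
theorem UpperDens.mono {c c' : ℕ → ℝ} {a : ℝ} (h : UpperDens c' a) (hs : Sparse c)
    (hs' : Sparse c') (hle : ∀ n, c n ≤ c' n) : UpperDens c a := fun ε hε => by
  filter_upwards [h ε hε, dens_mono_eventually hs hs' hle] with s h1 h2
  linarith

/-- A density is at most every upper bound for the density. -/
theorem le_of_upper {c : ℕ → ℝ} {a b : ℝ} (h : HasDens c a) (h' : UpperDens c b) : a ≤ b :=
  le_of_forall_pos_le_add fun ε hε => le_of_tendsto h (h' ε hε)

/-- Upper density bounds of sparse functions add. -/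
theorem UpperDens.add {c c' : ℕ → ℝ} {a a' : ℝ} (h : UpperDens c a) (h' : UpperDens c' a')
    (hs : Sparse c) (hs' : Sparse c') : UpperDens (fun n => c n + c' n) (a + a') := fun ε hε => by
  filter_upwards [h (ε / 2) (half_pos hε), h' (ε / 2) (half_pos hε), dens_add_eventually hs hs']
    with s h1 h2 h3
  rw [h3]; linarith

/-- `c + c'` at most `a` above and `c` exactly `a`: then `c'` is negligible. -/
theorem hasDens_zero_of_sum {c c' : ℕ → ℝ} {a : ℝ} (h : HasDens c a) (hs : Sparse c)
    (hs' : Sparse c') (hu : UpperDens (fun n => c n + c' n) a) : HasDens c' 0 := by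
  refine tendsto_order.mpr ⟨fun b hb => (dens_nonneg_eventually hs').mono fun s h' =>
    hb.trans_le h', fun b hb => ?_⟩
  filter_upwards [hu (b / 3) (by linarith), dens_add_eventually hs hs',
    h.eventually (eventually_gt_nhds (show a - b / 3 < a by linarith))] with s h1 h2 h3
  rw [h2] at h1; linarith

/-- A sparse series below one of density zero has density zero. -/
theorem hasDens_zero_of_le {c c' : ℕ → ℝ} (h : HasDens c' 0) (hs : Sparse c) (hs' : Sparse c')
    (hle : ∀ n, c n ≤ c' n) : HasDens c 0 :=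
  tendsto_of_tendsto_of_tendsto_of_le_of_le' tendsto_const_nhds h (dens_nonneg_eventually hs)
    (dens_mono_eventually hs hs' hle)

/-- A set of primes of density zero. -/
def Negligible (Z : Set ℕ) : Prop := HasDens (fun n => Z.indicator primeInd n) 0

/-- The indicator of a set of primes is sparse. -/
theorem sparse_indicator (Z : Set ℕ) : Sparse fun n => Z.indicator primeInd n :=
  Sparse.primes.of_le (fun n => Set.indicator_nonneg (fun m _ => Sparse.primes.1 m) n)
    fun n => Set.indicator_le_self' (fun m _ => Sparse.primes.1 m) n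

/-- A subset of a negligible set of primes is negligible. -/
theorem Negligible.mono {Z Z' : Set ℕ} (h : Negligible Z') (hle : Z ⊆ Z') : Negligible Z :=
  hasDens_zero_of_le h (sparse_indicator Z) (sparse_indicator Z') fun n =>
    Set.indicator_le_indicator_of_subset hle (fun m => Sparse.primes.1 m) n

/-- The union of two negligible sets of primes is negligible. -/
theorem Negligible.union {Z Z' : Set ℕ} (h : Negligible Z) (h' : Negligible Z') :
    Negligible (Z ∪ Z') := by
  refine hasDens_zero_of_le (c' := fun n => Z.indicator primeInd n + Z'.indicator primeInd n)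
    (by simpa using h.add h' (sparse_indicator Z) (sparse_indicator Z')) (sparse_indicator _)
    ((sparse_indicator Z).add (sparse_indicator Z')) fun n => ?_
  by_cases hn : n ∈ Z
  · rw [Set.indicator_of_mem (Set.mem_union_left Z' hn), Set.indicator_of_mem hn]
    exact le_add_of_nonneg_right (Set.indicator_nonneg (fun m _ => Sparse.primes.1 m) n)
  · rw [Set.indicator_of_notMem hn, zero_add]
    by_cases hn' : n ∈ Z'
    · rw [Set.indicator_of_mem (Set.mem_union_right Z hn'), Set.indicator_of_mem hn']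
    · rw [Set.indicator_of_notMem (fun h => h.elim hn hn'), Set.indicator_of_notMem hn']

/-- A finite set of primes is negligible. -/
theorem negligible_finite {Z : Set ℕ} (h : Z.Finite) : Negligible Z :=
  hasDens_finite (h.toFinset.sup id) fun _n hn => Set.indicator_of_notMem (fun hm =>
    absurd (Finset.le_sup (f := id) (h.mem_toFinset.mpr hm)) (not_le.mpr hn)) _

/-- Every element of `Gal(L/ℚ)` is a Frobenius at a prime outside a negligible set. -/
theorem exists_frobenius_restrict_avoiding (L : IntermediateField ℚ QBar) [FiniteDimensional ℚ L]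
    [IsGalois ℚ L] (g : GQ) {Z : Set ℕ} (hZ : Negligible Z) :
    ∃ ℓ : ℕ, ℓ.Prime ∧ ℓ ∉ Z ∧ ∃ A : ValuationSubring QBar, A.LiesOverPrime ℓ ∧
      ∃ σ : GQ, A.IsFrobeniusAt σ ℓ ∧
        AlgEquiv.restrictNormalHom L σ = AlgEquiv.restrictNormalHom L g := by
  set gb := AlgEquiv.restrictNormalHom L g
  by_contra hne
  have hle : ∀ ℓ, conjCount L gb ℓ ≤ (Nat.card Gal(L/ℚ) : ℝ) * Z.indicator primeInd ℓ := by
    intro ℓ
    by_cases hmem : ℓ ∈ Z
    · rw [Set.indicator_of_mem hmem]
      exact conjCount_le L gb ℓ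
    refine le_of_eq_of_le (show conjCount L gb ℓ = 0 from ?_) (mul_nonneg (Nat.cast_nonneg _)
      (Set.indicator_nonneg (fun m _ => Sparse.primes.1 m) ℓ))
    by_contra h
    have hℓ : ℓ.Prime := by
      by_contra hp
      exact h (by simp [conjCount, hp])
    obtain ⟨⟨x, hx⟩⟩ : Nonempty {x : Gal(L/ℚ) // x⁻¹ * frobL L ℓ * x = gb} := by
      by_contra h'
      rw [not_nonempty_iff] at h'
      exact h (by simp [conjCount])
    obtain ⟨y, rfl⟩ := AlgEquiv.restrictNormalHom_surjective (K₁ := L) QBar x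
    refine hne ⟨ℓ, hℓ, hmem, y⁻¹ • (exists_liesOverPrime hℓ).choose,
      liesOverPrime_smul_iff.mpr (exists_liesOverPrime hℓ).choose_spec, y⁻¹ * frobAt ℓ * y⁻¹⁻¹,
      isFrobeniusAt_conj (frobAt_spec hℓ), ?_⟩
    rw [← hx, inv_inv, map_mul, map_mul, map_inv]
    rfl
  have h0 : HasDens (conjCount L gb) 0 := hasDens_zero_of_le
    (c' := fun ℓ => (Nat.card Gal(L/ℚ) : ℝ) * Z.indicator primeInd ℓ)
    (by simpa using hZ.smul (Nat.card Gal(L/ℚ) : ℝ))
    ⟨conjCount_nonneg L gb, (Nat.card Gal(L/ℚ) : ℝ), conjCount_le L gb⟩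
    ((sparse_indicator Z).smul (Nat.cast_nonneg _)) hle
  exact one_ne_zero (tendsto_nhds_unique (tendsto_ratio L gb) h0)

/-- Chebotarev, avoiding a negligible set of primes. -/
theorem exists_frobenius_eq_avoiding {M : Type*} [Monoid M] (ρ : GQ →* M)
    (L : IntermediateField ℚ QBar) [FiniteDimensional ℚ L]
    (hL : ∀ σ : GQ, (∀ x ∈ L, σ x = x) → ρ σ = 1) (g : GQ) {Z : Set ℕ} (hZ : Negligible Z) :
    ∃ ℓ : ℕ, ℓ.Prime ∧ ℓ ∉ Z ∧ ∃ A : ValuationSubring QBar, A.LiesOverPrime ℓ ∧
      ∃ σ : GQ, A.IsFrobeniusAt σ ℓ ∧ ρ σ = ρ g := by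
  let L' : IntermediateField ℚ QBar := IntermediateField.normalClosure ℚ L QBar
  have : Normal ℚ L' := normalClosure.normal ℚ L QBar
  have : IsGalois ℚ L' := ⟨⟩
  obtain ⟨ℓ, hℓ, hℓS, A, hA, σ, hσ, heq⟩ := exists_frobenius_restrict_avoiding L' g hZ
  refine ⟨ℓ, hℓ, hℓS, A, hA, σ, hσ, ?_⟩
  have h1 : ρ (g⁻¹ * σ) = 1 := hL _ fun x hx => by
    refine (restrictNormalHom_eq_one_iff L').mp ?_ x (L.le_normalClosure hx)
    rw [map_mul, map_inv, heq, inv_mul_cancel]
  rw [← mul_inv_cancel_left g σ, map_mul, h1, mul_one]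

end Fermat.Agent.LT.ClassBound
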