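import Fermat.Agent.LT.ClassBound.Units
import Mathlib.RingTheory.Ideal.Norm.RelNorm

/-!
# Norm, extension and Galois action on ideal classes
-/

set_option autoImplicit false

noncomputable section

namespace Fermat.Agent.LT.ClassBound

open NumberField
open scoped nonZeroDivisors

section Lift

variable {R S : Type*} [CommRing R] [IsDedekindDomain R] [CommRing S] [IsDedekindDomain S]

/-- A multiplicative map of nonzero ideals. -/
def nzMap (φ : Ideal R →*₀ Ideal S) (hφ : ∀ I, φ I = ⊥ → I = ⊥) : (Ideal R)⁰ →* (Ideal S)⁰ where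
  toFun I := ⟨φ I, mem_nonZeroDivisors_iff_ne_zero.mpr fun h =>
    nonZeroDivisors.coe_ne_zero I (hφ _ h)⟩
  map_one' := Subtype.ext (map_one φ)
  map_mul' _I _J := Subtype.ext (map_mul φ _ _)

/-- The induced map on classes. -/
def classMap (φ : Ideal R →*₀ Ideal S) (hφ : ∀ I, φ I = ⊥ → I = ⊥) :
    ClassGroup R → ClassGroup S :=
  fun C => ClassGroup.mk0 (nzMap φ hφ (Function.surjInv ClassGroup.mk0_surjective C))

theorem classMap_mk0 (φ : Ideal R →*₀ Ideal S) (hφ : ∀ I, φ I = ⊥ → I = ⊥)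
    (hpr : ∀ x : R, ∃ y : S, φ (Ideal.span {x}) = Ideal.span {y}) (I : (Ideal R)⁰) :
    classMap φ hφ (ClassGroup.mk0 I) = ClassGroup.mk0 (nzMap φ hφ I) := by
  have h := Function.surjInv_eq ClassGroup.mk0_surjective (ClassGroup.mk0 I)
  rw [ClassGroup.mk0_eq_mk0_iff] at h
  obtain ⟨x, y, hx, hy, he⟩ := h
  obtain ⟨x', hx'⟩ := hpr x
  obtain ⟨y', hy'⟩ := hpr y
  refine (ClassGroup.mk0_eq_mk0_iff).mpr ⟨x', y', fun h0 => hx ?_, fun h0 => hy ?_, ?_⟩
  · rw [h0, Ideal.span_singleton_eq_bot.mpr rfl] at hx'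
    exact Ideal.span_singleton_eq_bot.mp (hφ _ hx')
  · rw [h0, Ideal.span_singleton_eq_bot.mpr rfl] at hy'
    exact Ideal.span_singleton_eq_bot.mp (hφ _ hy')
  · have := congrArg φ he
    rw [map_mul, map_mul, hx', hy'] at this
    exact this

/-- The induced hom on classes. -/
def classHom (φ : Ideal R →*₀ Ideal S) (hφ : ∀ I, φ I = ⊥ → I = ⊥)
    (hpr : ∀ x : R, ∃ y : S, φ (Ideal.span {x}) = Ideal.span {y}) :
    ClassGroup R →* ClassGroup S :=
  MonoidHom.mk' (classMap φ hφ) fun C D => by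
    obtain ⟨I, rfl⟩ := ClassGroup.mk0_surjective C
    obtain ⟨J, rfl⟩ := ClassGroup.mk0_surjective D
    rw [← map_mul, classMap_mk0 φ hφ hpr, classMap_mk0 φ hφ hpr, classMap_mk0 φ hφ hpr, map_mul,
      map_mul]

theorem classHom_mk0 (φ : Ideal R →*₀ Ideal S) (hφ : ∀ I, φ I = ⊥ → I = ⊥)
    (hpr : ∀ x : R, ∃ y : S, φ (Ideal.span {x}) = Ideal.span {y}) (I : (Ideal R)⁰) :
    classHom φ hφ hpr (ClassGroup.mk0 I) = ClassGroup.mk0 (nzMap φ hφ I) :=
  classMap_mk0 φ hφ hpr I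

/-- Extension of classes along an injective ring hom. -/
def extHom (f : R →+* S) (hf : Function.Injective f) : ClassGroup R →* ClassGroup S :=
  classHom (Ideal.mapHom f).toMonoidWithZeroHom
    (fun _ h => (Ideal.map_eq_bot_iff_of_injective hf).mp h)
    fun x => ⟨f x, (Ideal.map_span f _).trans (congrArg Ideal.span Set.image_singleton)⟩

theorem extHom_mk0 (f : R →+* S) (hf : Function.Injective f) (I : (Ideal R)⁰) (J : (Ideal S)⁰)
    (h : (I : Ideal R).map f = J) : extHom f hf (ClassGroup.mk0 I) = ClassGroup.mk0 J :=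
  (classHom_mk0 _ _ _ I).trans (congrArg _ (Subtype.ext h))

end Lift

variable {K L : Type*} [Field K] [NumberField K] [Field L] [NumberField L] [Algebra K L]
  [IsGalois K L]

variable (K L) in
/-- The extension of classes. -/
def extClass : ClassGroup (𝓞 K) →* ClassGroup (𝓞 L) :=
  extHom (algebraMap (𝓞 K) (𝓞 L)) (RingOfIntegers.algebraMap.injective K L)

/-- The Galois action on classes. -/
def classAct (h : L ≃ₐ[K] L) : ClassGroup (𝓞 L) →* ClassGroup (𝓞 L) :=
  extHom (act h).toRingEquiv.toRingHom (act h).injective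

variable (K L) in
/-- The norm of classes. -/
def normClass : ClassGroup (𝓞 L) →* ClassGroup (𝓞 K) :=
  classHom (Ideal.relNorm (𝓞 K)) (fun _ h => Ideal.relNorm_eq_bot_iff.mp h)
    fun x => ⟨_, Ideal.relNorm_singleton (𝓞 K) x⟩

omit [IsGalois K L] in
theorem extClass_mk0 (I : (Ideal (𝓞 K))⁰) (J : (Ideal (𝓞 L))⁰)
    (h : (I : Ideal (𝓞 K)).map (algebraMap (𝓞 K) (𝓞 L)) = J) :
    extClass K L (ClassGroup.mk0 I) = ClassGroup.mk0 J :=
  extHom_mk0 (algebraMap (𝓞 K) (𝓞 L)) (RingOfIntegers.algebraMap.injective K L) I J h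

omit [IsGalois K L] in
theorem normClass_mk0 (I : (Ideal (𝓞 L))⁰) (J : (Ideal (𝓞 K))⁰)
    (h : Ideal.relNorm (𝓞 K) (I : Ideal (𝓞 L)) = J) :
    normClass K L (ClassGroup.mk0 I) = ClassGroup.mk0 J :=
  (classHom_mk0 _ _ _ I).trans (congrArg _ (Subtype.ext h))

/-- Galois conjugation of ideals. -/
abbrev conjI (h : L ≃ₐ[K] L) (I : Ideal (𝓞 L)) : Ideal (𝓞 L) :=
  I.map (act h).toRingEquiv.toRingHom

theorem relNorm_conjI (h : L ≃ₐ[K] L) (I : Ideal (𝓞 L)) :
    Ideal.relNorm (𝓞 K) (conjI h I) = Ideal.relNorm (𝓞 K) I :=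
  Ideal.relNorm_map_algEquiv (act h) I

theorem normClass_classAct (h : L ≃ₐ[K] L) (C : ClassGroup (𝓞 L)) :
    normClass K L (classAct h C) = normClass K L C := by
  obtain ⟨I, rfl⟩ := ClassGroup.mk0_surjective C
  have e : classAct h (ClassGroup.mk0 I) =
    ClassGroup.mk0 (nzMap
      (Ideal.mapHom (act h).toRingEquiv.toRingHom).toMonoidWithZeroHom
      (fun _ e => (Ideal.map_eq_bot_iff_of_injective (act h).injective).mp e) I) :=
    extHom_mk0 _ _ I _ rfl
  rw [e, normClass, classHom_mk0, classHom_mk0]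
  exact congrArg _ (Subtype.ext (relNorm_conjI h I))

end Fermat.Agent.LT.ClassBound
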