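import Fermat.Agent.LT.ClassBound.Frob

/-!
# The Frobenius values of the primes of degree one are equidistributed
-/

set_option autoImplicit false

noncomputable section

namespace Fermat.Agent.LT.ClassBound

open Filter NumberField Fermat.Agent.Arith Fermat.Agent.Arith.Density
  Fermat.Agent.Arith.Chebotarev
open scoped Pointwise

variable {K : IntermediateField ℚ QBar} [FiniteDimensional ℚ K]

omit [FiniteDimensional ℚ ↥K] in
/-- Elements fixing `K` fix its inclusion in `ℚ̄`. -/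
theorem comp_valQ_of_mem {g : GQ} (hg : g ∈ K.fixingSubgroup) :
    (g : QBar →ₐ[ℚ] QBar).comp (valQ K) = valQ K :=
  AlgHom.ext fun x => (IntermediateField.mem_fixingSubgroup_iff K g).mp hg x x.2

theorem placeComap_inv_smul {g : GQ} (hg : g ∈ K.fixingSubgroup) (A : ValuationSubring QBar) :
    placeComap K (g⁻¹ • A) = placeComap K A := by
  rw [← centre_smul_comap, comp_valQ_of_mem hg]
  rfl

variable {A : Type*} [CommGroup A] {ψ : K.fixingSubgroup →* A}
variable (L : IntermediateField ℚ QBar) [FiniteDimensional ℚ L] [IsGalois ℚ L]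

/-- Restriction to `L`, from the fixing group of `K`. -/
def resK : K.fixingSubgroup →* Gal(L/ℚ) :=
  (AlgEquiv.restrictNormalHom L).comp K.fixingSubgroup.subtype

/-- A lift. -/
def liftGal (x : Gal(L/ℚ)) : GQ :=
  Function.surjInv (AlgEquiv.restrictNormalHom_surjective (K₁ := L) QBar) x

omit [FiniteDimensional ℚ ↥L] in
theorem restrict_liftGal (x : Gal(L/ℚ)) : AlgEquiv.restrictNormalHom L (liftGal L x) = x :=
  Function.surjInv_eq (AlgEquiv.restrictNormalHom_surjective (K₁ := L) QBar) x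

variable {L}

omit [FiniteDimensional ℚ ↥K] [FiniteDimensional ℚ ↥L] in
theorem mem_fixing_of_restrict (hKL : K ≤ L) {g g' : GQ}
    (h : AlgEquiv.restrictNormalHom L g = AlgEquiv.restrictNormalHom L g') :
    g⁻¹ * g' ∈ K.fixingSubgroup := by
  have h1 : AlgEquiv.restrictNormalHom L (g⁻¹ * g') = 1 := by
    rw [map_mul, map_inv, h, inv_mul_cancel]
  rw [IntermediateField.mem_fixingSubgroup_iff]
  exact fun x hx => (restrictNormalHom_eq_one_iff L).mp h1 x (hKL hx)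

omit [FiniteDimensional ℚ ↥L] in
/-- The map of `x` to the prime of `K` under the transform of the standard place. -/
theorem placeComap_eq_of_restrict (hKL : K ≤ L) (A₀ : ValuationSubring QBar) {g g' : GQ}
    (h : AlgEquiv.restrictNormalHom L g = AlgEquiv.restrictNormalHom L g') :
    placeComap K (g'⁻¹ • A₀) = placeComap K (g⁻¹ • A₀) := by
  rw [show g'⁻¹ • A₀ = (g⁻¹ * g')⁻¹ • (g⁻¹ • A₀) by rw [mul_inv_rev, inv_inv, mul_smul,
    smul_inv_smul]]
  exact placeComap_inv_smul (mem_fixing_of_restrict hKL h) _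

omit [FiniteDimensional ℚ ↥L] in
/-- An element conjugating the Frobenius into the class of `a` moves the standard place to a prime
of `K` of norm `ℓ` whose Frobenius has value `a`. -/
private theorem placeComap_conj_spec (hψ : Unram K ψ) (hKL : K ≤ L)
    (hker : ∀ σ σ' : K.fixingSubgroup, resK L σ = resK L σ' → ψ σ = ψ σ') {ℓ : ℕ}
    {A₀ : ValuationSubring QBar} (hA₀ : A₀.LiesOverPrime ℓ)
    (hφ : A₀.IsFrobeniusAt (frobAt ℓ) ℓ) (hℓ : ℓ.Prime) (hgood : Good K ℓ) {a : A} {x : Gal(L/ℚ)}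
    (hx : ∃ σ : K.fixingSubgroup, resK L σ = x⁻¹ * frobL L ℓ * x ∧ ψ σ = a) :
    ∃ hne : placeComap K ((liftGal L x)⁻¹ • A₀) ≠ ⊥,
      Ideal.absNorm (placeComap K ((liftGal L x)⁻¹ • A₀)) = ℓ ∧
        ψ (fr K ⟨_, Ideal.comap_isPrime _ _, hne⟩) = a := by
  obtain ⟨σ, hσ, rfl⟩ := hx
  set y := liftGal L x
  have hres : AlgEquiv.restrictNormalHom L (σ : GQ) =
      AlgEquiv.restrictNormalHom L (y⁻¹ * frobAt ℓ * y) := by
    rw [map_mul, map_mul, map_inv, restrict_liftGal]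
    exact hσ
  have hmem : y⁻¹ * frobAt ℓ * y ∈ K.fixingSubgroup := by
    have := mul_mem σ.2 (mem_fixing_of_restrict hKL hres)
    rwa [mul_inv_cancel_left] at this
  have hF : (y⁻¹ • A₀).IsFrobeniusAt (y⁻¹ * frobAt ℓ * y) ℓ := by
    have := isFrobeniusAt_conj (g := y⁻¹) hφ
    rwa [inv_inv] at this
  have hnorm : Ideal.absNorm (placeComap K (y⁻¹ • A₀)) = ℓ :=
    absNorm_comap_of_fixed (liesOverPrime_smul_iff.mpr hA₀) hℓ hF (comp_valQ_of_mem hmem)
  have hne : placeComap K (y⁻¹ • A₀) ≠ ⊥ := fun h0 => by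
    rw [h0, Ideal.absNorm_bot] at hnorm
    exact hℓ.ne_zero hnorm.symm
  refine ⟨hne, hnorm, ?_⟩
  set Q : PrimeId K := ⟨placeComap K (y⁻¹ • A₀), Ideal.comap_isPrime _ _, hne⟩
  have hQ : Ideal.absNorm Q.1 = ℓ := hnorm
  have hF' : IsFrobOf K Q (⟨_, hmem⟩ : K.fixingSubgroup) := by
    refine ⟨y⁻¹ • A₀, ?_, rfl, ?_⟩
    · rw [hQ]; exact liesOverPrime_smul_iff.mpr hA₀
    · rw [hQ]; exact hF
  rw [hker σ ⟨_, hmem⟩ hres]
  exact eq_of_isFrobOf hψ (hQ.symm ▸ hℓ) (hQ.symm ▸ hgood)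
    (fr_spec (hQ.symm ▸ hℓ) (hQ.symm ▸ hgood)) hF'

omit [FiniteDimensional ℚ ↥L] in
theorem card_conj_eq (hψ : Unram K ψ) (hKL : K ≤ L)
    (hker : ∀ σ σ' : K.fixingSubgroup, resK L σ = resK L σ' → ψ σ = ψ σ')
    {ℓ : ℕ} (hℓ : ℓ.Prime) (hgood : Good K ℓ) (a : A) :
    Nat.card {x : Gal(L/ℚ) //
        ∃ σ : K.fixingSubgroup, resK L σ = x⁻¹ * frobL L ℓ * x ∧ ψ σ = a} =
      Nat.card (resK (K := K) L).range *
        Nat.card {P : PrimeId K // Ideal.absNorm P.1 = ℓ ∧ ψ (fr K P) = a} := by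
  set A₀ := (exists_liesOverPrime hℓ).choose
  have hA₀ : A₀.LiesOverPrime ℓ := (exists_liesOverPrime hℓ).choose_spec
  have hφ : A₀.IsFrobeniusAt (frobAt ℓ) ℓ := frobAt_spec hℓ
  set T := {x : Gal(L/ℚ) // ∃ σ : K.fixingSubgroup, resK L σ = x⁻¹ * frobL L ℓ * x ∧ ψ σ = a}
  -- the prime of an element
  choose hne hP using fun x : T => placeComap_conj_spec hψ hKL hker hA₀ hφ hℓ hgood x.2
  let P : T → PrimeId K := fun x =>
    ⟨placeComap K ((liftGal L x.1)⁻¹ • A₀), Ideal.comap_isPrime _ _, hne x⟩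
  let F : T → {P : PrimeId K // Ideal.absNorm P.1 = ℓ ∧ ψ (fr K P) = a} := fun x => ⟨P x, hP x⟩
  -- the fibres are cosets
  have hfib : ∀ x x' : T, F x = F x' ↔ x.1⁻¹ * x'.1 ∈ (resK (K := K) L).range := by
    intro x x'
    constructor
    · intro h
      have h' : placeComap K ((liftGal L x.1)⁻¹ • A₀) = placeComap K ((liftGal L x'.1)⁻¹ • A₀) :=
        congrArg (fun P => P.1.1) h
      have hg : (liftGal L x.1)⁻¹ * liftGal L x'.1 ∈ K.fixingSubgroup := by
        refine mem_fixing_of_smul hℓ hgood (A := (liftGal L x.1)⁻¹ • A₀)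
          (liesOverPrime_smul_iff.mpr hA₀) ?_ (hP x).1
        rw [mul_inv_rev, inv_inv, mul_smul, smul_inv_smul]
        exact h'.symm
      exact ⟨⟨_, hg⟩, by
        show AlgEquiv.restrictNormalHom L ((liftGal L x.1)⁻¹ * liftGal L x'.1) = _
        rw [map_mul, map_inv, restrict_liftGal, restrict_liftGal]⟩
    · rintro ⟨k, hk⟩
      refine Subtype.ext (Subtype.ext ?_)
      show placeComap K ((liftGal L x.1)⁻¹ • A₀) = placeComap K ((liftGal L x'.1)⁻¹ • A₀)
      rw [placeComap_eq_of_restrict hKL A₀ (g := liftGal L x.1 * (k : GQ)) (g' := liftGal L x'.1)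
        (by rw [map_mul, restrict_liftGal, restrict_liftGal,
            show AlgEquiv.restrictNormalHom L (k : GQ) = x.1⁻¹ * x'.1 from hk,
            mul_inv_cancel_left]),
        mul_inv_rev, mul_smul, placeComap_inv_smul k.2]
  -- every prime of norm `ℓ` with value `a` occurs
  have hsurj : Function.Surjective F := by
    rintro ⟨Q, hQℓ, hQa⟩
    obtain ⟨B, hB, hBQ⟩ := exists_placeComap_eq (P := Q) (hQℓ.symm ▸ hℓ)
    rw [hQℓ] at hB
    obtain ⟨g, rfl⟩ := exists_smul_eq hA₀ hB hℓ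
    have hF : IsFrobOf K Q (g * frobAt ℓ * g⁻¹) := by
      refine ⟨g • A₀, hQℓ.symm ▸ hB, hBQ, ?_⟩
      rw [hQℓ]
      exact isFrobeniusAt_conj hφ
    have hmem := mem_fixing_of_isFrobOf (hQℓ.symm ▸ hℓ) (hQℓ.symm ▸ hgood) hF
    set x : Gal(L/ℚ) := AlgEquiv.restrictNormalHom L g⁻¹ with hx
    have hxT : ∃ σ : K.fixingSubgroup, resK L σ = x⁻¹ * frobL L ℓ * x ∧ ψ σ = a := by
      refine ⟨⟨_, hmem⟩, ?_, ?_⟩
      · show AlgEquiv.restrictNormalHom L (g * frobAt ℓ * g⁻¹) = _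
        rw [hx, map_mul, map_mul, map_inv, inv_inv]
        rfl
      · rw [← hQa]
        exact eq_of_isFrobOf hψ (hQℓ.symm ▸ hℓ) (hQℓ.symm ▸ hgood) hF
          (fr_spec (hQℓ.symm ▸ hℓ) (hQℓ.symm ▸ hgood))
    refine ⟨⟨x, hxT⟩, Subtype.ext (Subtype.ext ?_)⟩
    show placeComap K ((liftGal L x)⁻¹ • A₀) = Q.1
    rw [placeComap_eq_of_restrict hKL A₀ (g := g⁻¹) (g' := liftGal L x)
      (by rw [restrict_liftGal, hx]), inv_inv]
    exact hBQ
  choose s hs using hsurj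
  have hmul : ∀ Q, ∀ k : (resK (K := K) L).range,
      ∃ σ : K.fixingSubgroup, resK L σ = ((s Q).1 * k.1)⁻¹ * frobL L ℓ * ((s Q).1 * k.1) ∧
        ψ σ = a := by
    rintro Q ⟨_, k, rfl⟩
    obtain ⟨σ, hσ, hσa⟩ := (s Q).2
    refine ⟨k⁻¹ * σ * k, ?_, ?_⟩
    · rw [map_mul, map_mul, map_inv, hσ]
      group
    · rw [map_mul, map_mul, map_inv, hσa, mul_comm, mul_inv_cancel_left]
  -- so each fibre is a translate of `R`
  rw [← Nat.card_prod, eq_comm]
  refine Nat.card_congr (Equiv.ofBijective (fun kQ => ⟨(s kQ.2).1 * kQ.1.1, hmul kQ.2 kQ.1⟩) ⟨?_,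
    ?_⟩)
  · rintro ⟨k, Q⟩ ⟨k', Q'⟩ h
    have h' : (s Q).1 * k.1 = (s Q').1 * k'.1 := congrArg Subtype.val h
    have hQ : Q = Q' := by
      rw [← hs Q, ← hs Q', hfib, eq_mul_inv_of_mul_eq h'.symm, mul_assoc (s Q).1,
        inv_mul_cancel_left]
      exact mul_mem k.2 (inv_mem k'.2)
    subst hQ
    rw [Subtype.ext (mul_left_cancel h')]
  · intro x
    refine ⟨(⟨(s (F x)).1⁻¹ * x.1, (hfib _ x).mp (hs (F x))⟩, F x), Subtype.ext ?_⟩
    exact mul_inv_cancel_left _ _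

theorem sum_conjCount_eq {ℓ : ℕ} (S : Finset Gal(L/ℚ)) (hℓ : ℓ.Prime) :
    ∑ g ∈ S, conjCount L g ℓ =
      (Nat.card {x : Gal(L/ℚ) // x⁻¹ * frobL L ℓ * x ∈ S} : ℝ) := by
  classical
  have := Fintype.ofFinite Gal(L/ℚ)
  rw [Nat.card_eq_fintype_card, Fintype.card_subtype]
  rw [Finset.card_eq_sum_card_fiberwise
    (s := Finset.univ.filter fun x : Gal(L/ℚ) => x⁻¹ * frobL L ℓ * x ∈ S)
    (f := fun x => x⁻¹ * frobL L ℓ * x) (t := S) fun x hx => (Finset.mem_filter.mp hx).2]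
  push_cast
  refine Finset.sum_congr rfl fun g hg => ?_
  rw [conjCount, if_pos hℓ, Nat.card_eq_fintype_card, Fintype.card_subtype, Finset.filter_filter]
  refine congrArg _ (congrArg _ (Finset.filter_congr fun x _ => ?_))
  exact ⟨fun h => ⟨h ▸ hg, h⟩, And.right⟩

/-- A hom takes each of its values equally often. -/
private theorem card_fibre_mul_card_range {G H : Type*} [Group G] [Group H] (f : G →* H) (g₀ : G) :
    Nat.card {g // f g = f g₀} * Nat.card f.range = Nat.card G := by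
  have e : {g // f g = f g₀} ≃ f.ker := (Equiv.mulLeft g₀⁻¹).subtypeEquiv fun g => by
    rw [MonoidHom.mem_ker, Equiv.coe_mulLeft, map_mul, map_inv, inv_mul_eq_one, eq_comm]
  rw [Nat.card_congr e, ← Nat.card_congr (QuotientGroup.quotientKerEquivRange f).toEquiv,
    Subgroup.card_eq_card_quotient_mul_card_subgroup f.ker, mul_comm]

/-- **Equidistribution** of the Frobenius values. -/
theorem hasDens_fr (hψ : Unram K ψ) (hlev : Level K ψ) {a : A} (ha : a ∈ ψ.range) :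
    HasDens (pcount K fun P => ψ (fr K P) = a) (1 / Nat.card ψ.range : ℝ) := by
  classical
  obtain ⟨L₁, hfd, hL₁⟩ := hlev
  let L : IntermediateField ℚ QBar := IntermediateField.normalClosure ℚ ↥(L₁ ⊔ K) QBar
  have : Normal ℚ L := normalClosure.normal ℚ _ QBar
  have : IsGalois ℚ L := ⟨⟩
  have hle : L₁ ⊔ K ≤ L := (L₁ ⊔ K).le_normalClosure
  have hKL : K ≤ L := le_sup_right.trans hle
  have hker : ∀ σ σ' : K.fixingSubgroup, resK L σ = resK L σ' → ψ σ = ψ σ' := fun σ σ' h => by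
    refine eq_of_inv_mul_eq_one ?_
    rw [← map_inv, ← map_mul]
    refine hL₁ _ fun x hx => (restrictNormalHom_eq_one_iff L).mp ?_ x
      (hle (le_sup_left (b := K) hx))
    show resK L (σ⁻¹ * σ') = 1
    rw [map_mul, map_inv, h, inv_mul_cancel]
  obtain ⟨B, hB⟩ := exists_bound_good K
  have := Fintype.ofFinite Gal(L/ℚ)
  set S := (Finset.univ : Finset Gal(L/ℚ)).filter fun g =>
    ∃ σ : K.fixingSubgroup, resK L σ = g ∧ ψ σ = a
  set R := (resK (K := K) L).range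
  have hR : (0 : ℝ) < Nat.card R := Nat.cast_pos.mpr Nat.card_pos
  -- `ψ` factors through `f` on `R`, so `S` is a fibre of `f`
  let f : R →* A := (MonoidHom.liftOfSurjective (resK (K := K) L).rangeRestrict
    (MonoidHom.rangeRestrict_surjective _)) ⟨ψ, fun σ hσ => by
      rw [MonoidHom.mem_ker, ← map_one ψ]
      exact hker σ 1 (by rw [map_one]; exact congrArg Subtype.val hσ)⟩
  have hf : ∀ σ, f ((resK L).rangeRestrict σ) = ψ σ := fun σ =>
    (resK (K := K) L).rangeRestrict.liftOfRightInverse_comp_apply _ _ _ σ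
  have hcard : S.card * Nat.card ψ.range = Nat.card R := by
    have hrange : f.range = ψ.range := by
      ext b
      refine ⟨fun ⟨r, hr⟩ => ?_, fun ⟨σ, hσ⟩ => ⟨(resK L).rangeRestrict σ, (hf σ).trans hσ⟩⟩
      obtain ⟨σ, rfl⟩ := (resK (K := K) L).rangeRestrict_surjective r
      exact ⟨σ, (hf σ).symm.trans hr⟩
    obtain ⟨σ₀, rfl⟩ := ha
    have hmem : ∀ g : Gal(L/ℚ), g ∈ S ↔ ∃ σ : K.fixingSubgroup, resK L σ = g ∧ ψ σ = ψ σ₀ :=
      fun g => Finset.mem_filter.trans (and_iff_right (Finset.mem_univ _))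
    have e1 : {g : Gal(L/ℚ) // g ∈ S} ≃ {r : R // f r = ψ σ₀} :=
      { toFun := fun g => ⟨⟨g.1, ((hmem g.1).mp g.2).imp fun σ h => h.1⟩, by
          obtain ⟨σ, hσ, hσa⟩ := (hmem g.1).mp g.2
          exact ((congrArg f (Subtype.ext hσ.symm)).trans (hf σ)).trans hσa⟩
        invFun := fun r => ⟨r.1.1, (hmem _).mpr (by
          obtain ⟨σ, hσ⟩ := (resK (K := K) L).rangeRestrict_surjective r.1
          exact ⟨σ, congrArg Subtype.val hσ, by rw [← hf σ, hσ]; exact r.2⟩)⟩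
        left_inv := fun _ => rfl
        right_inv := fun _ => rfl }
    rw [← Nat.card_eq_finsetCard S, Nat.card_congr e1, ← hrange, ← hf σ₀]
    exact card_fibre_mul_card_range f _
  -- above `B`, conjugates of the Frobenius in `S` count the primes, `|R|` to each
  have hcount : ∀ ℓ, B < ℓ → (Nat.card R : ℝ)⁻¹ * ∑ g ∈ S, conjCount L g ℓ =
      pcount K (fun P => ψ (fr K P) = a) ℓ := by
    intro ℓ hℓB
    by_cases hℓ : ℓ.Prime
    swap
    · rw [pcount, if_neg hℓ, Finset.sum_eq_zero fun g _ => by simp [conjCount, hℓ], mul_zero]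
    have hSc : Nat.card {x : Gal(L/ℚ) // x⁻¹ * frobL L ℓ * x ∈ S} =
        Nat.card R * Nat.card {P : PrimeId K // Ideal.absNorm P.1 = ℓ ∧ ψ (fr K P) = a} :=
      (Nat.card_congr (Equiv.subtypeEquivRight fun x =>
        Finset.mem_filter.trans (and_iff_right (Finset.mem_univ _)))).trans
        (card_conj_eq hψ hKL hker hℓ (hB ℓ hℓ hℓB) a)
    rw [sum_conjCount_eq S hℓ, pcount, if_pos hℓ, hSc, Nat.cast_mul,
      inv_mul_cancel_left₀ hR.ne']
  have hS : HasDens (fun ℓ => (Nat.card R : ℝ)⁻¹ * ∑ g ∈ S, conjCount L g ℓ)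
      ((Nat.card R : ℝ)⁻¹ * ∑ _g ∈ S, (1 : ℝ)) :=
    (HasDens.finset_sum S (fun g _ => tendsto_ratio L g) fun g _ =>
      ⟨conjCount_nonneg L g, (Nat.card Gal(L/ℚ) : ℝ), conjCount_le L g⟩).smul _
  have hval : (Nat.card R : ℝ)⁻¹ * ∑ _g ∈ S, (1 : ℝ) = 1 / Nat.card ψ.range := by
    rw [Finset.sum_const, nsmul_eq_mul, mul_one, ← hcard, Nat.cast_mul]
    have h0 : (S.card : ℝ) ≠ 0 := by
      intro h0
      rw [Nat.cast_eq_zero] at h0
      rw [h0, zero_mul] at hcard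
      exact Nat.card_pos.ne' hcard.symm
    field_simp
  rw [← hval]
  exact hS.congr_above ((Sparse.finset_sum S fun g _ =>
    ⟨conjCount_nonneg L g, (Nat.card Gal(L/ℚ) : ℝ), conjCount_le L g⟩).smul (inv_nonneg.mpr hR.le))
    (sparse_pcount _) B hcount

end Fermat.Agent.LT.ClassBound
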