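import Fermat.Agent.LT.ClassBound.Invariant
import Mathlib.NumberTheory.NumberField.ClassNumber
import Mathlib.RepresentationTheory.Homological.GroupCohomology.Hilbert90

/-!
# The norm subgroup of the class group of an unramified cyclic extension has large index

For `L/K` cyclic unramified of prime power degree over a totally complex `K` with finitely many
units, the norm of the class group of `L` has index at least `[L : K]`.
-/

set_option autoImplicit false

noncomputable section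

namespace Fermat.Agent.LT.ClassBound

open Module NumberField NumberField.Units
open scoped nonZeroDivisors

variable {K L : Type} [Field K] [NumberField K] [Field L] [NumberField L] [Algebra K L]
  [IsGalois K L]

variable {g : L ≃ₐ[K] L} (hg : ∀ x, x ∈ Subgroup.zpowers g)

/-- The obstruction of a fixed class is the norm of a ratio. -/
def Rel (g : L ≃ₐ[K] L) (C : ClassGroup (𝓞 L)) (u : (𝓞 K)ˣ) : Prop :=
  ∃ (J : (Ideal (𝓞 L))⁰) (x y : 𝓞 L), x ≠ 0 ∧ y ≠ 0 ∧ ClassGroup.mk0 J = C ∧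
    Ideal.span {y} * conjI g (J : Ideal (𝓞 L)) = Ideal.span {x} * J ∧
    Algebra.intNorm (𝓞 K) (𝓞 L) x = u * Algebra.intNorm (𝓞 K) (𝓞 L) y

theorem intNorm_act (h : L ≃ₐ[K] L) (x : 𝓞 L) :
    Algebra.intNorm (𝓞 K) (𝓞 L) (act h x) = Algebra.intNorm (𝓞 K) (𝓞 L) x :=
  RingOfIntegers.ext ((Algebra.algebraMap_intNorm (A := 𝓞 K) (K := K) (L := L) (B := 𝓞 L) _).trans
    ((congrArg (Algebra.norm K) (coe_act h x)).trans ((Algebra.norm_eq_of_algEquiv h _).trans
      (Algebra.algebraMap_intNorm (A := 𝓞 K) (K := K) (L := L) (B := 𝓞 L) x).symm)))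

omit [NumberField L] in
theorem conjI_span (h : L ≃ₐ[K] L) (x : 𝓞 L) :
    conjI h (Ideal.span {x}) = Ideal.span {act h x} :=
  (Ideal.map_span _ _).trans (congrArg Ideal.span Set.image_singleton)

omit [NumberField L] in
theorem conjI_mul_ideal (h : L ≃ₐ[K] L) (I J : Ideal (𝓞 L)) :
    conjI h (I * J) = conjI h I * conjI h J := Ideal.map_mul _ _ _

theorem rel_mul {C C' : ClassGroup (𝓞 L)} {u u' : (𝓞 K)ˣ} (h : Rel g C u) (h' : Rel g C' u') :
    Rel g (C * C') (u * u') := by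
  obtain ⟨J, x, y, hx, hy, rfl, he, hn⟩ := h
  obtain ⟨J', x', y', hx', hy', rfl, he', hn'⟩ := h'
  refine ⟨J * J', x * x', y * y', mul_ne_zero hx hx', mul_ne_zero hy hy', map_mul _ _ _, ?_, ?_⟩
  · rw [Submonoid.coe_mul, conjI_mul_ideal, ← Ideal.span_singleton_mul_span_singleton,
      ← Ideal.span_singleton_mul_span_singleton, mul_mul_mul_comm, he, he', mul_mul_mul_comm]
  · rw [map_mul, map_mul, hn, hn', Units.val_mul, mul_mul_mul_comm]

theorem rel_inv {C : ClassGroup (𝓞 L)} {u : (𝓞 K)ˣ} (h : Rel g C u) : Rel g C⁻¹ u⁻¹ := by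
  obtain ⟨J, x, y, hx, hy, rfl, he, hn⟩ := h
  obtain ⟨J', hJ'⟩ := ClassGroup.mk0_surjective (ClassGroup.mk0 J)⁻¹
  have hpr : ClassGroup.mk0 (J * J') = 1 := by rw [map_mul, hJ', mul_inv_cancel]
  obtain ⟨⟨a, ha⟩⟩ := (ClassGroup.mk0_eq_one_iff (J * J').2).mp hpr
  change ((J * J' : (Ideal (𝓞 L))⁰) : Ideal (𝓞 L)) = Ideal.span {a} at ha
  have ha0 : a ≠ 0 := fun h0 => nonZeroDivisors.coe_ne_zero (J * J')
    (by rw [ha, h0, Ideal.span_singleton_eq_bot.mpr rfl]; rfl)
  -- with `J J' = (a)`, the ratio of `J'` is `y g(a) / (x a)`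
  refine ⟨J', y * act g a, x * a, mul_ne_zero hy ?_, mul_ne_zero hx ha0, hJ', ?_, ?_⟩
  · exact fun h0 => ha0 ((act g).injective (h0.trans (map_zero _).symm))
  · have hga : conjI g (J : Ideal (𝓞 L)) * conjI g (J' : Ideal (𝓞 L)) = Ideal.span {act g a} := by
      rw [← conjI_mul_ideal, ← conjI_span, ← ha, Submonoid.coe_mul]
    rw [← Ideal.span_singleton_mul_span_singleton, ← Ideal.span_singleton_mul_span_singleton,
      ← hga, ← ha, Submonoid.coe_mul]
    calc Ideal.span {x} * ((J : Ideal (𝓞 L)) * J') * conjI g (J' : Ideal (𝓞 L))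
        = (Ideal.span {x} * J) * J' * conjI g (J' : Ideal (𝓞 L)) := by ring
      _ = _ := by rw [← he]; ring
  · rw [map_mul, map_mul, intNorm_act, ← mul_assoc, hn, ← mul_assoc, ← Units.val_mul,
      inv_mul_cancel, Units.val_one, one_mul]

theorem rel_exists {C : ClassGroup (𝓞 L)} (hC : classAct g C = C) : ∃ u, Rel g C u := by
  obtain ⟨J, rfl⟩ := ClassGroup.mk0_surjective C
  let J' : (Ideal (𝓞 L))⁰ := ⟨conjI g (J : Ideal (𝓞 L)), mem_nonZeroDivisors_iff_ne_zero.mpr
    fun h => nonZeroDivisors.coe_ne_zero J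
      ((Ideal.map_eq_bot_iff_of_injective (act g).injective).mp h)⟩
  have hJ' : classAct g (ClassGroup.mk0 J) = ClassGroup.mk0 J' := extHom_mk0 _ _ J J' rfl
  rw [hJ'] at hC
  obtain ⟨y, x, hy, hx, he⟩ := ClassGroup.mk0_eq_mk0_iff.mp hC
  -- the relative norms of `x` and `y` differ by a unit
  have hN := congrArg (Ideal.relNorm (𝓞 K)) he
  rw [map_mul, map_mul, Ideal.relNorm_singleton, Ideal.relNorm_singleton] at hN
  rw [show ((J' : (Ideal (𝓞 L))⁰) : Ideal (𝓞 L)) = conjI g (J : Ideal (𝓞 L)) from rfl,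
    relNorm_conjI] at hN
  have hN' := mul_right_cancel₀
    (mt Ideal.relNorm_eq_bot_iff.mp (nonZeroDivisors.coe_ne_zero J)) hN
  obtain ⟨u, hu⟩ := Ideal.span_singleton_eq_span_singleton.mp hN'
  exact ⟨u, J, x, y, hx, hy, rfl, he, by rw [← hu, mul_comm]⟩

include hg in
/-- Hilbert 90 with denominators cleared. -/
theorem exists_mul_act_eq {x y : 𝓞 L} (hy : y ≠ 0) (ε : (𝓞 L)ˣ)
    (hn : Algebra.intNorm (𝓞 K) (𝓞 L) x = unitNorm K L ε * Algebra.intNorm (𝓞 K) (𝓞 L) y) :
    ∃ a : 𝓞 L, a ≠ 0 ∧ x * act g a = (ε : 𝓞 L) * y * a := by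
  have : IsCyclic (L ≃ₐ[K] L) := ⟨g, hg⟩
  set c : L := algebraMap (𝓞 L) L ((ε : 𝓞 L) * y) with hc
  have hc0 : c ≠ 0 := fun h0 => mul_ne_zero ε.ne_zero hy
    (RingOfIntegers.ext (h0.trans (map_zero _).symm))
  have hnorm : Algebra.norm K (algebraMap (𝓞 L) L x / c) = 1 := by
    have e := congrArg (algebraMap (𝓞 K) K) hn
    rw [map_mul, Algebra.algebraMap_intNorm (L := L), Algebra.algebraMap_intNorm (L := L)] at e
    have e2 : Algebra.norm K (algebraMap (𝓞 L) L x) = Algebra.norm K c := by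
      rw [hc, map_mul (algebraMap (𝓞 L) L), map_mul]
      exact e.trans (congrArg (· * _) (coe_unitNorm ε))
    rw [div_eq_mul_inv, map_mul, Algebra.norm_inv, e2,
      mul_inv_cancel₀ (Algebra.norm_ne_zero_iff.mpr hc0)]
  -- `x / (ε y) = w / g w`; multiply `w` into an integer
  obtain ⟨w, hw⟩ := groupCohomology.exists_div_of_norm_eq_one hg hnorm
  obtain ⟨m, hm, hint⟩ := ((IsFractionRing.isAlgebraic_iff ℤ ℚ L).mpr
    (Algebra.IsAlgebraic.isAlgebraic (R := ℚ) (w : L))).exists_integral_multiple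
  obtain ⟨a, ham⟩ : ∃ a : 𝓞 L, algebraMap (𝓞 L) L a = (m : L) * (w : L) :=
    ⟨⟨_, hint⟩, zsmul_eq_mul (w : L) m⟩
  refine ⟨a, fun h0 => ?_, ?_⟩
  · rw [h0, map_zero] at ham
    exact mul_ne_zero (Int.cast_ne_zero.mpr hm) w.ne_zero ham.symm
  · refine RingOfIntegers.ext ?_
    have hga : algebraMap (𝓞 L) L (act g a) = (m : L) * g (w : L) := by
      refine (coe_act g a).trans ?_
      show g (algebraMap (𝓞 L) L a) = _
      rw [ham, map_mul g, map_intCast]
    show algebraMap (𝓞 L) L (x * act g a) = algebraMap (𝓞 L) L ((ε : 𝓞 L) * y * a)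
    rw [map_mul (algebraMap (𝓞 L) L) x, map_mul (algebraMap (𝓞 L) L) _ a, hga, ham, ← hc]
    rw [div_eq_div_iff ((map_ne_zero g).mpr w.ne_zero) hc0] at hw
    linear_combination -(m : L) * hw

theorem conjI_invariant {x y a : 𝓞 L} {ε : (𝓞 L)ˣ} {J : Ideal (𝓞 L)} (hy : y ≠ 0)
    (he : Ideal.span {y} * conjI g J = Ideal.span {x} * J)
    (hrel : x * act g a = (ε : 𝓞 L) * y * a) :
    conjI g (Ideal.span {a} * J) = Ideal.span {a} * J := by
  refine mul_left_cancel₀ (mt Ideal.span_singleton_eq_bot.mp hy : Ideal.span {y} ≠ 0) ?_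
  rw [conjI_mul_ideal, conjI_span, mul_left_comm, he, ← mul_assoc,
    Ideal.span_singleton_mul_span_singleton, mul_comm (act g a), hrel,
    ← Ideal.span_singleton_mul_span_singleton, ← Ideal.span_singleton_mul_span_singleton,
    Ideal.span_singleton_eq_top.mpr ε.isUnit, Ideal.top_mul, mul_assoc]

include hg in
theorem rel_extended (hunr : UnramExt K L) {C : ClassGroup (𝓞 L)} {u : (𝓞 K)ˣ}
    (h : Rel g C u) (hu : u ∈ (unitNorm K L).range) : C ∈ (extClass K L).range := by
  obtain ⟨J, x, y, hx, hy, rfl, he, hn⟩ := h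
  obtain ⟨ε, rfl⟩ := hu
  obtain ⟨a, ha, hrel⟩ := exists_mul_act_eq hg hy ε hn
  let J' : (Ideal (𝓞 L))⁰ := ⟨Ideal.span {a}, mem_nonZeroDivisors_iff_ne_zero.mpr
    (mt Ideal.span_singleton_eq_bot.mp ha)⟩ * J
  have hcoe : (J' : Ideal (𝓞 L)) = Ideal.span {a} * (J : Ideal (𝓞 L)) := Submonoid.coe_mul _ _ _
  obtain ⟨I, hI0, hI⟩ := exists_map_eq_of_invariant hg hunr (J' : Ideal (𝓞 L))
    (nonZeroDivisors.coe_ne_zero J') (by rw [hcoe]; exact conjI_invariant hy he hrel)
  refine ⟨ClassGroup.mk0 ⟨I, mem_nonZeroDivisors_iff_ne_zero.mpr hI0⟩, ?_⟩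
  have e : ClassGroup.mk0 J' = ClassGroup.mk0 J := (ClassGroup.mk0_eq_mk0_iff).mpr
    ⟨1, a, one_ne_zero, ha, (congrArg (Ideal.span {1} * ·) hcoe).trans
      (by rw [Ideal.span_singleton_one, Ideal.top_mul])⟩
  exact (extClass_mk0 ⟨I, mem_nonZeroDivisors_iff_ne_zero.mpr hI0⟩ J' hI).trans e

variable (K L) in
/-- Classes fixed by `g`. -/
def fixedClasses (g : L ≃ₐ[K] L) : Subgroup (ClassGroup (𝓞 L)) :=
  (classAct g / MonoidHom.id _).ker

theorem mem_fixedClasses {C : ClassGroup (𝓞 L)} : C ∈ fixedClasses K L g ↔ classAct g C = C :=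
  MonoidHom.mem_ker.trans (div_eq_one (a := classAct g C) (b := C))

include hg in
theorem card_fixedClasses_le [Finite (𝓞 K)ˣ] (hunr : UnramExt K L) :
    Nat.card (fixedClasses K L g) ≤ (unitNorm K L).range.index * Nat.card (extClass K L).range := by
  classical
  set R := (unitNorm K L).range
  have hex : ∀ C : fixedClasses K L g, ∃ u, Rel g C.1 u := fun C =>
    rel_exists (mem_fixedClasses.mp C.2)
  choose u hu using hex
  -- classes with the same obstruction modulo norms differ by extended classes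
  let rep : (𝓞 K)ˣ ⧸ R → ClassGroup (𝓞 L) := fun q =>
    if h : ∃ C, (u C : (𝓞 K)ˣ ⧸ R) = q then h.choose.1 else 1
  have hrep : ∀ C, C.1 / rep (u C) ∈ (extClass K L).range := fun C => by
    have h : ∃ C', (u C' : (𝓞 K)ˣ ⧸ R) = u C := ⟨C, rfl⟩
    have e : rep (u C) = h.choose.1 := dif_pos h
    rw [e, div_eq_mul_inv]
    exact rel_extended hg hunr (rel_mul (hu C) (rel_inv (hu h.choose))) (by
      rw [mul_comm, ← QuotientGroup.eq]
      exact h.choose_spec)
  rw [Subgroup.index_eq_card, ← Nat.card_prod]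
  refine Nat.card_le_card_of_injective (fun C => ((u C : (𝓞 K)ˣ ⧸ R), ⟨_, hrep C⟩))
    fun C C' h => ?_
  obtain ⟨h1, h2⟩ := Prod.mk.inj h
  have h3 : C.1 / rep (u C) = C'.1 / rep (u C') := congrArg Subtype.val h2
  rw [h1] at h3
  exact Subtype.ext (div_left_injective h3)

include hg in
theorem relIndex_le_ker (hunr : UnramExt K L) :
    (delta g).range.relIndex (unitNorm K L).ker ≤ Nat.card (extClass K L).ker := by
  classical
  have : IsCyclic (L ≃ₐ[K] L) := ⟨g, hg⟩
  have hex : ∀ ε : (unitNorm K L).ker, ∃ (I : (Ideal (𝓞 K))⁰) (b : 𝓞 L), b ≠ 0 ∧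
      (I : Ideal (𝓞 K)).map (algebraMap (𝓞 K) (𝓞 L)) = Ideal.span {b} ∧
      act g b = ((ε : (𝓞 L)ˣ) : 𝓞 L) * b := by
    intro ε
    have hη : Algebra.norm K ((((ε : (𝓞 L)ˣ)⁻¹ : (𝓞 L)ˣ) : 𝓞 L) : L) = 1 := by
      rw [← coe_unitNorm, map_inv, MonoidHom.mem_ker.mp ε.2, inv_one, Units.val_one]
      exact map_one (algebraMap (𝓞 K) K)
    obtain ⟨b, hb0, hb⟩ := groupCohomology.exists_mul_galRestrict_of_norm_eq_one
      (A := 𝓞 K) (K := K) (L := L) (B := 𝓞 L) hg hη
    have hb' : act g b = ((ε : (𝓞 L)ˣ) : 𝓞 L) * b := by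
      conv_rhs => rw [← hb, ← mul_assoc, ← Units.val_mul, mul_inv_cancel, Units.val_one, one_mul]
    obtain ⟨I, hI0, hI⟩ := exists_map_eq_of_invariant hg hunr (Ideal.span {b})
      (mt Ideal.span_singleton_eq_bot.mp hb0)
      (by rw [conjI_span, hb', Ideal.span_singleton_mul_left_unit (ε : (𝓞 L)ˣ).isUnit])
    exact ⟨⟨I, mem_nonZeroDivisors_iff_ne_zero.mpr hI0⟩, b, hb0, hI, hb'⟩
  -- `ε ↦ [I]`, where `g b = ε b` and `(b)` is the extension of `I`
  choose I b hb0 hI hact using hex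
  have hker : ∀ ε, ClassGroup.mk0 (I ε) ∈ (extClass K L).ker := fun ε => by
    rw [MonoidHom.mem_ker]
    refine (extClass_mk0 (I ε) ⟨Ideal.span {b ε}, mem_nonZeroDivisors_iff_ne_zero.mpr
      (mt Ideal.span_singleton_eq_bot.mp (hb0 ε))⟩ (hI ε)).trans ?_
    exact (ClassGroup.mk0_eq_one_iff _).mpr ⟨⟨b ε, rfl⟩⟩
  have hsep : ∀ ε ε', ClassGroup.mk0 (I ε) = ClassGroup.mk0 (I ε') →
      (ε : (𝓞 L)ˣ)⁻¹ * ε' ∈ (delta g).range := by
    intro ε ε' h
    obtain ⟨c, c', hc, hc', he⟩ := ClassGroup.mk0_eq_mk0_iff.mp h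
    have h1 := congrArg (Ideal.map (algebraMap (𝓞 K) (𝓞 L))) he
    rw [Ideal.map_mul, Ideal.map_mul, hI, hI, Ideal.map_span, Ideal.map_span, Set.image_singleton,
      Set.image_singleton, Ideal.span_singleton_mul_span_singleton,
      Ideal.span_singleton_mul_span_singleton] at h1
    obtain ⟨η, hη⟩ := Ideal.span_singleton_eq_span_singleton.mp h1
    have h2 := congrArg (act g) hη
    rw [map_mul, map_mul, map_mul, AlgEquiv.commutes, AlgEquiv.commutes, hact, hact] at h2
    refine ⟨η, ?_⟩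
    show unitAct g η / η = _
    rw [div_eq_iff_eq_mul, inv_mul_eq_div, div_mul_eq_mul_div, eq_div_iff_mul_eq']
    refine Units.ext ?_
    rw [Units.val_mul, Units.val_mul]
    refine mul_left_cancel₀ (mul_ne_zero (mt (fun h0 => (RingOfIntegers.algebraMap.injective _ _)
      (h0.trans (map_zero _).symm)) hc) (hb0 ε)) ?_
    have h3 : ((unitAct g η : (𝓞 L)ˣ) : 𝓞 L) = act g (η : 𝓞 L) := rfl
    rw [h3]
    linear_combination h2 - ((ε' : (𝓞 L)ˣ) : 𝓞 L) * hη
  rw [Subgroup.relIndex, Subgroup.index_eq_card]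
  refine Nat.card_le_card_of_injective (fun q => ⟨_, hker q.out⟩) fun q q' h => ?_
  rw [← q.out_eq, ← q'.out_eq]
  exact QuotientGroup.eq.mpr (hsep _ _ (congrArg Subtype.val h))

theorem card_normRange_le (g : L ≃ₐ[K] L) :
    Nat.card (normClass K L).range ≤ Nat.card (fixedClasses K L g) := by
  set δ := classAct g / MonoidHom.id _
  have hle : δ.range ≤ (normClass K L).ker := by
    rintro _ ⟨C, rfl⟩
    show normClass K L (classAct g C / C) = 1
    rw [map_div, normClass_classAct, div_self']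
  -- the norm kills the image of `g - 1`, whose index is the number of fixed classes
  have h1 := δ.range.card_mul_index
  have h2 := δ.ker.card_mul_index
  have h4 : δ.ker.index = Nat.card δ.range := by
    rw [Subgroup.index_eq_card, Nat.card_congr (QuotientGroup.quotientKerEquivRange δ).toEquiv]
  rw [h4] at h2
  have h3 : Nat.card δ.range * δ.range.index = Nat.card δ.range * Nat.card δ.ker := by
    rw [h1, mul_comm, h2]
  rw [show fixedClasses K L g = δ.ker from rfl, ← Nat.eq_of_mul_eq_mul_left Nat.card_pos h3,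
    ← Nat.card_congr (QuotientGroup.quotientKerEquivRange (normClass K L)).toEquiv,
    ← Subgroup.index_eq_card]
  exact Nat.le_of_dvd (Nat.pos_of_ne_zero Subgroup.index_ne_zero_of_finite)
    (Subgroup.index_dvd_of_le hle)

include hg in
/-- **The first inequality for class groups.** -/
theorem pow_le_index_normClass [IsTotallyComplex K] (hK : rank K = 0) {p : ℕ} [Fact p.Prime]
    {k : ℕ} (hn : finrank K L = p ^ k) (hunr : UnramExt K L) :
    p ^ k ≤ (normClass K L).range.index := by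
  have := finite_units hK
  have h1 := herbrand_count hK hg hn
  have h2 := card_fixedClasses_le hg hunr
  have h3 := relIndex_le_ker hg hunr
  have h4 := card_normRange_le g
  have h5 : Nat.card (extClass K L).ker * Nat.card (extClass K L).range =
      Nat.card (ClassGroup (𝓞 K)) := by
    rw [← Nat.card_congr (QuotientGroup.quotientKerEquivRange (extClass K L)).toEquiv,
      ← Subgroup.index_eq_card, Subgroup.card_mul_index]
  have h6 := (normClass K L).range.card_mul_index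
  refine Nat.le_of_mul_le_mul_right (c := Nat.card (normClass K L).range) ?_ Nat.card_pos
  calc p ^ k * Nat.card (normClass K L).range
      ≤ p ^ k * ((unitNorm K L).range.index * Nat.card (extClass K L).range) :=
        Nat.mul_le_mul_left _ (h4.trans h2)
    _ ≤ Nat.card (extClass K L).ker * Nat.card (extClass K L).range := by
        rw [← mul_assoc]; exact Nat.mul_le_mul_right _ (h1.trans h3)
    _ = _ := by rw [h5, ← h6, mul_comm]

end Fermat.Agent.LT.ClassBound
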