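import Fermat.Agent.LT.ClassBound.Frob
import Fermat.Agent.ClassField.Density

/-!
# The upper density of the degree one primes in a subgroup of the class group
-/

set_option autoImplicit false

noncomputable section

namespace Fermat.Agent.LT.ClassBound

open Filter Topology NumberField IsDedekindDomain Fermat.Agent.Arith Fermat.Agent.Arith.Density
  Fermat.Agent.Arith.Chebotarev Fermat.Agent.ClassField
open scoped Classical

section General

variable {K : Type*} [Field K] [NumberField K]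

/-- The class of a prime. -/
def cl (P : PrimeId K) : ClassGroup (𝓞 K) :=
  ClassGroup.mk0 ⟨P.1, mem_nonZeroDivisors_of_ne_zero P.2.2⟩

/-- The prime as a point of the spectrum. -/
def toSpec (P : PrimeId K) : HeightOneSpectrum (𝓞 K) := ⟨P.1, P.2.1, P.2.2⟩

omit [NumberField K] in
theorem toSpec_injective : Function.Injective (toSpec (K := K)) := fun _ _ h =>
  Subtype.ext (congrArg HeightOneSpectrum.asIdeal h)

theorem exp_le_norm_inv_one_sub {a : ℂ} (ha : ‖a‖ = 1) {x : ℝ} (hx : 0 < x) (hx1 : x ≤ 1 / 2) :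
    Real.exp (a.re * x - x ^ 2 / 2) ≤ ‖(1 - a * (x : ℂ))⁻¹‖ := by
  have hne : 0 < ‖1 - a * (x : ℂ)‖ := by
    refine norm_pos_iff.mpr (sub_ne_zero.mpr fun h => ?_)
    have := congrArg norm h
    rw [norm_one, norm_mul, ha, one_mul, Complex.norm_of_nonneg hx.le] at this
    linarith
  rw [norm_inv, le_inv_comm₀ (Real.exp_pos _) hne, ← Real.exp_neg]
  refine le_of_pow_le_pow_left₀ two_ne_zero (Real.exp_pos _).le ?_
  rw [← Real.exp_nat_mul, Complex.sq_norm, Complex.normSq_apply]
  simp only [Complex.sub_re, Complex.sub_im, Complex.one_re, Complex.one_im, Complex.mul_re,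
    Complex.mul_im, Complex.ofReal_re, Complex.ofReal_im, mul_zero, sub_zero, zero_add, zero_sub]
  have h1 : a.re * a.re + a.im * a.im = 1 := by
    rw [← Complex.normSq_apply, ← Complex.sq_norm, ha, one_pow]
  refine le_of_eq_of_le ?_ (Real.add_one_le_exp _)
  push_cast
  linear_combination x ^ 2 * h1

theorem exists_sq_bound : ∃ C : ℝ, ∀ s ∈ Set.Ioc (1 : ℝ) 2,
    ∀ S : Finset (HeightOneSpectrum (𝓞 K)), ∑ P ∈ S, primeWeight P s ^ 2 ≤ C := by
  obtain ⟨C, hC⟩ := exists_error_bound (∅ : Finset (HeightOneSpectrum (𝓞 K)))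
  refine ⟨C / 2, fun s hs S => ?_⟩
  have h := hC s hs S
  have h0 : 0 ≤ ∑ P ∈ S.filter fun P : HeightOneSpectrum (𝓞 K) =>
      P ∈ (∅ : Finset (HeightOneSpectrum (𝓞 K))) ∨ ¬ (Ideal.absNorm P.asIdeal).Prime,
      primeWeight P s := Finset.sum_nonneg fun P _ => (primeWeight_pos P s).le
  linarith

variable (H : Subgroup (ClassGroup (𝓞 K)))

/-- A character of the quotient as a character of the class group. -/
def quotChar (χ : (ClassGroup (𝓞 K) ⧸ H) →* ℂˣ) : ClassGroup (𝓞 K) →* ℂ :=
  (Units.coeHom ℂ).comp (χ.comp (QuotientGroup.mk' H))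

theorem norm_quotChar (χ : (ClassGroup (𝓞 K) ⧸ H) →* ℂˣ) (C : ClassGroup (𝓞 K)) :
    ‖quotChar H χ C‖ = 1 := by
  have h : quotChar H χ C ^ Fintype.card (ClassGroup (𝓞 K)) = 1 := by
    rw [← map_pow, pow_card_eq_one, map_one]
  exact Complex.norm_eq_one_of_pow_eq_one h Fintype.card_ne_zero

theorem sum_quotChar [Fintype ((ClassGroup (𝓞 K) ⧸ H) →* ℂˣ)] (C : ClassGroup (𝓞 K)) :
    ∑ χ, quotChar H χ C = if C ∈ H then (H.index : ℂ) else 0 := by
  have : Finite (ClassGroup (𝓞 K) ⧸ H) := inferInstance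
  split_ifs with h
  · have h1 : (QuotientGroup.mk' H) C = 1 := (QuotientGroup.eq_one_iff C).mpr h
    simp only [quotChar, MonoidHom.comp_apply, h1, map_one, Finset.sum_const, Finset.card_univ,
      nsmul_eq_mul, mul_one, Subgroup.index]
    obtain ⟨e⟩ := CommGroup.monoidHom_mulEquiv_of_hasEnoughRootsOfUnity (ClassGroup (𝓞 K) ⧸ H) ℂ
    rw [← Nat.card_eq_fintype_card, Nat.card_congr e.toEquiv]
  · have h1 : (QuotientGroup.mk' H) C ≠ 1 := fun h1 => h ((QuotientGroup.eq_one_iff C).mp h1)
    obtain ⟨χ₀, hχ₀⟩ := CommGroup.exists_apply_ne_one_of_hasEnoughRootsOfUnity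
      (ClassGroup (𝓞 K) ⧸ H) ℂ h1
    refine eq_zero_of_mul_eq_self_left (b := quotChar H χ₀ C)
      (fun h2 => hχ₀ (Units.ext h2)) ?_
    rw [Finset.mul_sum]
    exact Fintype.sum_equiv (Equiv.mulLeft χ₀) _ _ fun χ => rfl

/-- Near `1` the series of the trivial character has a pole and the others are bounded. -/
private theorem norm_tsum_quotChar_le {s : ℝ} (hs : s ∈ Set.Ioc (1 : ℝ) 2) {A B : ℝ}
    (hA : (s - 1) * idealZeta K s ≤ A)
    (hB : ∀ C C' : ClassGroup (𝓞 K), |classZeta K C s - classZeta K C' s| ≤ B)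
    (χ : (ClassGroup (𝓞 K) ⧸ H) →* ℂˣ) : ‖∑' I, idealTerm (quotChar H χ) s I‖ ≤
      if χ = 1 then A / (s - 1)
        else max 1 ((Fintype.card (ClassGroup (𝓞 K)) : ℝ) * B) := by
  rw [tsum_idealTerm _ hs]
  split_ifs with h1
  · refine (norm_sum_le _ _).trans ?_
    rw [le_div_iff₀ (by linarith [hs.1])]
    refine le_trans (le_of_eq ?_) hA
    rw [idealZeta, (hasSum_idealZeta K hs).tsum_eq, mul_comm]
    congr 1
    refine Finset.sum_congr rfl fun D _ => ?_
    rw [norm_mul, norm_quotChar, one_mul, Complex.norm_of_nonneg (classZeta_nonneg K D s)]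
  · obtain ⟨D₀, hD₀⟩ : ∃ D, quotChar H χ D ≠ 1 := by
      by_contra! h
      refine h1 (MonoidHom.ext fun q => ?_)
      obtain ⟨D, rfl⟩ := QuotientGroup.mk'_surjective H q
      exact Units.ext (h D)
    have hsum0 : ∑ D, quotChar H χ D = 0 := by
      refine eq_zero_of_mul_eq_self_left (b := quotChar H χ D₀) hD₀ ?_
      rw [Finset.mul_sum]
      exact Fintype.sum_equiv (Equiv.mulLeft D₀) _ _ fun D => (map_mul _ _ _).symm
    -- as the values sum to zero, only the differences of the partial zeta functions remain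
    rw [show ∑ D, quotChar H χ D * (classZeta K D s : ℂ) =
      ∑ D, quotChar H χ D * ((classZeta K D s - classZeta K 1 s : ℝ) : ℂ) by
        simp only [Complex.ofReal_sub, mul_sub, Finset.sum_sub_distrib, ← Finset.sum_mul,
          hsum0, zero_mul, sub_zero]]
    refine le_trans ((norm_sum_le _ _).trans (Finset.sum_le_card_nsmul _ _ B fun D _ => ?_))
      (le_of_eq_of_le (by simp) (le_max_right 1 _))
    rw [norm_mul, norm_quotChar, one_mul, Complex.norm_real, Real.norm_eq_abs]
    exact hB D 1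

/-- The Euler factors at `P` of all the characters: a lower bound for the product of their norms. -/
private theorem exp_le_prod_norm_eulerFactor [Fintype ((ClassGroup (𝓞 K) ⧸ H) →* ℂˣ)] {s : ℝ}
    (hs : 1 ≤ s) (P : HeightOneSpectrum (𝓞 K)) :
    Real.exp ((if ClassGroup.mk0 (primeElt P) ∈ H then (H.index : ℝ) else 0) * primeWeight P s -
      (Fintype.card ((ClassGroup (𝓞 K) ⧸ H) →* ℂˣ) : ℝ) * primeWeight P s ^ 2) ≤
      ∏ χ, ‖(1 - idealTerm (quotChar H χ) s (primeElt P))⁻¹‖ := by
  have hre : (if ClassGroup.mk0 (primeElt P) ∈ H then (H.index : ℝ) else 0) =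
      ∑ χ, (quotChar H χ (ClassGroup.mk0 (primeElt P))).re := by
    rw [← Complex.re_sum, sum_quotChar]
    split_ifs <;> simp
  refine le_trans (Real.exp_le_exp.mpr ?_) ((Real.exp_sum _ _).trans_le (Finset.prod_le_prod
    (fun χ _ => (Real.exp_pos _).le) fun χ _ => exp_le_norm_inv_one_sub
      (norm_quotChar H χ (ClassGroup.mk0 (primeElt P))) (primeWeight_pos P s)
      (primeWeight_le_half P hs)))
  rw [hre, Finset.sum_mul, Finset.sum_sub_distrib, Finset.sum_const, nsmul_eq_mul,
    Finset.card_univ]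
  refine sub_le_sub_left ?_ _
  exact mul_le_mul_of_nonneg_left (half_le_self (sq_nonneg _)) (Nat.cast_nonneg _)

/-- The bound on the sums over primes with class in `H`. -/
theorem exists_subgroup_bound : ∃ A : ℝ, ∀ᶠ s : ℝ in 𝓝[>] 1,
    ∀ S : Finset (HeightOneSpectrum (𝓞 K)), (∀ P ∈ S, ClassGroup.mk0 (primeElt P) ∈ H) →
      (H.index : ℝ) * ∑ P ∈ S, primeWeight P s ≤ -Real.log (s - 1) + A := by
  obtain ⟨B, hB⟩ := exists_classZeta_sub_le K
  obtain ⟨C, hC⟩ := exists_sq_bound (K := K)
  have := Fintype.ofFinite ((ClassGroup (𝓞 K) ⧸ H) →* ℂˣ)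
  set X := Fintype.card ((ClassGroup (𝓞 K) ⧸ H) →* ℂˣ)
  set N : ℝ := (Fintype.card (ClassGroup (𝓞 K)) : ℝ)
  set M : ℝ := (dedekindZeta_residue K + 1) * (max 1 (N * B)) ^ X
  refine ⟨Real.log M + (X : ℝ) * C, ?_⟩
  have hev : ∀ᶠ s : ℝ in 𝓝[>] 1, (s - 1) * idealZeta K s ≤ dedekindZeta_residue K + 1 :=
    (tendsto_sub_one_mul_idealZeta K).eventually (Iic_mem_nhds (lt_add_one _))
  -- the product of the series of all characters: above by `M / (s - 1)`, below by Euler products
  filter_upwards [hev, hB, Ioc_mem_nhdsGT one_lt_two] with s hs1 hB hs S hS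
  have hM : 0 < M := mul_pos (by linarith [dedekindZeta_residue_pos K]) (by positivity)
  have hs0 : 0 < s - 1 := by linarith [hs.1]
  -- each character
  have hbound := norm_tsum_quotChar_le H hs hs1 hB
  have hup : ‖∏ χ, ∑' I, idealTerm (quotChar H χ) s I‖ ≤ M / (s - 1) := by
    rw [norm_prod, ← Finset.mul_prod_erase _ _ (Finset.mem_univ 1)]
    have h1 := hbound 1
    rw [if_pos rfl] at h1
    rw [mul_div_right_comm]
    refine mul_le_mul h1 ?_ (Finset.prod_nonneg fun _ _ => norm_nonneg _) ((norm_nonneg _).trans h1)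
    refine (Finset.prod_le_prod (fun _ _ => norm_nonneg _) (g := fun _ => max 1 (N * B))
      fun χ hχ => ?_).trans ?_
    · exact (hbound χ).trans_eq (if_neg (Finset.mem_erase.mp hχ).1)
    · rw [Finset.prod_const]
      exact pow_le_pow_right₀ (le_max_left _ _) (Finset.card_le_univ _)
  -- the Euler product
  have hlim : Tendsto (fun T : Finset (HeightOneSpectrum (𝓞 K)) =>
      ‖∏ χ, ∏ P ∈ T, (1 - idealTerm (quotChar H χ) s (primeElt P))⁻¹‖) atTop
      (𝓝 ‖∏ χ, ∑' I, idealTerm (quotChar H χ) s I‖) :=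
    (tendsto_finsetProd _ fun χ _ => tendsto_eulerProduct _ (summable_norm_idealTerm _ hs)).norm
  set i := (H.index : ℝ)
  have hP := exp_le_prod_norm_eulerFactor H hs.1.le
  have hlow : Real.exp (i * ∑ P ∈ S, primeWeight P s - (X : ℝ) * C) ≤
      ‖∏ χ, ∑' I, idealTerm (quotChar H χ) s I‖ := by
    refine ge_of_tendsto hlim ?_
    filter_upwards [eventually_ge_atTop S] with T hT
    rw [Finset.prod_comm, norm_prod]
    simp only [norm_prod]
    refine le_trans ?_ ((Real.exp_sum _ _).trans_le (Finset.prod_le_prod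
      (fun P _ => (Real.exp_pos _).le) fun P _ => hP P))
    refine Real.exp_le_exp.mpr ?_
    rw [Finset.sum_sub_distrib, ← Finset.mul_sum (a := (X : ℝ))]
    refine sub_le_sub ?_ (mul_le_mul_of_nonneg_left (hC s hs T) (Nat.cast_nonneg _))
    rw [Finset.mul_sum]
    refine le_of_eq_of_le (Finset.sum_congr rfl fun P hPS => by rw [if_pos (hS P hPS)])
      (Finset.sum_le_sum_of_subset_of_nonneg hT fun P _ _ =>
        mul_nonneg (by split_ifs <;> positivity) (primeWeight_pos P s).le)
  have h := Real.log_le_log (Real.exp_pos _) (hlow.trans hup)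
  rw [Real.log_exp, Real.log_div hM.ne' hs0.ne'] at h
  linarith

end General

/-- **Upper density** of the degree one primes with class in a subgroup. -/
theorem upperDens_cl_mem {K : IntermediateField ℚ QBar} [FiniteDimensional ℚ K] [Normal ℚ K]
    (H : Subgroup (ClassGroup (𝓞 K))) :
    UpperDens (pcount K fun P => cl P ∈ H) (1 / H.index : ℝ) := by
  obtain ⟨A, hA⟩ := exists_subgroup_bound H
  intro ε hε
  have hi : 0 < (H.index : ℝ) :=
    Nat.cast_pos.mpr (Nat.pos_of_ne_zero Subgroup.index_ne_zero_of_finite)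
  filter_upwards [hA, log_pos_eventually,
    (tendsto_neg_log_sub_one.eventually_ge_atTop (|A| / (ε * H.index)))] with s hs hpos hbig
  -- For `s` near one the error `|A|` is at most `ε` times the logarithm.
  rw [dens, div_le_iff₀ hpos]
  refine le_trans (b := (-Real.log (s - 1) + |A|) / H.index) (Real.tsum_le_of_sum_le
    (fun n => mul_nonneg (pcount_nonneg (fun P : PrimeId K => cl P ∈ H) n)
      (Real.rpow_nonneg (Nat.cast_nonneg n) (-s))) fun F => ?_) ?_
  · have : ∀ ℓ, Fintype {P : PrimeId K // Ideal.absNorm P.1 = ℓ ∧ cl P ∈ H} :=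
      fun ℓ => Fintype.ofFinite _
    -- A finite partial sum is a sum of weights of primes with class in `H`.
    set G := F.filter Nat.Prime
    set S : Finset (HeightOneSpectrum (𝓞 K)) :=
      (G.sigma fun ℓ => (Finset.univ : Finset {P : PrimeId K // Ideal.absNorm P.1 = ℓ ∧
        cl P ∈ H})).image
        fun x => toSpec x.2.1
    have hsum : ∑ n ∈ F, pcount K (fun P => cl P ∈ H) n * (n : ℝ) ^ (-s) =
        ∑ P ∈ S, primeWeight P s := by
      rw [Finset.sum_image, Finset.sum_sigma, Finset.sum_filter]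
      · refine Finset.sum_congr rfl fun ℓ _ => ?_
        rw [pcount]
        split_ifs with hℓ
        · rw [Nat.card_eq_fintype_card, ← Finset.card_univ, ← nsmul_eq_mul, ← Finset.sum_const]
          exact Finset.sum_congr rfl fun P _ => by
            rw [primeWeight]; exact congrArg (fun n : ℕ => (n : ℝ) ^ (-s)) P.2.1.symm
        · rw [zero_mul]
      · rintro ⟨ℓ, P⟩ - ⟨ℓ', P'⟩ - h
        obtain ⟨P, hP, hPH⟩ := P
        obtain ⟨P', hP', hPH'⟩ := P'
        obtain rfl : P = P' := toSpec_injective h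
        subst hP
        subst hP'
        rfl
    rw [hsum, le_div_iff₀ hi, mul_comm]
    refine (hs S fun Q hQ => ?_).trans (add_le_add_right (le_abs_self A) _)
    obtain ⟨x, -, rfl⟩ := Finset.mem_image.mp hQ
    exact x.2.2.2
  · rw [add_div, add_mul, one_div, ← div_eq_inv_mul]
    refine add_le_add_right ?_ _
    rw [div_le_iff₀ (mul_pos hε hi)] at hbig
    rw [div_le_iff₀ hi]
    linarith

end Fermat.Agent.LT.ClassBound
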