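import Fermat.Agent.LT.ClassBound.Equidist
import Fermat.Agent.LT.ClassBound.Upper
import Fermat.Agent.LT.ClassBound.Index
import Fermat.Agent.Arith.InertiaLift

/-!
# The field of an unramified character and its norm subgroup

An unramified cyclic character of finite level and prime power order cuts out an unramified field;
if `K` is totally complex with finitely many units, its norm subgroup of the class group has the
index of the order (`exists_norm_group`).
-/

set_option autoImplicit false

noncomputable section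

namespace Fermat.Agent.LT.ClassBound

open Filter Topology NumberField Fermat.Agent.Arith Fermat.Agent.Arith.Density
  Fermat.Agent.Arith.Chebotarev UniqueFactorizationMonoid
open scoped Pointwise

variable {K : IntermediateField ℚ QBar} [FiniteDimensional ℚ K]
variable {A : Type*} [CommGroup A] (ψ : K.fixingSubgroup →* A)

/-! ## The field cut out by the character -/

/-- The character on the automorphisms over `K`. -/
def psiK : Gal(QBar/K) →* A := ψ.comp (IntermediateField.fixingSubgroupEquiv K).symm.toMonoidHom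

/-- The field cut out by the character. -/
def cutField : IntermediateField K QBar := IntermediateField.fixedField (psiK ψ).ker

variable {ψ}

omit [FiniteDimensional ℚ ↥K] in
theorem psiK_apply (g : Gal(QBar/K)) :
    psiK ψ g = ψ ((IntermediateField.fixingSubgroupEquiv K).symm g) := rfl

theorem isOpen_ker (hlev : Level K ψ) : IsOpen ((psiK ψ).ker : Set Gal(QBar/K)) := by
  obtain ⟨L₁, hfd, hL₁⟩ := hlev
  have : FiniteDimensional K (IntermediateField.extendScalars (le_sup_right : K ≤ L₁ ⊔ K)) :=
    haveI : Module.Finite ℚ (IntermediateField.extendScalars (le_sup_right : K ≤ L₁ ⊔ K)) :=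
      inferInstanceAs (Module.Finite ℚ ↥(L₁ ⊔ K))
    Module.Finite.of_restrictScalars_finite ℚ K _
  refine Subgroup.isOpen_mono (fun g hg => ?_)
    (IntermediateField.fixingSubgroup_isOpen
      (IntermediateField.extendScalars (le_sup_right : K ≤ L₁ ⊔ K)))
  rw [MonoidHom.mem_ker, psiK_apply]
  refine hL₁ _ fun x hx => ?_
  exact (IntermediateField.mem_fixingSubgroup_iff _ g).mp hg x (le_sup_left (b := K) hx)

theorem fixingSubgroup_cutField (hlev : Level K ψ) :
    (cutField ψ).fixingSubgroup = (psiK ψ).ker :=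
  InfiniteGalois.fixingSubgroup_fixedField ⟨_, Subgroup.isClosed_of_isOpen _ (isOpen_ker hlev)⟩

theorem finite_cutField (hlev : Level K ψ) : FiniteDimensional K (cutField ψ) :=
  (InfiniteGalois.isOpen_iff_finite _).mp (by
    rw [fixingSubgroup_cutField hlev]; exact isOpen_ker hlev)

theorem isGalois_cutField (hlev : Level K ψ) : IsGalois K (cutField ψ) :=
  (InfiniteGalois.normal_iff_isGalois _).mp (by rw [fixingSubgroup_cutField hlev]; infer_instance)

theorem numberField_cutField (hlev : Level K ψ) : NumberField (cutField ψ) :=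
  haveI := finite_cutField hlev
  { to_finiteDimensional := Module.Finite.trans K (cutField ψ) }

variable (ψ) in
/-- The inclusion of the cut field. -/
def valL : cutField ψ →ₐ[ℚ] QBar := (cutField ψ).val.toRingHom.toRatAlgHom

/-- An element fixing `K` fixes the cut field exactly when the character vanishes on it. -/
theorem fix_cutField_iff (hlev : Level K ψ) (σ : K.fixingSubgroup) :
    (∀ x ∈ cutField ψ, (σ : GQ) x = x) ↔ ψ σ = 1 := by
  have h : IntermediateField.fixingSubgroupEquiv K σ ∈ (cutField ψ).fixingSubgroup ↔ ψ σ = 1 := by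
    rw [fixingSubgroup_cutField hlev, MonoidHom.mem_ker, psiK_apply, MulEquiv.symm_apply_apply]
  rw [← h, IntermediateField.mem_fixingSubgroup_iff]
  rfl

theorem ker_restrict (hlev : Level K ψ) :
    haveI := isGalois_cutField hlev
    (AlgEquiv.restrictNormalHom (F := K) (K₁ := QBar) (cutField ψ)).ker = (psiK ψ).ker := by
  rw [IntermediateField.restrictNormalHom_ker, fixingSubgroup_cutField hlev]

omit [FiniteDimensional ℚ ↥K] in
theorem range_psiK : (psiK ψ).range = ψ.range := by
  ext a
  exact ⟨fun ⟨g, hg⟩ => ⟨_, hg⟩, fun ⟨σ, hσ⟩ => ⟨IntermediateField.fixingSubgroupEquiv K σ, by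
    rw [psiK_apply, MulEquiv.symm_apply_apply, hσ]⟩⟩

/-- The Galois group of the cut field is the image of the character. -/
def galRange (hlev : Level K ψ) : ψ.range ≃* Gal(cutField ψ/K) :=
  haveI := isGalois_cutField hlev
  (MulEquiv.subgroupCongr range_psiK).symm.trans
    ((QuotientGroup.quotientKerEquivRange (psiK ψ)).symm.trans
      ((QuotientGroup.quotientMulEquivOfEq (ker_restrict hlev).symm).trans
        (QuotientGroup.quotientKerEquivOfSurjective _
          (AlgEquiv.restrictNormalHom_surjective (K₁ := cutField ψ) QBar))))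

theorem finrank_cutField (hlev : Level K ψ) :
    Module.finrank K (cutField ψ) = Nat.card ψ.range := by
  have := isGalois_cutField hlev
  have := finite_cutField hlev
  rw [← IsGalois.card_aut_eq_finrank, Nat.card_congr (galRange hlev).toEquiv]

theorem isCyclic_cutField (hlev : Level K ψ) [IsCyclic ψ.range] : IsCyclic Gal(cutField ψ/K) :=
  isCyclic_of_surjective _ (galRange hlev).surjective

/-! ## The field is unramified -/

/-- A prime of a number field lies under some place. -/
theorem exists_centre_comap_eq {F : Type} [Field F] [NumberField F] (f : F →ₐ[ℚ] QBar)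
    (Q : Ideal (𝓞 F)) [Q.IsPrime] (hQ : Q ≠ ⊥) :
    ∃ q : ℕ, q.Prime ∧ ∃ B : ValuationSubring QBar, B.LiesOverPrime q ∧
      (centre B).comap (intMap F f) = Q := by
  obtain ⟨hq, hqQ, -⟩ := Fermat.Agent.ClassField.exists_absNorm_eq_residueChar_pow
    (⟨Q, inferInstance, hQ⟩ : IsDedekindDomain.HeightOneSpectrum (𝓞 F))
  exact ⟨_, hq, exists_place_over f Q hq hqQ⟩

theorem mem_level_iff (hlev : Level K ψ) (h : GQ) :
    h ∈ ((cutField ψ).restrictScalars ℚ).fixingSubgroup ↔
      ∃ hk : h ∈ K.fixingSubgroup, ψ ⟨h, hk⟩ = 1 := by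
  rw [IntermediateField.mem_fixingSubgroup_iff]
  constructor
  · intro hh
    have hk : h ∈ K.fixingSubgroup := (IntermediateField.mem_fixingSubgroup_iff K h).mpr
      fun x hx => hh x ((cutField ψ).algebraMap_mem ⟨x, hx⟩)
    exact ⟨hk, (fix_cutField_iff hlev ⟨h, hk⟩).mp hh⟩
  · rintro ⟨hk, h1⟩
    exact (fix_cutField_iff hlev ⟨h, hk⟩).mpr h1

/-- The inertia groups of the cut field are trivial. -/
theorem inertia_eq_bot (hψ : Unram K ψ) (hlev : Level K ψ) :
    ∀ Q : Ideal (𝓞 (cutField ψ)), Q.IsPrime → Q ≠ ⊥ → Q.inertia Gal(cutField ψ/K) = ⊥ := by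
  have := numberField_cutField hlev
  have := isGalois_cutField hlev
  intro Q hQp hQ0
  obtain ⟨q, hq, B, hB, hBQ⟩ := exists_centre_comap_eq (valL ψ) Q hQ0
  refine (Subgroup.eq_bot_iff_forall _).mpr fun τ hτ => ?_
  obtain ⟨g', rfl⟩ := AlgEquiv.restrictNormalHom_surjective (K₁ := cutField ψ) QBar τ
  set g := (IntermediateField.fixingSubgroupEquiv K).symm g' with hgdef
  -- `g` normalises the fixer of the cut field, so has a translate `h g` in inertia at `B`
  have hclosed := InfiniteGalois.fixingSubgroup_isClosed ((cutField ψ).restrictScalars ℚ)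
  have hn : ∀ h ∈ ((cutField ψ).restrictScalars ℚ).fixingSubgroup,
      (g : GQ) * h * (g : GQ)⁻¹ ∈ ((cutField ψ).restrictScalars ℚ).fixingSubgroup ∧
      (g : GQ)⁻¹ * h * (g : GQ) ∈ ((cutField ψ).restrictScalars ℚ).fixingSubgroup := by
    intro h hh
    obtain ⟨hk, h1⟩ := (mem_level_iff hlev h).mp hh
    refine ⟨(mem_level_iff hlev _).mpr ⟨mul_mem (mul_mem g.2 hk) (inv_mem g.2), ?_⟩,
      (mem_level_iff hlev _).mpr ⟨mul_mem (mul_mem (inv_mem g.2) hk) g.2, ?_⟩⟩
    · rw [show (⟨(g : GQ) * h * (g : GQ)⁻¹, _⟩ : K.fixingSubgroup) = g * ⟨h, hk⟩ * g⁻¹ from rfl,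
        map_mul, map_mul, h1, mul_one, ← map_mul, mul_inv_cancel, map_one]
    · rw [show (⟨(g : GQ)⁻¹ * h * (g : GQ), _⟩ : K.fixingSubgroup) = g⁻¹ * ⟨h, hk⟩ * g from rfl,
        map_mul, map_mul, h1, mul_one, ← map_mul, inv_mul_cancel, map_one]
  obtain ⟨h, hh, hin⟩ := exists_inertia_lift_of_conj hB hq _ hclosed (g : GQ) hn fun x hx hfix => by
    have hxL : x ∈ cutField ψ := by
      have : x ∈ IntermediateField.fixedField ((cutField ψ).restrictScalars ℚ).fixingSubgroup :=
        fun σ => hfix σ.1 σ.2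
      rwa [InfiniteGalois.fixedField_fixingSubgroup] at this
    let y : 𝓞 (cutField ψ) := ⟨⟨x, hxL⟩, (isIntegral_algHom_iff
      ((valL ψ).toRingHom.toIntAlgHom) (valL ψ).injective).mp hx⟩
    have h1 := hτ y
    rw [← hBQ] at h1
    replace h1 := mem_comap_intMap.mp h1
    have hc := AlgEquiv.restrictNormal_commutes g' (cutField ψ) ⟨x, hxL⟩
    have h2 : valL ψ ((AlgEquiv.restrictNormalHom (cutField ψ) g' • y - y : 𝓞 (cutField ψ)) :
        cutField ψ) = (g : GQ) x - x := by
      rw [RingOfIntegers.coe_eq_algebraMap, map_sub, map_sub]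
      exact congrArg (· - x) hc
    rwa [h2] at h1
  -- `ψ` kills both `h` and `h g`
  obtain ⟨hk, h1⟩ := (mem_level_iff hlev h).mp hh
  have h2 : ψ (⟨h, hk⟩ * g) = 1 := hψ q hq B hB _ hin
  rw [map_mul, h1, one_mul] at h2
  have h3 : g' ∈ (AlgEquiv.restrictNormalHom (F := K) (K₁ := QBar) (cutField ψ)).ker := by
    rw [ker_restrict hlev]
    exact h2
  exact h3

/-- The cut field is unramified. -/
theorem unramExt_cutField (hψ : Unram K ψ) (hlev : Level K ψ) :
    haveI := numberField_cutField hlev
    UnramExt K (cutField ψ) := by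
  classical
  have := numberField_cutField hlev
  have := isGalois_cutField hlev
  intro P hP hP0
  have := hP.isMaximal hP0
  have hM : P.map (algebraMap (𝓞 K) (𝓞 (cutField ψ))) ≠ ⊥ :=
    mt (Ideal.map_eq_bot_iff_of_injective (RingOfIntegers.algebraMap.injective _ _)).mp hP0
  rw [Multiset.nodup_iff_count_le_one]
  intro Q
  by_cases hQ : Q ∈ normalizedFactors (P.map (algebraMap (𝓞 K) (𝓞 (cutField ψ))))
  swap
  · rw [Multiset.count_eq_zero_of_notMem hQ]
    exact zero_le_one
  have hp := prime_of_normalized_factor Q hQ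
  have := Ideal.isPrime_of_prime hp
  have : Q.LiesOver P := ⟨(‹P.IsMaximal›).eq_of_le Ideal.IsPrime.ne_top'
    (Ideal.map_le_iff_le_comap.mp (Ideal.le_of_dvd (dvd_of_mem_normalizedFactors hQ)))⟩
  refine le_of_eq ?_
  rw [← Ideal.IsDedekindDomain.ramificationIdx_eq_normalizedFactors_count P Q hM,
    ← Ideal.ramificationIdxIn_eq_ramificationIdx P Q Gal(cutField ψ/K),
    ← Ideal.card_inertia_eq_ramificationIdxIn (G := Gal(cutField ψ/K)) P Q,
    inertia_eq_bot hψ hlev Q inferInstance hp.ne_zero]
  exact Subgroup.card_bot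

/-! ## The norm subgroup -/

variable (ψ) in
/-- The norm subgroup. -/
def normSub (hlev : Level K ψ) : Subgroup (ClassGroup (𝓞 K)) :=
  haveI := numberField_cutField hlev
  haveI := isGalois_cutField hlev
  (normClass K (cutField ψ)).range

/-- A prime of degree one with trivial Frobenius value is a norm. -/
theorem cl_mem_normSub (hlev : Level K ψ) {P : PrimeId K}
    (hℓ : (Ideal.absNorm P.1).Prime) (hgood : Good K (Ideal.absNorm P.1))
    (h1 : ψ (fr K P) = 1) : cl P ∈ normSub ψ hlev := by
  have := numberField_cutField hlev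
  obtain ⟨B, hB, hBP, hσ⟩ := fr_spec hℓ hgood
  set Q := (centre B).comap (intMap (cutField ψ) (valL ψ)) with hQ
  have hN : Ideal.absNorm Q = Ideal.absNorm P.1 :=
    absNorm_comap_of_fixed hB hℓ hσ (AlgHom.ext fun x => (fix_cutField_iff hlev _).mpr h1 x x.2)
  have hunder : Q.under (𝓞 K) = P.1 := by
    rw [← hBP]
    rfl
  have : Q.IsPrime := Ideal.comap_isPrime _ _
  have hQ0 : Q ≠ ⊥ := comap_intMap_ne_bot hB hℓ _
  have : P.1.IsMaximal := P.2.1.isMaximal P.2.2
  have : Q.IsMaximal := Ideal.IsPrime.isMaximal ‹Q.IsPrime› hQ0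
  have : Q.LiesOver P.1 := ⟨hunder.symm⟩
  -- `Q` has residue degree one over `P`, so `P` is its norm
  have hrel := Ideal.relNorm_eq_pow_of_isMaximal (R := 𝓞 K) Q P.1
  have hf : P.1 ^ Q.inertiaDeg (𝓞 K) = P.1 := by
    have h2 := congrArg Ideal.absNorm hrel
    rw [Ideal.absNorm_relNorm, map_pow, hN] at h2
    conv_rhs at h2 => skip
    rw [(Nat.pow_eq_self_iff hℓ.one_lt).mp h2.symm, pow_one]
  exact ⟨ClassGroup.mk0 ⟨Q, mem_nonZeroDivisors_of_ne_zero hQ0⟩,
    normClass_mk0 _ _ (hrel.trans hf)⟩

/-- Every count of primes is at most the count of all primes. -/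
theorem pcount_le_top (pred : PrimeId K → Prop) (n : ℕ) :
    pcount K pred n ≤ pcount K (fun _ => True) n := pcount_mono n fun _ _ _ => trivial

/-- **The norm subgroup of an unramified cyclic character of prime power order.** -/
theorem exists_norm_group [Normal ℚ K] [IsTotallyComplex K] (hK : NumberField.Units.rank K = 0)
    (hψ : Unram K ψ) (hlev : Level K ψ) {p : ℕ} [Fact p.Prime] {k : ℕ}
    (hn : Nat.card ψ.range = p ^ k) [IsCyclic ψ.range] :
    ∃ H : Subgroup (ClassGroup (𝓞 K)), H.index = Nat.card ψ.range ∧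
      HasDens (pcount K fun P => ¬ (cl P ∈ H ↔ ψ (fr K P) = 1)) 0 := by
  classical
  have := numberField_cutField hlev
  have := isGalois_cutField hlev
  have := isCyclic_cutField hlev
  have : Finite ψ.range :=
    Nat.finite_of_card_ne_zero (hn.trans_ne (pow_ne_zero _ (Fact.out : p.Prime).ne_zero))
  obtain ⟨g, hg⟩ := IsCyclic.exists_generator (α := Gal(cutField ψ/K))
  set H := normSub ψ hlev with hH
  have hle : Nat.card ψ.range ≤ H.index := by
    rw [hn]
    exact pow_le_index_normClass hg hK ((finrank_cutField hlev).trans hn)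
      (unramExt_cutField hψ hlev)
  obtain ⟨B, hB⟩ := exists_bound_good K
  have h1 := hasDens_fr hψ hlev (a := 1) (one_mem _)
  -- the primes split in the cut field and the exceptional ones
  set c := pcount K fun P => ψ (fr K P) = 1
  set c' := pcount K fun P => cl P ∈ H ∧ ψ (fr K P) ≠ 1
  have htot : ∀ n, c n + c' n ≤
      pcount K (fun P => cl P ∈ H) n + if n ≤ B then pcount K (fun _ => True) n else 0 := by
    intro n
    rw [← pcount_add (pred := fun P => ψ (fr K P) = 1)
      (pred' := fun P => cl P ∈ H ∧ ψ (fr K P) ≠ 1) n fun P _ h => h.2.2 h.1]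
    by_cases hn : n ≤ B
    · rw [if_pos hn]
      exact (pcount_le_top _ n).trans (le_add_of_nonneg_left (pcount_nonneg _ n))
    rw [if_neg hn, add_zero]
    by_cases hpr : n.Prime
    swap
    · simp [pcount, hpr]
    refine pcount_mono n ?_
    rintro P rfl (h | h)
    · exact cl_mem_normSub hlev hpr (hB _ hpr (not_le.mp hn)) h
    · exact h.1
  have hu : UpperDens (fun n => c n + c' n) (1 / H.index : ℝ) := by
    have := ((upperDens_cl_mem H).add (hasDens_finite
      (c := fun n => if n ≤ B then pcount K (fun _ => True) n else 0) B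
      fun n hn => if_neg (not_le.mpr hn)).upper (sparse_pcount _)
      ((sparse_pcount _).finite_part B))
    rw [add_zero] at this
    exact this.mono ((sparse_pcount _).add (sparse_pcount _))
      ((sparse_pcount _).add ((sparse_pcount _).finite_part B)) htot
  have hidx : (H.index : ℝ) ≤ Nat.card ψ.range := by
    have h2 := le_of_upper h1 (hu.mono (sparse_pcount _) ((sparse_pcount _).add (sparse_pcount _))
      fun n => le_add_of_nonneg_right (pcount_nonneg _ n))
    exact (one_div_le_one_div (Nat.cast_pos.mpr Nat.card_pos)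
      (Nat.cast_pos.mpr (Nat.pos_of_ne_zero Subgroup.index_ne_zero_of_finite))).mp h2
  have heq : H.index = Nat.card ψ.range := le_antisymm (by exact_mod_cast hidx) hle
  refine ⟨H, heq, ?_⟩
  rw [heq] at hu
  refine (hasDens_zero_of_sum h1 (sparse_pcount _) (sparse_pcount _) hu).congr_above
    (sparse_pcount _) (sparse_pcount _) B fun n hn => ?_
  by_cases hpr : n.Prime
  swap
  · simp [pcount, hpr]
  refine le_antisymm (pcount_mono n fun P _ h h' => h.2 (h'.mp h.1)) (pcount_mono n ?_)
  rintro P rfl h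
  by_cases h' : ψ (fr K P) = 1
  · exact absurd (iff_of_true (cl_mem_normSub hlev hpr (hB _ hpr hn) h') h') h
  · exact ⟨by_contra fun hc => h (iff_of_false hc h'), h'⟩

/-- Characters agree in their kernels when they do outside density zero. -/
theorem eq_one_of_dens_zero {A' : Type*} [CommGroup A'] {ψ' : K.fixingSubgroup →* A'}
    (hψ : Unram K ψ) (hψ' : Unram K ψ') (hlev : Level K ψ) (hlev' : Level K ψ')
    [Finite ψ.range] [Finite ψ'.range]
    (h : HasDens (pcount K fun P => ψ (fr K P) = 1 ∧ ψ' (fr K P) ≠ 1) 0)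
    {σ : K.fixingSubgroup} (hσ : ψ σ = 1) : ψ' σ = 1 := by
  by_contra hne
  have hu : Unram K (ψ.prod ψ') := fun q hq B hB τ hτ =>
    Prod.ext (hψ q hq B hB τ hτ) (hψ' q hq B hB τ hτ)
  have hl : Level K (ψ.prod ψ') := by
    obtain ⟨L, hL, h1⟩ := hlev
    obtain ⟨L', hL', h2⟩ := hlev'
    exact ⟨L ⊔ L', inferInstance, fun τ hτ => Prod.ext
      (h1 τ fun x hx => hτ x (le_sup_left (b := L') hx))
      (h2 τ fun x hx => hτ x (le_sup_right (a := L) hx))⟩
  have : Finite (ψ.prod ψ').range :=
    Finite.of_injective (β := ψ.range × ψ'.range)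
      (fun x => (⟨x.1.1, x.2.imp fun _ e => congrArg Prod.fst e⟩,
        ⟨x.1.2, x.2.imp fun _ e => congrArg Prod.snd e⟩))
      fun x y e => Subtype.ext (Prod.ext (congrArg (fun z => z.1.1) e)
        (congrArg (fun z => z.2.1) e))
  -- otherwise `(1, ψ' σ)` is a value of the pair, of positive density
  have h1 := hasDens_fr hu hl (a := ((1 : A), ψ' σ)) ⟨σ, Prod.ext hσ rfl⟩
  have h2 := hasDens_zero_of_le h (sparse_pcount _) (sparse_pcount _) fun n =>
    pcount_mono n fun P _ (hP : (ψ.prod ψ') (fr K P) = (1, ψ' σ)) =>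
      ⟨congrArg Prod.fst hP, fun h3 => hne ((congrArg Prod.snd hP).symm.trans h3)⟩
  have := tendsto_nhds_unique h1 h2
  rw [one_div, inv_eq_zero, Nat.cast_eq_zero] at this
  exact Nat.card_pos.ne' this

/-- The norms of exceptional primes are negligible. -/
theorem negligible_of_dens {pred : PrimeId K → Prop} (h : HasDens (pcount K pred) 0) :
    Negligible {ℓ | ∃ P : PrimeId K, Ideal.absNorm P.1 = ℓ ∧ pred P} := by
  refine hasDens_zero_of_le h (sparse_indicator _) (sparse_pcount _) fun n => ?_
  by_cases hn : n ∈ {ℓ | ∃ P : PrimeId K, Ideal.absNorm P.1 = ℓ ∧ pred P}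
  · rw [Set.indicator_of_mem hn, primeInd, pcount]
    obtain ⟨P, hP⟩ := hn
    split_ifs
    · have : Nonempty {P : PrimeId K // Ideal.absNorm P.1 = n ∧ pred P} := ⟨⟨P, hP⟩⟩
      exact_mod_cast Nat.card_pos (α := {P : PrimeId K // Ideal.absNorm P.1 = n ∧ pred P})
    · exact le_rfl
  · rw [Set.indicator_of_notMem hn]
    exact pcount_nonneg _ n

end Fermat.Agent.LT.ClassBound
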