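import Fermat.Agent.LT.ClassBound.Dens

/-!
# Frobenius elements of degree one primes

`K/ℚ` is a finite normal extension inside `QBar`, `ψ` a homomorphism of finite level on its
fixing group, trivial on inertia: at a good prime of degree one the value of `ψ` at a Frobenius is
well defined, and `pcount` counts the primes of given prime norm with a property. Their
equidistribution is in `LT/ClassBound/Equidist`.
-/

set_option autoImplicit false

noncomputable section

namespace Fermat.Agent.LT.ClassBound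

open Filter NumberField Fermat.Agent.Arith Fermat.Agent.Arith.Density
  Fermat.Agent.Arith.Chebotarev
open scoped Pointwise

variable (K : IntermediateField ℚ QBar) [FiniteDimensional ℚ K]

/-- The inclusion of `K`. -/
def valQ : K →ₐ[ℚ] QBar := K.val.toRingHom.toRatAlgHom

/-- The prime of `K` under a place. -/
def placeComap (A : ValuationSubring QBar) : Ideal (𝓞 K) := (centre A).comap (intMap K (valQ K))

/-- `σ` is a Frobenius at a place over `P`. -/
def IsFrobOf (P : PrimeId K) (σ : GQ) : Prop :=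
  ∃ A : ValuationSubring QBar, A.LiesOverPrime (Ideal.absNorm P.1) ∧ placeComap K A = P.1 ∧
    A.IsFrobeniusAt σ (Ideal.absNorm P.1)

/-- Trivial on the inertia groups. -/
def Unram {A : Type*} [Monoid A] (ψ : K.fixingSubgroup →* A) : Prop :=
  ∀ q : ℕ, q.Prime → ∀ B : ValuationSubring QBar, B.LiesOverPrime q →
    ∀ σ : K.fixingSubgroup, (σ : GQ) ∈ B.inertiaSubgroupIn ℚ → ψ σ = 1

/-- Of finite level. -/
def Level {A : Type*} [Monoid A] (ψ : K.fixingSubgroup →* A) : Prop :=
  ∃ L : IntermediateField ℚ QBar, FiniteDimensional ℚ L ∧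
    ∀ σ : K.fixingSubgroup, (∀ x ∈ L, (σ : GQ) x = x) → ψ σ = 1

open Classical in
/-- A Frobenius at a prime, in the fixing group. -/
def fr (P : PrimeId K) : K.fixingSubgroup :=
  if h : ∃ σ : K.fixingSubgroup, IsFrobOf K P σ then h.choose else 1

/-- The number of primes of norm `ℓ` with a property. -/
def pcount (pred : PrimeId K → Prop) (ℓ : ℕ) : ℝ :=
  if ℓ.Prime then (Nat.card {P : PrimeId K // Ideal.absNorm P.1 = ℓ ∧ pred P} : ℝ) else 0

variable {K}

instance finite_primes_norm (ℓ : ℕ) : Finite {P : PrimeId K // Ideal.absNorm P.1 = ℓ} := by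
  have : Finite {I : Ideal (𝓞 K) // Ideal.absNorm I = ℓ} :=
    (Ideal.finite_setOfPred_absNorm_eq ℓ).to_subtype
  exact Finite.of_injective (β := {I : Ideal (𝓞 K) // Ideal.absNorm I = ℓ})
    (fun P => ⟨P.1.1, P.2⟩) fun P P' h => Subtype.ext (Subtype.ext (congrArg Subtype.val h :))

instance finite_primes_pred (ℓ : ℕ) (pred : PrimeId K → Prop) :
    Finite {P : PrimeId K // Ideal.absNorm P.1 = ℓ ∧ pred P} :=
  Finite.of_injective (β := {P : PrimeId K // Ideal.absNorm P.1 = ℓ}) (fun P => ⟨P.1, P.2.1⟩)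
    fun _P _P' h => Subtype.ext (congrArg Subtype.val h :)

theorem centre_smul_comap (g : GQ) (A : ValuationSubring QBar) :
    (centre A).comap (intMap K ((g : QBar →ₐ[ℚ] QBar).comp (valQ K))) = placeComap K (g⁻¹ • A) := by
  ext x
  rw [placeComap, mem_comap_intMap, mem_comap_intMap,
    ← smul_mem_nonunits_smul_iff (g := g⁻¹) (A := A)]
  show g⁻¹ • (g • (valQ K (x : K))) ∈ _ ↔ _
  rw [inv_smul_smul]

/-- An element moving a place over a prime of degree one to one over the same prime fixes `K`. -/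
theorem mem_fixing_of_smul {ℓ : ℕ} (hℓ : ℓ.Prime) (hgood : Good K ℓ)
    {A : ValuationSubring QBar} (hA : A.LiesOverPrime ℓ) {g : GQ}
    (h : placeComap K (g⁻¹ • A) = placeComap K A)
    (hnorm : Ideal.absNorm (placeComap K A) = ℓ) : g ∈ K.fixingSubgroup := by
  -- otherwise some `x` has `g x - x` a unit at `A`, though `x` is congruent to an integer there
  have heq : (g : QBar →ₐ[ℚ] QBar).comp (valQ K) = valQ K := by
    by_contra hne
    obtain ⟨x, hx⟩ := hgood A hA _ _ hne
    let P : PrimeId K := ⟨placeComap K A, Ideal.comap_isPrime _ _, fun h0 => by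
      rw [h0, Ideal.absNorm_bot] at hnorm
      exact hℓ.ne_zero hnorm.symm⟩
    obtain ⟨c, hc⟩ := exists_natCast_sub_mem (𝔭 := P) hnorm hℓ x
    have h1 : x - (c : 𝓞 K) ∈ placeComap K A := hc
    have h2 : x - (c : 𝓞 K) ∈ (centre A).comap
        (intMap K ((g : QBar →ₐ[ℚ] QBar).comp (valQ K))) := by
      rw [centre_smul_comap, h]
      exact hc
    rw [placeComap, mem_comap_intMap] at h1
    rw [mem_comap_intMap] at h2
    rw [RingOfIntegers.coe_eq_algebraMap, map_sub, map_natCast, map_sub, map_natCast] at h1 h2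
    exact hx (by simpa using nonunits_sub h2 h1)
  rw [IntermediateField.mem_fixingSubgroup_iff]
  exact fun x hx => AlgHom.congr_fun heq ⟨x, hx⟩

/-- A Frobenius at a prime of prime norm fixes `K`. -/
theorem mem_fixing_of_isFrobOf {P : PrimeId K} {σ : GQ} (hℓ : (Ideal.absNorm P.1).Prime)
    (hgood : Good K (Ideal.absNorm P.1)) (h : IsFrobOf K P σ) : σ ∈ K.fixingSubgroup := by
  obtain ⟨A, hA, hPA, hσ⟩ := h
  -- a Frobenius fixes its place
  have hσA : σ • A = A := (isFrobeniusAt_iff_forall_mem.mp hσ).1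
  exact mem_fixing_of_smul hℓ hgood hA (by rw [inv_smul_eq_iff.mpr hσA.symm]) (by rw [hPA])

/-- A prime of a number field containing the prime `q` lies under a place over `q`. -/
theorem exists_place_over {F : Type} [Field F] [NumberField F] (f : F →ₐ[ℚ] QBar)
    (Q : Ideal (𝓞 F)) [Q.IsPrime] {q : ℕ} (hq : q.Prime) (hqQ : (q : 𝓞 F) ∈ Q) :
    ∃ B : ValuationSubring QBar, B.LiesOverPrime q ∧ (centre B).comap (intMap F f) = Q := by
  obtain ⟨A₀, hA₀⟩ := exists_liesOverPrime hq
  let := (intMap F f).toAlgebra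
  have : Algebra.IsIntegral (𝓞 F) ZBar := ⟨fun z => RingHom.IsIntegralElem.of_comp
    (f := algebraMap ℤ (𝓞 F)) (by
      rw [RingHom.ext_int ((algebraMap (𝓞 F) ZBar).comp (algebraMap ℤ (𝓞 F))) (algebraMap ℤ ZBar)]
      exact (Algebra.IsInvariant.isIntegral_of_profinite (A := ℤ) (B := ZBar) (G := GQ)).1 z)⟩
  have hinj : Function.Injective (algebraMap (𝓞 F) ZBar) := fun a b hab =>
    RingOfIntegers.ext (f.injective (congrArg (fun z : ZBar => (z : QBar)) hab))
  -- a prime `R` of `ℤ̄` over `Q`; it lies over `q`, so is conjugate to the centre of a place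
  obtain ⟨R, -, hR, hRQ⟩ := Ideal.exists_ideal_over_prime_of_isIntegral Q (⊥ : Ideal ZBar)
    (by rw [Ideal.comap_bot_of_injective _ hinj]; exact bot_le)
  have hmem : (q : ZBar) ∈ R := by
    have h1 : (q : 𝓞 F) ∈ R.comap (algebraMap (𝓞 F) ZBar) := by rw [hRQ]; exact hqQ
    rwa [Ideal.mem_comap, map_natCast] at h1
  have hunder : R.under ℤ = Ideal.span {(q : ℤ)} := by
    refine ((PrincipalIdealRing.isMaximal_of_irreducible
      (Nat.prime_iff_prime_int.mp hq).irreducible).eq_of_le Ideal.IsPrime.ne_top' ?_).symm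
    rw [Ideal.span_singleton_le_iff_mem, Ideal.under_def, Ideal.mem_comap, map_natCast]
    exact hmem
  obtain ⟨g, hg⟩ := Algebra.IsInvariant.exists_smul_of_under_eq_of_profinite (A := ℤ) (G := GQ)
    (centre A₀) R ((centre_under hA₀ hq).trans hunder.symm)
  refine ⟨g • A₀, liesOverPrime_smul_iff.mpr hA₀, ?_⟩
  rw [centre_smul, ← hg]
  exact hRQ

/-- Every prime of prime norm lies under a place. -/
theorem exists_placeComap_eq {P : PrimeId K} (hℓ : (Ideal.absNorm P.1).Prime) :
    ∃ A : ValuationSubring QBar, A.LiesOverPrime (Ideal.absNorm P.1) ∧ placeComap K A = P.1 :=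
  haveI := P.2.1
  exists_place_over (valQ K) P.1 hℓ (Ideal.absNorm_mem P.1)

theorem exists_isFrobOf {P : PrimeId K} (hℓ : (Ideal.absNorm P.1).Prime) :
    ∃ σ, IsFrobOf K P σ := by
  obtain ⟨A, hA, hP⟩ := exists_placeComap_eq hℓ
  obtain ⟨σ, hσ⟩ := exists_isFrobeniusAt hA hℓ
  exact ⟨σ, A, hA, hP, hσ⟩

/-- At a good prime of degree one the chosen Frobenius is a Frobenius. -/
theorem fr_spec {P : PrimeId K} (hℓ : (Ideal.absNorm P.1).Prime)
    (hgood : Good K (Ideal.absNorm P.1)) : IsFrobOf K P (fr K P) := by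
  have h : ∃ σ : K.fixingSubgroup, IsFrobOf K P σ := by
    obtain ⟨σ, hσ⟩ := exists_isFrobOf hℓ
    exact ⟨⟨σ, mem_fixing_of_isFrobOf hℓ hgood hσ⟩, hσ⟩
  rw [fr, dif_pos h]
  exact h.choose_spec

/-- Two places over `P` differ by an element of the fixing group. -/
theorem smul_eq_of_placeComap {ℓ : ℕ} (hℓ : ℓ.Prime) (hgood : Good K ℓ)
    {A A' : ValuationSubring QBar} (hA : A.LiesOverPrime ℓ) (hA' : A'.LiesOverPrime ℓ)
    (h : placeComap K A = placeComap K A')
    (hnorm : Ideal.absNorm (placeComap K A) = ℓ) :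
    ∃ g ∈ K.fixingSubgroup, g • A = A' := by
  obtain ⟨g, rfl⟩ := exists_smul_eq hA hA' hℓ
  exact ⟨g, mem_fixing_of_smul hℓ hgood hA' (by rw [inv_smul_smul, h]) (h ▸ hnorm), rfl⟩

/-- All Frobenius elements at `P` have the same value. -/
theorem eq_of_isFrobOf {A : Type*} [CommGroup A] {ψ : K.fixingSubgroup →* A} (hψ : Unram K ψ)
    {P : PrimeId K} (hℓ : (Ideal.absNorm P.1).Prime) (hgood : Good K (Ideal.absNorm P.1))
    {σ σ' : K.fixingSubgroup} (h : IsFrobOf K P σ) (h' : IsFrobOf K P σ') : ψ σ = ψ σ' := by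
  obtain ⟨B, hB, hPB, hσ⟩ := h
  obtain ⟨B', hB', hPB', hσ'⟩ := h'
  obtain ⟨g, hgK, rfl⟩ := smul_eq_of_placeComap hℓ hgood hB hB' (hPB.trans hPB'.symm) (by rw [hPB])
  -- a conjugate of `σ` is a Frobenius at the place of `σ'`: it differs from `σ'` by inertia
  set τ : K.fixingSubgroup := ⟨g, hgK⟩ * σ * (⟨g, hgK⟩ : K.fixingSubgroup)⁻¹
  have hτ : (g • B).IsFrobeniusAt (τ : GQ) (Ideal.absNorm P.1) := isFrobeniusAt_conj hσ
  have hin : ((τ⁻¹ * σ' : K.fixingSubgroup) : GQ) ∈ (g • B).inertiaSubgroupIn ℚ := by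
    rw [mem_inertia_iff hB' hℓ]
    intro x hx
    have h1 := (isFrobeniusAt_iff hB' hℓ).mp hτ
    have h2 := (isFrobeniusAt_iff hB' hℓ).mp hσ'
    have h3 := (isFrobeniusAt_iff_forall_mem).mp hτ
    have e : (σ' : GQ) x - (τ : GQ) x ∈ (g • B).nonunits := by
      simpa using nonunits_sub (h2 x hx) (h1 x hx)
    have e2 := (smul_mem_nonunits_smul_iff (g := ((τ : GQ))⁻¹) (A := g • B)).mpr e
    rw [show ((τ : GQ))⁻¹ • (g • B) = g • B from inv_smul_eq_iff.mpr h3.1.symm, smul_sub] at e2
    show ((τ : GQ)⁻¹ * (σ' : GQ)) x - x ∈ _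
    rw [AlgEquiv.mul_apply]
    have e3 : (τ : GQ)⁻¹ • (τ : GQ) x = x := inv_smul_smul (τ : GQ) x
    rw [e3] at e2
    exact e2
  have h4 := hψ _ hℓ _ hB' (τ⁻¹ * σ') hin
  rw [map_mul, map_inv, inv_mul_eq_one] at h4
  rw [← h4, map_mul, map_mul, map_inv, mul_inv_cancel_comm]

theorem pcount_nonneg (pred : PrimeId K → Prop) (ℓ : ℕ) : 0 ≤ pcount K pred ℓ := by
  rw [pcount]; split_ifs <;> positivity

/-- Counting primes of a given norm is monotone in the property. -/
theorem pcount_mono {pred pred' : PrimeId K → Prop} (ℓ : ℕ)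
    (h : ∀ P : PrimeId K, Ideal.absNorm P.1 = ℓ → pred P → pred' P) :
    pcount K pred ℓ ≤ pcount K pred' ℓ := by
  rw [pcount, pcount]
  split_ifs
  · exact_mod_cast Nat.card_le_card_of_injective
      (fun P : {P : PrimeId K // Ideal.absNorm P.1 = ℓ ∧ pred P} =>
        (⟨P.1, P.2.1, h P.1 P.2.1 P.2.2⟩ : {P : PrimeId K // Ideal.absNorm P.1 = ℓ ∧ pred' P}))
      fun P P' e => Subtype.ext (congrArg Subtype.val e :)
  · exact le_rfl

/-- There are at most `[K : ℚ]` primes of a given prime norm. -/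
theorem pcount_le_finrank_mul (pred : PrimeId K → Prop) (ℓ : ℕ) :
    pcount K pred ℓ ≤ Module.finrank ℚ K * primeInd ℓ := by
  rw [pcount, primeInd]
  split_ifs with hℓ
  · rw [mul_one, Nat.cast_le]
    classical
    have := Fintype.ofFinite {P : PrimeId K // Ideal.absNorm P.1 = ℓ ∧ pred P}
    rw [Nat.card_eq_fintype_card, ← Finset.card_univ]
    set F := (Finset.univ : Finset {P : PrimeId K // Ideal.absNorm P.1 = ℓ ∧
      pred P}).image Subtype.val
    have h := card_fibre_le K F ℓ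
    rw [Finset.filter_true_of_mem fun P hP => ?_] at h
    · rwa [Finset.card_image_of_injective _ Subtype.val_injective] at h
    · obtain ⟨⟨P', hP'⟩, -, rfl⟩ := Finset.mem_image.mp hP
      obtain ⟨f, hf, he⟩ := exists_absNorm_eq_pow K P'
      exact ((hℓ.pow_eq_iff).mp (he.symm.trans hP'.1)).1
  · simp

/-- Prime counts are sparse: at most `[K : ℚ]` primes have a given prime norm. -/
theorem sparse_pcount (pred : PrimeId K → Prop) : Sparse (pcount K pred) :=
  ⟨pcount_nonneg pred, Module.finrank ℚ K, pcount_le_finrank_mul pred⟩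

/-- The counts of two exclusive properties add up. -/
theorem pcount_add {pred pred' : PrimeId K → Prop} (ℓ : ℕ)
    (h : ∀ P : PrimeId K, Ideal.absNorm P.1 = ℓ → ¬ (pred P ∧ pred' P)) :
    pcount K (fun P => pred P ∨ pred' P) ℓ = pcount K pred ℓ + pcount K pred' ℓ := by
  classical
  rw [pcount, pcount, pcount]
  split_ifs
  · rw [← Nat.cast_add, ← Nat.card_sum]
    refine congrArg Nat.cast (Nat.card_congr
      { toFun := fun P => if hp : pred P.1 then Sum.inl ⟨P.1, P.2.1, hp⟩
          else Sum.inr ⟨P.1, P.2.1, P.2.2.resolve_left hp⟩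
        invFun := Sum.elim (fun P => ⟨P.1, P.2.1, Or.inl P.2.2⟩) fun P => ⟨P.1, P.2.1, Or.inr P.2.2⟩
        left_inv := fun P => by
          dsimp only; split_ifs <;> rfl
        right_inv := fun x => by
          rcases x with P | P
          · exact dif_pos P.2.2
          · exact dif_neg fun hp => h P.1 P.2.1 ⟨hp, P.2.2⟩ })
  · simp

end Fermat.Agent.LT.ClassBound
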