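import Fermat.Agent.LT.ClassBound.Ramified
import Mathlib.RingTheory.ClassGroup.Basic

/-!
# Genus theory: the classes killed by two come from the odd ramified primes
-/

set_option autoImplicit false

noncomputable section

namespace Fermat.Agent.LT.ClassBound.QuadData

open NumberField Ideal
open scoped nonZeroDivisors

variable {d : ℕ} {K : Type*} [Field K] [NumberField K] (D : QuadData d K)

/-- The class of the ramified prime. -/
def ramCls (v : ℕ) (hv : v ∣ d) : ClassGroup (𝓞 K) :=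
  ClassGroup.mk0 ⟨D.ram v hv, mem_nonZeroDivisors_iff_ne_zero.mpr (D.ram_ne_bot v hv)⟩

open Classical in
/-- The class of a subset of the divisors of `d`. -/
def setCls (S : Finset ℕ) : ClassGroup (𝓞 K) :=
  ∏ v ∈ S, if hv : v ∣ d then D.ramCls v hv else 1

theorem mk0_natCast {n : ℕ} {I : (Ideal (𝓞 K))⁰} (h : (I : Ideal (𝓞 K)) = span {(n : 𝓞 K)}) :
    ClassGroup.mk0 I = 1 :=
  (ClassGroup.mk0_eq_one_iff I.2).mpr ⟨⟨(n : 𝓞 K), h⟩⟩

theorem ramCls_sq (v : ℕ) (hv : v ∣ d) : D.ramCls v hv * D.ramCls v hv = 1 := by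
  rw [ramCls, ← map_mul]
  exact mk0_natCast (D.ram_sq v hv)

theorem setCls_erase_two : D.setCls (d.primeFactors.erase 2) =
    D.ramCls 2 (Nat.dvd_of_mod_eq_zero (by have := D.mod_four; omega)) := by
  classical
  have h2 : 2 ∈ d.primeFactors := Nat.mem_primeFactors.mpr
    ⟨Nat.prime_two, Nat.dvd_of_mod_eq_zero (by have := D.mod_four; omega), D.pos.ne'⟩
  -- the product of all the ramified primes is `(Θ)`
  let f : ℕ → (Ideal (𝓞 K))⁰ := fun v => if hv : v ∣ d then
    ⟨D.ram v hv, mem_nonZeroDivisors_iff_ne_zero.mpr (D.ram_ne_bot v hv)⟩ else 1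
  have hle : ∀ x : 𝓞 K, x ∈ span {D.Θ} → ∀ v ∈ d.primeFactors, x ∈ (f v : Ideal (𝓞 K)) := by
    intro x hx v hv
    obtain ⟨y, rfl⟩ := mem_span_singleton'.mp hx
    have hvd := Nat.dvd_of_mem_primeFactors hv
    simp only [f, dif_pos hvd]
    refine Ideal.mul_mem_left _ _ ?_
    have h := (D.mem_ram v hvd 0 1).mpr (dvd_zero _)
    simpa using h
  have hprod : ((∏ v ∈ d.primeFactors, f v : (Ideal (𝓞 K))⁰) : Ideal (𝓞 K)) = span {D.Θ} := by
    rw [Submonoid.coe_finsetProd]
    have hnorm : absNorm (∏ v ∈ d.primeFactors, (f v : Ideal (𝓞 K))) = d := by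
      rw [map_prod]
      conv_rhs => rw [← Nat.prod_primeFactors_of_squarefree D.squarefree]
      refine Finset.prod_congr rfl fun v hv => ?_
      simp only [f, dif_pos (Nat.dvd_of_mem_primeFactors hv)]
      exact D.absNorm_ram v _
    have hΘ : absNorm (span {D.Θ}) = d := by
      have h : absNorm (span {D.Θ}) ^ 2 = d ^ 2 := by
        rw [← map_pow, span_singleton_pow, D.Θ_sq, span_singleton_neg, D.absNorm_span_natCast]
      exact Nat.pow_left_injective two_ne_zero h
    refine (eq_of_le_of_norm ?_ (hΘ.symm ▸ D.pos.ne') (hΘ.trans hnorm.symm)).symm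
    rw [Ideal.prod_eq_iInf_of_pairwise_isCoprime]
    · simp only [le_iInf_iff, span_singleton_le_iff_mem]
      exact fun v hv => hle _ (mem_span_singleton_self _) v hv
    · intro v hv w hw hne
      have hvd := Nat.dvd_of_mem_primeFactors hv
      have hwd := Nat.dvd_of_mem_primeFactors hw
      have : Fact v.Prime := ⟨Nat.prime_of_mem_primeFactors hv⟩
      have : Fact w.Prime := ⟨Nat.prime_of_mem_primeFactors hw⟩
      show IsCoprime (f v : Ideal (𝓞 K)) (f w : Ideal (𝓞 K))
      simp only [f, dif_pos hvd, dif_pos hwd]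
      refine Ideal.isCoprime_iff_sup_eq.mpr ((D.ram_isMaximal v hvd).coprime_of_ne
        (D.ram_isMaximal w hwd) fun h => hne ?_)
      rw [← D.absNorm_ram v hvd, h, D.absNorm_ram]
  -- so the class of the ramified prime over `2` is that of all the others
  have hone : ClassGroup.mk0 (∏ v ∈ d.primeFactors, f v) = 1 :=
    (ClassGroup.mk0_eq_one_iff (∏ v ∈ d.primeFactors, f v).2).mpr ⟨⟨D.Θ, hprod⟩⟩
  have hall : D.setCls d.primeFactors = 1 := by
    rw [← hone, map_prod, setCls]
    refine Finset.prod_congr rfl fun v hv => ?_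
    simp only [f, dif_pos (Nat.dvd_of_mem_primeFactors hv)]
    rfl
  rw [setCls, ← Finset.mul_prod_erase _ _ h2, dif_pos (Nat.dvd_of_mem_primeFactors h2)] at hall
  have hsq := D.ramCls_sq 2 (Nat.dvd_of_mem_primeFactors h2)
  exact (mul_left_cancel (hall.trans hsq.symm))

open Classical in
theorem setCls_mul (S : Finset ℕ) (v : ℕ) (hv : v ∣ d) :
    D.setCls S * D.ramCls v hv = D.setCls (if v ∈ S then S.erase v else insert v S) := by
  split_ifs with h
  · rw [setCls, setCls, ← Finset.mul_prod_erase _ _ h, dif_pos hv, mul_comm, ← mul_assoc,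
      D.ramCls_sq, one_mul]
  · rw [setCls, setCls, Finset.prod_insert h, dif_pos hv, mul_comm]

/-- The classes of subsets of the odd prime divisors form a subgroup. -/
theorem setCls_closed {S : Finset ℕ} (hS : S ⊆ d.primeFactors.erase 2) {v : ℕ} (hv : v ∣ d)
    (hvp : v.Prime) : ∃ S' ⊆ d.primeFactors.erase 2, D.setCls S * D.ramCls v hv = D.setCls S' := by
  classical
  -- products of two such classes; the prime over `2` has the class of all the odd ones
  have step : ∀ (T : Finset ℕ), T ⊆ d.primeFactors.erase 2 → ∀ (S : Finset ℕ),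
      S ⊆ d.primeFactors.erase 2 →
        ∃ S' ⊆ d.primeFactors.erase 2, D.setCls S * D.setCls T = D.setCls S' := by
    intro T
    induction T using Finset.induction_on with
    | empty => exact fun _ S hS => ⟨S, hS, by rw [setCls, setCls, Finset.prod_empty, mul_one]⟩
    | insert w T hw ih =>
      intro hT S hS
      obtain ⟨hw', hT'⟩ := Finset.insert_subset_iff.mp hT
      have hwd := Nat.dvd_of_mem_primeFactors (Finset.mem_of_mem_erase hw')
      have hsub : (if w ∈ S then S.erase w else insert w S) ⊆ d.primeFactors.erase 2 := by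
        split_ifs
        · exact (Finset.erase_subset _ _).trans hS
        · exact Finset.insert_subset hw' hS
      obtain ⟨S', hS', e⟩ := ih hT' _ hsub
      refine ⟨S', hS', ?_⟩
      rw [← e, ← D.setCls_mul S w hwd, show D.setCls (insert w T) = D.ramCls w hwd * D.setCls T by
        rw [setCls, setCls, Finset.prod_insert hw, dif_pos hwd], mul_assoc]
  by_cases h2 : v = 2
  · subst h2
    have h := step _ (Finset.Subset.refl _) S hS
    rwa [D.setCls_erase_two] at h
  · have hmem : ({v} : Finset ℕ) ⊆ d.primeFactors.erase 2 := Finset.singleton_subset_iff.mpr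
      (Finset.mem_erase.mpr ⟨h2, Nat.mem_primeFactors.mpr ⟨hvp, hv, D.pos.ne'⟩⟩)
    obtain ⟨S', hS', e⟩ := step {v} hmem S hS
    exact ⟨S', hS', by rwa [show D.setCls {v} = D.ramCls v hv by
      rw [setCls, Finset.prod_singleton, dif_pos hv]] at e⟩

/-- A proper invariant ideal has a proper invariant divisor which is principal or ramified. -/
private theorem exists_invariant_divisor {J : Ideal (𝓞 K)} (hJ : J ≠ ⊥) (hJt : J ≠ ⊤)
    (hinv : D.conjQ J = J) : ∃ (M : Ideal (𝓞 K)) (hM0 : M ≠ ⊥),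
      D.conjQ M = M ∧ M ∣ J ∧ M ≠ ⊤ ∧
      (ClassGroup.mk0 ⟨M, mem_nonZeroDivisors_iff_ne_zero.mpr hM0⟩ = 1 ∨
        ∃ (v : ℕ) (hv : v ∣ d), v.Prime ∧
          ClassGroup.mk0 ⟨M, mem_nonZeroDivisors_iff_ne_zero.mpr hM0⟩ = D.ramCls v hv) := by
  obtain ⟨Q, hQmax, hQ⟩ := Ideal.exists_le_maximal J hJt
  have := hQmax.isPrime
  have hQ0 : Q ≠ ⊥ := fun h => hJ (le_bot_iff.mp (h ▸ hQ))
  rcases D.prime_cases hQ0 with ⟨ℓ, rfl⟩ | ⟨hc, h⟩ | ⟨v, hv, hvp, rfl⟩
  · exact ⟨_, hQ0, D.conjQ_natCast ℓ, dvd_iff_le.mpr hQ, hQmax.ne_top, Or.inl (mk0_natCast rfl)⟩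
  · -- a split prime: `J` lies in `Q` and in its conjugate, so in their product `(N Q)`
    have hcQ : J ≤ D.conjQ Q := hinv ▸ Ideal.map_mono hQ
    have hcQmax : (D.conjQ Q).IsMaximal :=
      (Ideal.map_eq_top_or_isMaximal_of_surjective (D.conjO : 𝓞 K →+* 𝓞 K)
        D.conjO.surjective hQmax).resolve_left fun h => hJt (top_le_iff.mp (by
          have h2 := congrArg D.conjQ h
          rw [D.conjQ_conjQ] at h2
          exact absurd (h2.trans (Ideal.map_top _)) hQmax.ne_top))
    have hne : span {((absNorm Q : ℕ) : 𝓞 K)} ≠ ⊥ := by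
      rw [Ne, span_singleton_eq_bot, Nat.cast_eq_zero, absNorm_eq_zero_iff]
      exact hQ0
    refine ⟨_, hne, D.conjQ_natCast _, ?_, ?_, Or.inl (mk0_natCast rfl)⟩
    · rw [dvd_iff_le, ← h, Ideal.mul_eq_inf_of_isCoprime (Ideal.isCoprime_iff_sup_eq.mpr
        (hQmax.coprime_of_ne hcQmax fun e => hc e.symm))]
      exact le_inf hQ hcQ
    · intro e
      rw [← h] at e
      exact hQmax.ne_top (top_le_iff.mp (e.ge.trans Ideal.mul_le_left))
  · exact ⟨_, hQ0, D.conjQ_ram v hv, dvd_iff_le.mpr hQ, hQmax.ne_top, Or.inr ⟨v, hv, hvp, rfl⟩⟩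

/-- An invariant ideal has the class of a set of odd ramified primes. -/
theorem exists_setCls_of_invariant (J : Ideal (𝓞 K)) :
    ∀ (hJ : J ≠ ⊥), D.conjQ J = J → ∃ S ⊆ d.primeFactors.erase 2,
      ClassGroup.mk0 ⟨J, mem_nonZeroDivisors_iff_ne_zero.mpr hJ⟩ = D.setCls S := by
  induction J using WellFoundedGT.induction with
  | ind J ih =>
    intro hJ hinv
    rcases eq_or_ne J ⊤ with rfl | hJt
    · exact ⟨∅, Finset.empty_subset _, ((ClassGroup.mk0_eq_one_iff _).mpr
        ⟨⟨1, by rw [Ideal.submodule_span_eq, span_singleton_one]⟩⟩).trans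
          (Finset.prod_empty).symm⟩
    -- split off an invariant divisor with known class
    obtain ⟨M, hM0, hMinv, hMdvd, hMne, hMcls⟩ := D.exists_invariant_divisor hJ hJt hinv
    obtain ⟨J', rfl⟩ := hMdvd
    have hJ'0 : J' ≠ ⊥ := fun h => hJ (by rw [h, Ideal.mul_bot])
    have hlt : M * J' < J' := lt_of_le_of_ne Ideal.mul_le_right fun h => hMne (by
      rw [← Ideal.one_eq_top]
      exact mul_right_cancel₀ hJ'0 (by rw [one_mul]; exact h))
    obtain ⟨S, hS, hcls⟩ := ih J' hlt hJ'0 (mul_left_cancel₀ hM0 (by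
      have h2 := hinv
      rw [conjQ, Ideal.map_mul] at h2
      rwa [show Ideal.map _ M = M from hMinv] at h2))
    have hmul : ClassGroup.mk0 ⟨M * J', mem_nonZeroDivisors_iff_ne_zero.mpr hJ⟩ =
        ClassGroup.mk0 ⟨M, mem_nonZeroDivisors_iff_ne_zero.mpr hM0⟩ * D.setCls S := by
      rw [← hcls, ← map_mul]
      rfl
    rcases hMcls with h1 | ⟨v, hv, hvp, h1⟩
    · exact ⟨S, hS, by rw [hmul, h1, one_mul]⟩
    · obtain ⟨S', hS', e⟩ := D.setCls_closed hS hv hvp
      exact ⟨S', hS', by rw [hmul, h1, mul_comm, e]⟩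

/-- A class of order two contains an invariant ideal. -/
theorem exists_invariant_of_sq {C : ClassGroup (𝓞 K)} (hC : C * C = 1) :
    ∃ (J : Ideal (𝓞 K)) (hJ : J ≠ ⊥), D.conjQ J = J ∧
      ClassGroup.mk0 ⟨J, mem_nonZeroDivisors_iff_ne_zero.mpr hJ⟩ = C := by
  obtain ⟨⟨J, hJmem⟩, rfl⟩ := ClassGroup.mk0_surjective C
  have hJ : J ≠ ⊥ := mem_nonZeroDivisors_iff_ne_zero.mp hJmem
  rw [← map_mul] at hC
  obtain ⟨⟨α, hα⟩⟩ := (ClassGroup.mk0_eq_one_iff _).mp hC
  change J * J = span {α} at hα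
  set m := absNorm J with hm
  have hm0 : m ≠ 0 := absNorm_eq_zero_iff.not.mpr hJ
  have hJc : J * D.conjQ J = span {(m : 𝓞 K)} := D.mul_conjQ J
  -- `α · conj α = m²`
  have hnorm : α * D.conjO α = ((m : 𝓞 K)) ^ 2 := by
    obtain ⟨a, b, hab⟩ := D.exists_coords α
    have h1 := D.mul_conjO_coords a b
    rw [← hab] at h1
    have h2 : absNorm (span {α} * D.conjQ (span {α})) = absNorm (span {((m : 𝓞 K)) ^ 2}) := by
      rw [← hα, show D.conjQ (J * J) = D.conjQ J * D.conjQ J from Ideal.map_mul _ _ _,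
        mul_mul_mul_comm, hJc, span_singleton_mul_span_singleton, ← pow_two]
    rw [show D.conjQ (span {α}) = span {D.conjO α} from
      (Ideal.map_span _ _).trans (congrArg span Set.image_singleton),
      span_singleton_mul_span_singleton, h1, ← Nat.cast_pow, D.absNorm_span_natCast,
      D.absNorm_span_natCast] at h2
    rw [h1, Nat.pow_left_injective two_ne_zero h2, Nat.cast_pow]
  -- if `α = -m` then `J` is invariant; if not, `(m + α) J̄` is
  by_cases hβ : (m : 𝓞 K) + α = 0
  · refine ⟨J, hJ, ?_, rfl⟩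
    have h2 : J * D.conjQ J = J * J := by
      rw [hJc, hα, eq_neg_of_add_eq_zero_left hβ, span_singleton_neg]
    exact mul_left_cancel₀ hJ h2
  set β := (m : 𝓞 K) + α with hβdef
  have hcJ : D.conjQ J ≠ ⊥ := fun h => hJ
    ((Ideal.map_eq_bot_iff_of_injective D.conjO.injective).mp h)
  have hJ' : span {β} * D.conjQ J ≠ ⊥ :=
    mul_ne_zero (mt span_singleton_eq_bot.mp hβ) hcJ
  refine ⟨_, hJ', ?_, ?_⟩
  · have hα0 : α ≠ 0 := fun h => by
      rw [h, zero_mul] at hnorm
      exact pow_ne_zero 2 (Nat.cast_ne_zero.mpr hm0) hnorm.symm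
    refine mul_left_cancel₀ (mt span_singleton_eq_bot.mp hα0 : span {α} ≠ 0) ?_
    show span {α} * Ideal.map _ (span {β} * D.conjQ J) = _
    rw [Ideal.map_mul, Ideal.map_span, Set.image_singleton]
    show span {α} * (span {D.conjO β} * D.conjQ (D.conjQ J)) = _
    rw [D.conjQ_conjQ, ← mul_assoc, span_singleton_mul_span_singleton,
      show α * D.conjO β = (m : 𝓞 K) * β by
        rw [hβdef, map_add, map_natCast, mul_add, hnorm]; ring,
      ← span_singleton_mul_span_singleton, ← hJc, ← hα]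
    ring
  · refine (ClassGroup.mk0_eq_mk0_iff).mpr ⟨α, (m : 𝓞 K) * β, ?_, ?_, ?_⟩
    · rintro rfl
      rw [zero_mul] at hnorm
      exact pow_ne_zero 2 (Nat.cast_ne_zero.mpr hm0) hnorm.symm
    · exact mul_ne_zero (Nat.cast_ne_zero.mpr hm0) hβ
    · show span {α} * (span {β} * D.conjQ J) = span {(m : 𝓞 K) * β} * J
      rw [← span_singleton_mul_span_singleton, ← hJc, ← hα]
      ring

include D in
/-- **Genus theory bound.** -/
theorem card_two_torsion_le :
    Nat.card {C : ClassGroup (𝓞 K) // C * C = 1} ≤ 2 ^ (d.primeFactors.erase 2).card := by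
  classical
  rw [← Finset.card_powerset]
  -- the classes of sets of odd ramified primes are all the classes killed by two
  refine (Nat.card_le_card_of_surjective (fun S : {S // S ∈ (d.primeFactors.erase 2).powerset} =>
    (⟨D.setCls S.1, ?_⟩ : {C : ClassGroup (𝓞 K) // C * C = 1})) fun C => ?_).trans_eq
      (Nat.card_eq_finsetCard _)
  · rw [setCls, ← Finset.prod_mul_distrib]
    refine Finset.prod_eq_one fun v _ => ?_
    by_cases hv : v ∣ d
    · rw [dif_pos hv]; exact D.ramCls_sq v hv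
    · rw [dif_neg hv, mul_one]
  · obtain ⟨J, hJ, hinv, hC⟩ := D.exists_invariant_of_sq C.2
    obtain ⟨S, hS, e⟩ := D.exists_setCls_of_invariant J hJ hinv
    exact ⟨⟨S, Finset.mem_powerset.mpr hS⟩, Subtype.ext (e.symm.trans hC)⟩

end Fermat.Agent.LT.ClassBound.QuadData
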