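import Fermat.Agent.LT.ClassBound.ClassMaps

/-!
# In an unramified Galois extension the invariant ideals are extended
-/

set_option autoImplicit false

noncomputable section

namespace Fermat.Agent.LT.ClassBound

open NumberField UniqueFactorizationMonoid
open scoped Pointwise

variable {K L : Type*} [Field K] [NumberField K] [Field L] [NumberField L] [Algebra K L]
  [IsGalois K L]

/-- No prime is ramified. -/
def UnramExt (K L : Type*) [Field K] [NumberField K] [Field L] [NumberField L] [Algebra K L] :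
    Prop :=
  ∀ P : Ideal (𝓞 K), P.IsPrime → P ≠ ⊥ →
    (normalizedFactors (P.map (algebraMap (𝓞 K) (𝓞 L)))).Nodup

variable {g : L ≃ₐ[K] L} (hg : ∀ x, x ∈ Subgroup.zpowers g)

omit [NumberField L] in
theorem conjI_mul (h h' : L ≃ₐ[K] L) (I : Ideal (𝓞 L)) :
    conjI (h * h') I = conjI h (conjI h' I) := by
  show Ideal.map _ I = Ideal.map _ (Ideal.map _ I)
  rw [Ideal.map_map]
  congr 1
  refine RingHom.ext fun x => RingOfIntegers.ext ?_
  show ((act (h * h') x : 𝓞 L) : L) = ((act h (act h' x) : 𝓞 L) : L)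
  rw [coe_act, coe_act, coe_act]
  rfl

omit [NumberField L] in
theorem conjI_one (I : Ideal (𝓞 L)) : conjI (1 : L ≃ₐ[K] L) I = I := by
  show Ideal.map _ I = I
  conv_rhs => rw [← Ideal.map_id I]
  congr 1
  exact RingHom.ext fun x => RingOfIntegers.ext (coe_act 1 x)

include hg in
theorem conjI_eq_of_gen {J : Ideal (𝓞 L)} (hJ : conjI g J = J) (h : L ≃ₐ[K] L) : conjI h J = J := by
  obtain ⟨m, rfl⟩ := (Submonoid.mem_powers_iff h g).mp
    (((isOfFinOrder_of_finite g).mem_powers_iff_mem_zpowers).mpr (hg h))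
  induction m with
  | zero => rw [pow_zero, conjI_one]
  | succ m ih => rw [pow_succ, conjI_mul, hJ, ih]

omit [NumberField L] in
theorem conjI_smul_eq (h : L ≃ₐ[K] L) (Q : Ideal (𝓞 L)) : h • Q = conjI h Q := by
  show Ideal.map _ Q = Ideal.map _ Q
  congr 1
  exact RingHom.ext fun x => RingOfIntegers.ext (coe_act h x).symm

include hg in
/-- The extension of the prime under a prime divisor of an invariant ideal divides the ideal: its
factors are conjugate. -/
private theorem map_under_dvd_of_invariant (hunr : UnramExt K L) {J Q : Ideal (𝓞 L)} [Q.IsMaximal]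
    (hJ : J ≠ ⊥) (hinv : conjI g J = J) (hQ : J ≤ Q) :
    (Q.under (𝓞 K)).map (algebraMap (𝓞 K) (𝓞 L)) ∣ J := by
  set P := Q.under (𝓞 K)
  have hQ0 : Q ≠ ⊥ := fun h => hJ (le_bot_iff.mp (h ▸ hQ))
  have hP0 : P ≠ ⊥ := mt Ideal.eq_bot_of_comap_eq_bot hQ0
  have hM0 : P.map (algebraMap (𝓞 K) (𝓞 L)) ≠ ⊥ :=
    mt (Ideal.map_eq_bot_iff_of_injective (RingOfIntegers.algebraMap.injective _ _)).mp hP0
  rw [dvd_iff_normalizedFactors_le_normalizedFactors hM0 hJ,
    Multiset.le_iff_subset (hunr P inferInstance hP0)]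
  intro Q' hQ'
  have hp := prime_of_normalized_factor Q' hQ'
  have := Ideal.isPrime_of_prime hp
  have hPQ' : P = Q'.under (𝓞 K) :=
    ((inferInstance : Q.IsPrime).under (𝓞 K)).isMaximal hP0 |>.eq_of_le
      (Ideal.IsPrime.ne_top (Ideal.IsPrime.under (𝓞 K) Q'))
      (Ideal.map_le_iff_le_comap.mp (Ideal.le_of_dvd (dvd_of_mem_normalizedFactors hQ')))
  have : IsGaloisGroup (L ≃ₐ[K] L) (𝓞 K) (𝓞 L) :=
    IsGaloisGroup.of_isFractionRing (L ≃ₐ[K] L) (𝓞 K) (𝓞 L) K L
  obtain ⟨h, hh⟩ := Algebra.IsInvariant.exists_smul_of_under_eq (𝓞 K) (𝓞 L)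
    (L ≃ₐ[K] L) Q Q' hPQ'
  have hJQ' : J ≤ Q' := by
    rw [hh, conjI_smul_eq, ← conjI_eq_of_gen hg hinv h]
    exact Ideal.map_mono hQ
  obtain ⟨q, hq, hq'⟩ := exists_mem_normalizedFactors_of_dvd hJ hp.irreducible
    (Ideal.dvd_iff_le.mpr hJQ')
  rwa [associated_iff_eq.mp hq']

include hg in
/-- An invariant ideal is extended. -/
theorem exists_map_eq_of_invariant (hunr : UnramExt K L) :
    ∀ J : Ideal (𝓞 L), J ≠ ⊥ → conjI g J = J →
      ∃ I : Ideal (𝓞 K), I ≠ ⊥ ∧ I.map (algebraMap (𝓞 K) (𝓞 L)) = J := by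
  intro J
  induction J using WellFoundedGT.induction with
  | ind J ih =>
    intro hJ hinv
    rcases eq_or_ne J ⊤ with rfl | hJt
    · exact ⟨⊤, bot_ne_top.symm, Ideal.map_top _⟩
    obtain ⟨Q, hQmax, hQ⟩ := Ideal.exists_le_maximal J hJt
    have := hQmax.isPrime
    set P := Q.under (𝓞 K)
    have hQ0 : Q ≠ ⊥ := fun h => hJ (le_bot_iff.mp (h ▸ hQ))
    have hP0 : P ≠ ⊥ := mt Ideal.eq_bot_of_comap_eq_bot hQ0
    set M := P.map (algebraMap (𝓞 K) (𝓞 L))
    have hM0 : M ≠ ⊥ :=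
      mt (Ideal.map_eq_bot_iff_of_injective (RingOfIntegers.algebraMap.injective _ _)).mp hP0
    have hMdvd : M ∣ J := map_under_dvd_of_invariant hg hunr hJ hinv hQ
    obtain ⟨J', hJ'⟩ := hMdvd
    have hJ'0 : J' ≠ ⊥ := fun h => hJ (by rw [hJ', h, Ideal.mul_bot])
    have hlt : J < J' := lt_of_le_of_ne (hJ' ▸ Ideal.mul_le_right) fun h => by
      have hMt : M = 1 := mul_right_cancel₀ hJ'0 (by rw [one_mul, ← hJ', h])
      exact hQmax.ne_top (top_le_iff.mp
        (Ideal.one_eq_top.ge.trans (hMt.ge.trans (Ideal.map_comap_le))))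
    have hMinv : conjI g M = M := by
      show Ideal.map _ (Ideal.map _ P) = Ideal.map _ P
      rw [Ideal.map_map]
      congr 1
      exact RingHom.ext fun x => (act g).commutes x
    obtain ⟨I, hI0, hI⟩ := ih J' hlt hJ'0 (mul_left_cancel₀ hM0 (by
      have h2 := hinv
      rw [hJ', conjI, Ideal.map_mul] at h2
      rwa [show Ideal.map _ M = M from hMinv] at h2))
    exact ⟨P * I, mul_ne_zero hP0 hI0, by rw [Ideal.map_mul, hI, hJ']⟩

end Fermat.Agent.LT.ClassBound
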