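import Mathlib.Algebra.Order.Ring.Star
import Mathlib.Data.Int.Star
import Mathlib.LinearAlgebra.FreeModule.Finite.Quotient
import Mathlib.RingTheory.Flat.TorsionFree
import Mathlib.RingTheory.RegularLocalRing.Defs
import Mathlib.Tactic

/-!
# The coinvariants of a lattice under an automorphism of prime power order

If `σ ^ (p ^ k) = 1` on a lattice `V`, no vector but zero is fixed and the fixed lattices of the
powers `σ ^ (p ^ i)` increase strictly, then `V / (σ - 1) V` has at least `p ^ k` elements.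
-/

set_option autoImplicit false

namespace Fermat.Agent.LT.ClassBound

open Module

variable {V : Type*} [AddCommGroup V] [Module.Free ℤ V] [Module.Finite ℤ V]

/-- An injective endomorphism of a lattice has finite cokernel. -/
theorem finite_coker (f : V →ₗ[ℤ] V)
    (hf : Function.Injective f) : Finite (V ⧸ LinearMap.range f) :=
  Submodule.finiteQuotientOfFreeOfRankEq (LinearMap.range f)
    (LinearMap.finrank_range_of_inj hf)

omit [Free ℤ V] [Module.Finite ℤ V] in
/-- The endomorphism is nilpotent modulo `p`. -/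
theorem exists_sub_one_pow_eq {p : ℕ} [Fact p.Prime] (σ : Module.End ℤ V) (m : ℕ)
    (hσ : σ ^ p ^ m = 1) : ∃ g : Module.End ℤ V, (σ - 1) ^ p ^ m = (p : Module.End ℤ V) * g := by
  have h : Polynomial.map (Int.castRingHom (ZMod p))
      ((Polynomial.X - 1) ^ p ^ m - (Polynomial.X ^ p ^ m - 1)) = 0 := by
    simp [sub_pow_char_pow]
  obtain ⟨g, hg⟩ : Polynomial.C (p : ℤ) ∣
      (Polynomial.X - 1) ^ p ^ m - (Polynomial.X ^ p ^ m - 1 : Polynomial ℤ) :=
    (Polynomial.C_dvd_iff_dvd_coeff _ _).mpr fun i => by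
      rw [← ZMod.intCast_zmod_eq_zero_iff_dvd]
      have h' := congrArg (fun P => Polynomial.coeff P i) h
      rw [Polynomial.coeff_map, Polynomial.coeff_zero] at h'
      exact h'
  refine ⟨Polynomial.aeval σ g, ?_⟩
  have := congrArg (Polynomial.aeval σ) hg
  simpa [hσ] using this

theorem prime_le_card {p : ℕ} [Fact p.Prime] {k : ℕ} [Nontrivial V] (σ : Module.End ℤ V)
    (hσ : σ ^ p ^ (k + 1) = 1) (hinj : Function.Injective ⇑(σ - 1))
    (hsum : ∀ v, ∑ j ∈ Finset.range p, ((σ ^ p ^ k) ^ j) v = 0) :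
    p ≤ Nat.card (V ⧸ LinearMap.range (σ - 1)) := by
  have := finite_coker (σ - 1) hinj
  set f : Module.End ℤ V := σ - 1 with hf
  -- the quotient is not trivial
  have hne : LinearMap.range f ≠ ⊤ := by
    intro htop
    have hsurj : ∀ n : ℕ, Function.Surjective (f ^ n : Module.End ℤ V) := fun n => by
      induction n with
      | zero => exact fun v => ⟨v, rfl⟩
      | succ n ih => rw [pow_succ]; exact ih.comp (LinearMap.range_eq_top.mp htop)
    obtain ⟨g, hg⟩ := exists_sub_one_pow_eq σ (k + 1) hσ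
    obtain ⟨b⟩ : Nonempty (Basis (Free.ChooseBasisIndex ℤ V) ℤ V) := ⟨Free.chooseBasis ℤ V⟩
    obtain ⟨i⟩ := b.index_nonempty
    obtain ⟨v, hv⟩ := hsurj (p ^ (k + 1)) (b i)
    rw [hf, hg, Module.End.mul_apply, Module.End.natCast_apply] at hv
    have h1 := congrArg (fun w => b.repr w i) hv
    simp only [map_nsmul, Finsupp.smul_apply, nsmul_eq_mul, Basis.repr_self,
      Finsupp.single_eq_same] at h1
    have := Int.eq_one_of_mul_eq_one_right (Int.natCast_nonneg p) h1
    exact (Fact.out : p.Prime).one_lt.ne' (by exact_mod_cast this)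
  -- and killed by `p`
  have hkill : ∀ z : V ⧸ LinearMap.range f, p • z = 0 := fun z => by
    obtain ⟨v, rfl⟩ := Submodule.Quotient.mk_surjective _ z
    have hstep : ∀ n : ℕ, (Submodule.Quotient.mk ((σ ^ n) v) : V ⧸ LinearMap.range f) =
        Submodule.Quotient.mk v := fun n => by
      induction n with
      | zero => rfl
      | succ n ih =>
        rw [← ih, Submodule.Quotient.eq]
        exact ⟨(σ ^ n) v, by rw [hf, LinearMap.sub_apply, pow_succ']; rfl⟩
    have h := congrArg (Submodule.mkQ (LinearMap.range f)) (hsum v)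
    simp only [map_sum, ← pow_mul, Submodule.mkQ_apply, hstep, map_zero, Finset.sum_const,
      Finset.card_range] at h
    exact h
  obtain ⟨v, hv⟩ : ∃ v : V, v ∉ LinearMap.range f := by
    by_contra h
    push Not at h
    exact hne (eq_top_iff.mpr fun v _ => h v)
  have hz : (Submodule.Quotient.mk v : V ⧸ LinearMap.range f) ≠ 0 := fun h =>
    hv ((Submodule.Quotient.mk_eq_zero _).mp h)
  calc p = addOrderOf (Submodule.Quotient.mk v : V ⧸ LinearMap.range f) :=
        (addOrderOf_eq_prime (hkill _) hz).symm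
    _ ≤ _ := Nat.le_of_dvd Nat.card_pos (addOrderOf_dvd_natCard _)

omit [Free ℤ V] [Module.Finite ℤ V] in
/-- Powers of a restriction are restrictions of powers. -/
private theorem restrict_pow_apply (σ : Module.End ℤ V) {U : Submodule ℤ V} (hU : ∀ v ∈ U, σ v ∈ U)
    (n : ℕ) (v : U) : (((σ.restrict hU) ^ n) v : V) = (σ ^ n) (v : V) := by
  rw [Module.End.pow_restrict]
  rfl

omit [Free ℤ V] [Module.Finite ℤ V] in
/-- For `π` commuting with `σ` the coinvariants of its kernel and of its image are bounded by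
those of the whole lattice. -/
private theorem card_coker_mul_le (σ π : Module.End ℤ V) (hστ : ∀ v, π (σ v) = σ (π v))
    (hUσ : ∀ v ∈ LinearMap.ker π, σ v ∈ LinearMap.ker π)
    (hWσ : ∀ v ∈ LinearMap.range π, σ v ∈ LinearMap.range π) (hinj : Function.Injective ⇑(σ - 1))
    [Finite (V ⧸ LinearMap.range (σ - 1))] :
    Nat.card (LinearMap.ker π ⧸ LinearMap.range (σ.restrict hUσ - 1)) *
        Nat.card (LinearMap.range π ⧸ LinearMap.range (σ.restrict hWσ - 1)) ≤
      Nat.card (V ⧸ LinearMap.range (σ - 1)) := by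
  -- the maps of coinvariants: `j` injective into the kernel of `q`, and `q` surjective
  let j := (LinearMap.range (σ.restrict hUσ - 1)).mapQ (LinearMap.range (σ - 1))
    (LinearMap.ker π).subtype
    (by rintro _ ⟨x, rfl⟩; exact ⟨x, rfl⟩)
  let q := (LinearMap.range (σ - 1)).mapQ (LinearMap.range (σ.restrict hWσ - 1)) π.rangeRestrict
    (by
      rintro _ ⟨x, rfl⟩
      refine ⟨π.rangeRestrict x, Subtype.ext ?_⟩
      show σ (π x) - π x = π (σ x - x)
      rw [map_sub, hστ])
  have hj : Function.Injective j := by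
    rw [injective_iff_map_eq_zero]
    intro z hz
    obtain ⟨v, rfl⟩ := Submodule.Quotient.mk_surjective _ z
    obtain ⟨u, hu⟩ := (Submodule.Quotient.mk_eq_zero _).mp hz
    change σ u - u = (v : V) at hu
    have hπu : π u = 0 := hinj (by
      rw [map_zero, LinearMap.sub_apply, Module.End.one_apply, ← hστ, ← map_sub, hu]
      exact v.2)
    exact (Submodule.Quotient.mk_eq_zero _).mpr ⟨⟨u, hπu⟩, Subtype.ext hu⟩
  have hle : LinearMap.range j ≤ LinearMap.ker q := by
    rintro _ ⟨z, rfl⟩
    obtain ⟨v, rfl⟩ := Submodule.Quotient.mk_surjective _ z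
    exact (Submodule.Quotient.mk_eq_zero _).mpr
      ⟨0, Subtype.ext (by rw [map_zero]; exact (LinearMap.mem_ker.mp v.2).symm)⟩
  have hq : Function.Surjective q := fun z => by
    obtain ⟨w, rfl⟩ := Submodule.Quotient.mk_surjective _ z
    obtain ⟨v, hv⟩ := w.2
    exact ⟨Submodule.Quotient.mk v, congrArg Submodule.Quotient.mk (Subtype.ext hv)⟩
  have h1 : Nat.card (LinearMap.ker π ⧸ LinearMap.range (σ.restrict hUσ - 1)) ≤
      Nat.card (LinearMap.ker q) :=
    (Nat.card_congr (LinearEquiv.ofInjective j hj).toEquiv).trans_le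
      (Nat.card_le_card_of_injective _ (Submodule.inclusion_injective hle))
  rw [Submodule.card_eq_card_quotient_mul_card (LinearMap.ker q),
    Nat.card_congr (LinearMap.quotKerEquivOfSurjective q hq).toEquiv, mul_comm]
  exact (Nat.mul_le_mul_left _ h1).trans_eq (mul_comm _ _)

universe u

/-- The lower bound on the coinvariants. -/
theorem pow_le_card (p : ℕ) [Fact p.Prime] (k : ℕ) :
    ∀ {V : Type u} [AddCommGroup V] [Module.Free ℤ V] [Module.Finite ℤ V] (σ : Module.End ℤ V),
      σ ^ p ^ k = 1 → Function.Injective ⇑(σ - 1) →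
      (∀ i < k, ∃ v, (σ ^ p ^ (i + 1)) v = v ∧ (σ ^ p ^ i) v ≠ v) →
      p ^ k ≤ Nat.card (V ⧸ LinearMap.range (σ - 1)) := by
  induction k with
  | zero =>
    intro V _ _ _ σ _ hinj _
    have := finite_coker (σ - 1) hinj
    rw [pow_zero]
    exact Nat.card_pos
  | succ k ih =>
    intro V _ _ _ σ hσ hinj hchain
    have := finite_coker (σ - 1) hinj
    -- split along `π = σ ^ (p ^ k) - 1`: induction applies to its kernel `U`, the bound `p` to its
    -- image `W`, and the coinvariants of `U`, `V`, `W` form an exact sequence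
    set τ : Module.End ℤ V := σ ^ p ^ k with hτ
    set π : Module.End ℤ V := τ - 1 with hπ
    set U := LinearMap.ker π with hU
    set W := LinearMap.range π
    have hcomm : Commute σ π := ((Commute.refl σ).pow_right _).sub_right (Commute.one_right _)
    have hστ : ∀ v, π (σ v) = σ (π v) := fun v => (LinearMap.congr_fun hcomm.eq v).symm
    have hUσ : ∀ v ∈ U, σ v ∈ U := fun v hv => by
      rw [hU, LinearMap.mem_ker, hστ, LinearMap.mem_ker.mp hv, map_zero]
    have hWσ : ∀ v ∈ W, σ v ∈ W := fun v ⟨w, hw⟩ => ⟨σ w, by rw [hστ, hw]⟩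
    set σU := σ.restrict hUσ
    set σW := σ.restrict hWσ
    have hpowU : ∀ (n : ℕ) (v : U), ((σU ^ n) v : V) = (σ ^ n) (v : V) := restrict_pow_apply σ hUσ
    have hpowW : ∀ (n : ℕ) (v : W), ((σW ^ n) v : V) = (σ ^ n) (v : V) := restrict_pow_apply σ hWσ
    have hinjU : Function.Injective ⇑(σU - 1) := fun a b h => Subtype.ext
      (hinj (congrArg Subtype.val h))
    have hinjW : Function.Injective ⇑(σW - 1) := fun a b h => Subtype.ext
      (hinj (congrArg Subtype.val h))
    have hτU : σU ^ p ^ k = 1 := LinearMap.ext fun v => Subtype.ext <| by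
      rw [hpowU]; exact sub_eq_zero.mp (LinearMap.mem_ker.mp v.2)
    -- the strictly increasing fixed lattices lie in `U`
    have hchainU : ∀ i < k, ∃ v, (σU ^ p ^ (i + 1)) v = v ∧ (σU ^ p ^ i) v ≠ v := by
      intro i hi
      obtain ⟨v, h1, h2⟩ := hchain i (by omega)
      have hfix : ∀ j : ℕ, (σ ^ (p ^ (i + 1) * j)) v = v := fun j => by
        induction j with
        | zero => rfl
        | succ j ihj => rw [Nat.mul_succ, pow_add, Module.End.mul_apply, h1, ihj]
      have hvU : v ∈ U := by
        obtain ⟨j, hj⟩ := pow_dvd_pow p (show i + 1 ≤ k by omega)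
        rw [hU, LinearMap.mem_ker, hπ, LinearMap.sub_apply, hτ, hj, hfix]
        exact sub_self v
      exact ⟨⟨v, hvU⟩, Subtype.ext (by rw [hpowU]; exact h1),
        fun h => h2 (by rw [← hpowU _ ⟨v, hvU⟩, h])⟩
    have hIH := ih σU hτU hinjU hchainU
    have : Nontrivial W := by
      obtain ⟨v, -, h2⟩ := hchain k (by omega)
      refine ⟨⟨⟨π v, v, rfl⟩, 0, fun h => h2 ?_⟩⟩
      exact sub_eq_zero.mp (congrArg Subtype.val h)
    have hsum : ∀ w : W, ∑ j ∈ Finset.range p, ((σW ^ p ^ k) ^ j) w = 0 := fun w => by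
      obtain ⟨v, hv⟩ := w.2
      refine Subtype.ext ?_
      rw [AddSubmonoidClass.coe_finsetSum, ZeroMemClass.coe_zero]
      have hgeom := LinearMap.congr_fun (geom_sum_mul τ p) v
      rw [show τ ^ p = 1 by rw [hτ, ← pow_mul, ← pow_succ, hσ], sub_self, Module.End.mul_apply,
        LinearMap.sum_apply, LinearMap.zero_apply] at hgeom
      simp only [← pow_mul, hpowW]
      rw [← hv]
      simpa [hτ, hπ, ← pow_mul, map_sub, Finset.sum_sub_distrib] using hgeom
    have hWb := prime_le_card (k := k) σW (LinearMap.ext fun v => Subtype.ext <| by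
      rw [hpowW, hσ]; rfl) hinjW hsum
    rw [pow_succ]
    exact (Nat.mul_le_mul hIH hWb).trans (card_coker_mul_le σ π hστ hUσ hWσ hinj)

end Fermat.Agent.LT.ClassBound
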