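import Fermat.Agent.LT.ClassBound.Quadratic
import Fermat.Agent.LT.ClassBound.Genus
import Mathlib.GroupTheory.FiniteAbelian.Duality

/-!
# Unramified characters of `ℚ(√-d)` are bounded by the class group

For `d ≡ 2 mod 4`, squarefree for the bound, and an unramified character of finite level of the
absolute Galois group of `ℚ(√-d)`:
`card_range_le` bounds a range of two power order by the two part of the class group, and
`exists_cubic` turns a range of order three into a cubic character of the class group with the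
same kernel at almost all primes of degree one. `closure_eq_top`: primes of degree one outside a
negligible set on which a cubic class character is nontrivial generate the class group.
They are used in `LT/Glue/Params`.
-/

set_option autoImplicit false

noncomputable section

namespace Fermat.Agent.LT.ClassBound

open Filter Topology NumberField Fermat.Agent.Arith Fermat.Agent.Arith.Density

/-! ## Norm subgroups -/

section General

variable {K : IntermediateField ℚ QBar} [FiniteDimensional ℚ K] [Normal ℚ K]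

/-- `H` is the norm subgroup of `ψ`, up to a set of density zero. -/
def NormGroup {A : Type*} [CommGroup A] (ψ : K.fixingSubgroup →* A)
    (H : Subgroup (ClassGroup (𝓞 K))) : Prop :=
  H.index = Nat.card ψ.range ∧
    HasDens (pcount K fun P => ¬ (cl P ∈ H ↔ ψ (fr K P) = 1)) 0

omit [Normal ℚ ↥K] in
theorem pcount_le_or {p q r : PrimeId K → Prop} (n : ℕ)
    (h : ∀ P : PrimeId K, Ideal.absNorm P.1 = n → p P → q P ∨ r P) :
    pcount K p n ≤ pcount K q n + pcount K r n := by
  refine le_trans (pcount_mono (pred' := fun P => q P ∨ (r P ∧ ¬ q P)) n fun P hP hp => ?_) ?_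
  · by_cases hq : q P
    · exact Or.inl hq
    · exact Or.inr ⟨(h P hP hp).resolve_left hq, hq⟩
  rw [pcount_add (pred := q) (pred' := fun P => r P ∧ ¬ q P) n fun P _ h => h.2.2 h.1]
  exact add_le_add_right (pcount_mono n fun P _ h => h.1) _

omit [Normal ℚ ↥K] in
theorem hasDens_zero_or {p q r : PrimeId K → Prop} (hq : HasDens (pcount K q) 0)
    (hr : HasDens (pcount K r) 0) (h : ∀ P, p P → q P ∨ r P) : HasDens (pcount K p) 0 :=
  hasDens_zero_of_le (by simpa using hq.add hr (sparse_pcount _) (sparse_pcount _))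
    (sparse_pcount _) ((sparse_pcount _).add (sparse_pcount _))
    fun n => pcount_le_or n fun P _ => h P

variable {A A' : Type*} [CommGroup A] [CommGroup A'] {ψ : K.fixingSubgroup →* A}
  {ψ' : K.fixingSubgroup →* A'} {H H' : Subgroup (ClassGroup (𝓞 K))}

omit [Normal ℚ K] in
theorem NormGroup.finite (h : NormGroup ψ H) : Finite ψ.range :=
  Nat.finite_of_card_ne_zero (h.1 ▸ Subgroup.index_ne_zero_of_finite)

omit [Normal ℚ ↥K] in
theorem NormGroup.eq_one (h : NormGroup ψ H) (h' : NormGroup ψ' H') (hψ : Unram K ψ)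
    (hlev : Level K ψ) (hψ' : Unram K ψ') (hlev' : Level K ψ') (hle : H ≤ H')
    {σ : K.fixingSubgroup} (hσ : ψ σ = 1) : ψ' σ = 1 := by
  have := h.finite
  have := h'.finite
  refine eq_one_of_dens_zero hψ hψ' hlev hlev' (hasDens_zero_or h.2 h'.2 fun P hP => ?_) hσ
  by_cases hm : cl P ∈ H ↔ ψ (fr K P) = 1
  · exact Or.inr fun hm' => hP.2 (hm'.mp (hle (hm.mpr hP.1)))
  · exact Or.inl hm

omit [FiniteDimensional ℚ K] [Normal ℚ K] in
theorem unram_of_ker (hψ : Unram K ψ) (h : ∀ σ, ψ σ = 1 → ψ' σ = 1) : Unram K ψ' :=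
  fun q hq B hB σ hσ => h σ (hψ q hq B hB σ hσ)

omit [FiniteDimensional ℚ K] [Normal ℚ K] in
theorem level_of_ker (hlev : Level K ψ) (h : ∀ σ, ψ σ = 1 → ψ' σ = 1) : Level K ψ' :=
  let ⟨L, hL, hL'⟩ := hlev
  ⟨L, hL, fun σ hσ => h σ (hL' σ hσ)⟩

omit [FiniteDimensional ℚ K] [Normal ℚ K] in
theorem index_inf_eq_mul (H₁ H₂ : Subgroup (ClassGroup (𝓞 K))) (h : H₁ ⊔ H₂ = ⊤) :
    (H₁ ⊓ H₂).index = H₁.index * H₂.index := by
  rw [← Subgroup.relIndex_mul_index (inf_le_left : H₁ ⊓ H₂ ≤ H₁), Subgroup.inf_relIndex_left,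
    ← Subgroup.relIndex_sup_right H₁ H₂, h, Subgroup.relIndex_top_right, mul_comm]

theorem exists_index_two_ge {G : Type*} [CommGroup G] [Finite G] {H₀ : Subgroup G} (hne : H₀ ≠ ⊤)
    {k : ℕ} (hk : H₀.index ∣ 2 ^ k) : ∃ M : Subgroup G, H₀ ≤ M ∧ M.index = 2 := by
  obtain ⟨j, -, hj⟩ := (Nat.dvd_prime_pow Nat.prime_two).mp hk
  have hj0 : j ≠ 0 := fun h0 => hne (Subgroup.index_eq_one.mp (by rw [hj, h0, pow_zero]))
  have : Fact (Nat.Prime 2) := ⟨Nat.prime_two⟩
  have hcard : Nat.card (G ⧸ H₀) = 2 ^ j := hj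
  obtain ⟨M₀, hM₀⟩ := Sylow.exists_subgroup_card_pow_prime (G := G ⧸ H₀) 2 (n := j - 1)
    (by rw [hcard]; exact pow_dvd_pow 2 (Nat.sub_le j 1))
  refine ⟨M₀.comap (QuotientGroup.mk' H₀), fun x hx => ?_, ?_⟩
  · rw [Subgroup.mem_comap, QuotientGroup.mk'_apply, (QuotientGroup.eq_one_iff x).mpr hx]
    exact one_mem _
  · rw [Subgroup.index_comap_of_surjective _ (QuotientGroup.mk'_surjective H₀)]
    have h := M₀.card_mul_index
    rw [hM₀, hcard, show 2 ^ j = 2 ^ (j - 1) * 2 by rw [← pow_succ]; congr 1; omega] at h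
    exact Nat.eq_of_mul_eq_mul_left (pow_pos two_pos _) h

/-- A finite abelian group has fewer subgroups of index two than elements killed by two: such a
subgroup is the kernel of a character of order two, and the group is isomorphic to its dual. -/
private theorem card_index_two_succ_le (G : Type*) [CommGroup G] [Finite G] :
    Nat.card {M : Subgroup G // M.index = 2} + 1 ≤ Nat.card {C : G // C * C = 1} := by
  classical
  let Y := {M : Subgroup G // M.index = 2}
  let sgn : Y → (G →* ℂˣ) := fun M =>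
    MonoidHom.mk' (fun C => if C ∈ M.1 then 1 else -1) fun a b => by
      have h := Subgroup.mul_mem_iff_of_index_two M.2 (a := a) (b := b)
      by_cases ha : a ∈ M.1 <;> by_cases hb : b ∈ M.1 <;> simp [h, ha, hb]
  have hsgn : ∀ (M : Y) C, sgn M C = 1 ↔ C ∈ M.1 := fun M C => by
    show (if _ then (1 : ℂˣ) else -1) = 1 ↔ _
    split_ifs with h
    · exact iff_of_true rfl h
    · refine iff_of_false (fun e => ?_) h
      have := congrArg Units.val e
      norm_num at this
  obtain ⟨e⟩ := CommGroup.monoidHom_mulEquiv_of_hasEnoughRootsOfUnity G ℂ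
  have hsq1 : ∀ M : Y, sgn M * sgn M = 1 := fun M => MonoidHom.ext fun C => by
    show (if C ∈ M.1 then (1 : ℂˣ) else -1) * (if C ∈ M.1 then 1 else -1) = 1
    split_ifs <;> simp
  let ι : Option Y → {C : G // C * C = 1} := fun o => o.elim ⟨1, one_mul 1⟩
    fun M => ⟨e (sgn M), by rw [← map_mul, hsq1, map_one]⟩
  have hι : Function.Injective ι := by
    have hnt : ∀ M : Y, sgn M ≠ 1 := fun M h => by
      have : M.1 = ⊤ := eq_top_iff.mpr fun C _ => (hsgn M C).mp (by rw [h]; rfl)
      have h2 := M.2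
      rw [this, Subgroup.index_top] at h2
      omega
    rintro (_ | M) (_ | M') h
    · rfl
    · exact absurd (e.injective (((congrArg Subtype.val h).symm).trans (map_one e).symm))
        (hnt M')
    · exact absurd (e.injective ((congrArg Subtype.val h).trans (map_one e).symm)) (hnt M)
    · have h' : sgn M = sgn M' := e.injective (congrArg Subtype.val h)
      exact congrArg some (Subtype.ext (Subgroup.ext fun C => by rw [← hsgn, ← hsgn, h']))
  simpa [Finite.card_option] using Nat.card_le_card_of_injective ι hι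

omit [Normal ℚ ↥K] in
theorem pcount_negligible {Z : Set ℕ} (hZ : Negligible Z) :
    HasDens (pcount K fun P => Ideal.absNorm P.1 ∈ Z) 0 := by
  classical
  refine hasDens_zero_of_le (c' := fun n => (Module.finrank ℚ K : ℝ) * Z.indicator primeInd n)
    (by simpa using hZ.smul (Module.finrank ℚ K : ℝ)) (sparse_pcount _)
    ((sparse_indicator Z).smul (Nat.cast_nonneg _)) fun n => ?_
  by_cases hn : n ∈ Z
  · rw [Set.indicator_of_mem hn]
    exact pcount_le_finrank_mul _ n
  · have : IsEmpty {P : PrimeId K // Ideal.absNorm P.1 = n ∧ Ideal.absNorm P.1 ∈ Z} :=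
      ⟨fun P => hn (P.2.1 ▸ P.2.2)⟩
    rw [Set.indicator_of_notMem hn, mul_zero, pcount, Nat.card_of_isEmpty]
    simp

omit [Normal ℚ ↥K] in
theorem hasDens_top : HasDens (pcount K fun _ => True) 1 := by
  have h := hasDens_fr (ψ := (1 : K.fixingSubgroup →* Multiplicative (ZMod 1)))
    (fun _ _ _ _ _ _ => rfl) ⟨⊥, inferInstance, fun _ _ => rfl⟩ (a := 1) (one_mem _)
  have hc : Nat.card (1 : K.fixingSubgroup →* Multiplicative (ZMod 1)).range = 1 :=
    Nat.card_eq_one_iff_unique.mpr ⟨inferInstance, inferInstance⟩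
  rw [hc, Nat.cast_one, div_one] at h
  simpa using h

/-- **Generation** by the primes outside a proper subgroup of index three. -/
theorem closure_eq_top (χ : ClassGroup (𝓞 K) →* Multiplicative (ZMod 3))
    (hχ : Function.Surjective χ) {Z : Set ℕ} (hZ : Negligible Z) :
    Subgroup.closure {c : ClassGroup (𝓞 K) | ∃ P : PrimeId K, (Ideal.absNorm P.1).Prime ∧
      Ideal.absNorm P.1 ∉ Z ∧ cl P = c ∧ χ (cl P) ≠ 1} = ⊤ := by
  by_contra hne
  set G := Subgroup.closure {c : ClassGroup (𝓞 K) | ∃ P : PrimeId K, (Ideal.absNorm P.1).Prime ∧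
      Ideal.absNorm P.1 ∉ Z ∧ cl P = c ∧ χ (cl P) ≠ 1}
  have hG : 2 ≤ G.index := by
    have h0 : G.index ≠ 0 := Subgroup.index_ne_zero_of_finite
    have h1 : G.index ≠ 1 := mt Subgroup.index_eq_one.mp hne
    omega
  have h3 : χ.ker.index = 3 := by
    rw [Subgroup.index_ker, MonoidHom.range_eq_top.mpr hχ, Subgroup.card_top,
      Nat.card_eq_fintype_card]
    rfl
  -- the primes with class in `ker χ` or in `G` have upper density at most `1/3 + 1/2 < 1`
  have hu := ((upperDens_cl_mem χ.ker).add (upperDens_cl_mem G) (sparse_pcount _)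
    (sparse_pcount _)).add (pcount_negligible (K := K) hZ).upper
      ((sparse_pcount _).add (sparse_pcount _)) (sparse_pcount _)
  have h := le_of_upper hasDens_top (hu.mono (sparse_pcount (K := K) fun _ => True)
    (((sparse_pcount _).add (sparse_pcount _)).add (sparse_pcount _)) fun n => ?_)
  · rw [h3, add_zero] at h
    have hG' : (1 : ℝ) / G.index ≤ 1 / 2 :=
      one_div_le_one_div_of_le two_pos (by exact_mod_cast hG)
    push_cast at h
    linarith
  by_cases hn : n.Prime
  swap
  · simp [pcount, hn]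
  refine (pcount_le_or (q := fun P => cl P ∈ χ.ker ∨ cl P ∈ G)
    (r := fun P => Ideal.absNorm P.1 ∈ Z) n fun P hP _ => ?_).trans
    (add_le_add_left (pcount_le_or n fun P _ hP => hP) _)
  by_cases h1 : χ (cl P) = 1
  · exact Or.inl (Or.inl h1)
  by_cases hz : Ideal.absNorm P.1 ∈ Z
  · exact Or.inr hz
  · exact Or.inl (Or.inr (Subgroup.subset_closure ⟨P, hP.symm ▸ hn, hz, rfl, h1⟩))

end General

/-! ## Genus theory and the bound -/

section Quadratic

variable {d : ℕ} (hsq : Squarefree d) (h4 : d % 4 = 2)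

include hsq h4 in
/-- A genus character takes both signs. -/
private theorem card_range_setChar {S : Finset ℕ} (hS : S ⊆ d.primeFactors.erase 2)
    (hne : S.Nonempty) :
    Nat.card (setChar d S).range = 2 := by
  refine le_antisymm ?_ ?_
  · exact (Nat.card_le_card_of_injective _ Subtype.val_injective).trans_eq
      (Nat.card_eq_fintype_card.trans Fintype.card_units_int)
  · by_contra h
    have h0 : 0 < Nat.card (setChar d S).range := Nat.card_pos
    exact setChar_ne_one hsq h4 hS hne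
      (MonoidHom.range_eq_bot_iff.mp (Subgroup.card_eq_one.mp (by omega)))

include hsq h4 in
theorem exists_normGroup_setChar {S : Finset ℕ} (hS : S ⊆ d.primeFactors.erase 2)
    (hne : S.Nonempty) : ∃ H, NormGroup (setChar d S) H := by
  have : Fact (Nat.Prime 2) := ⟨Nat.prime_two⟩
  have := isTotallyComplex_Kd (d := d) (by omega)
  have hcard := card_range_setChar hsq h4 hS hne
  have : IsCyclic (setChar d S).range := isCyclic_of_prime_card (p := 2) hcard
  exact exists_norm_group (rank_Kd (by omega)) (unram_setChar hsq hS) (level_setChar S)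
    (hcard.trans (pow_one 2).symm)

include hsq h4 in
/-- **Genus theory**: the subgroups of index two are the norm subgroups of the genus characters. -/
theorem exists_setChar_of_index_two {M : Subgroup (ClassGroup (𝓞 (Kd d)))} (hM : M.index = 2) :
    ∃ S ⊆ d.primeFactors.erase 2, S.Nonempty ∧ NormGroup (setChar d S) M := by
  classical
  let X := {S // S ∈ (d.primeFactors.erase 2).powerset.erase ∅}
  let Y := {M : Subgroup (ClassGroup (𝓞 (Kd d))) // M.index = 2}
  have hX : ∀ S : X, S.1 ⊆ d.primeFactors.erase 2 ∧ S.1.Nonempty := fun S =>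
    ⟨Finset.mem_powerset.mp (Finset.mem_of_mem_erase S.2),
      Finset.nonempty_iff_ne_empty.mpr (Finset.mem_erase.mp S.2).1⟩
  choose H hH using fun S : X => exists_normGroup_setChar hsq h4 (hX S).1 (hX S).2
  have hidx : ∀ S : X, (H S).index = 2 := fun S =>
    (hH S).1.trans (card_range_setChar hsq h4 (hX S).1 (hX S).2)
  let Φ : X → Y := fun S => ⟨H S, hidx S⟩
  have hΦ : Function.Injective Φ := fun S T e => by
    have e' : H S = H T := congrArg Subtype.val e
    refine Subtype.ext (setChar_injective hsq h4 (hX S).1 (hX T).1 (MonoidHom.ext fun σ => ?_))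
    have uS := unram_setChar hsq (hX S).1
    have uT := unram_setChar hsq (hX T).1
    have h1 := (hH S).eq_one (hH T) uS (level_setChar _) uT (level_setChar _) e'.le (σ := σ)
    have h2 := (hH T).eq_one (hH S) uT (level_setChar _) uS (level_setChar _) e'.ge (σ := σ)
    rcases Int.units_eq_one_or (setChar d S.1 σ) with a | a
    · rw [a, h1 a]
    · rcases Int.units_eq_one_or (setChar d T.1 σ) with b | b
      · rw [b, h2 b]
      · rw [a, b]
  -- there are no more subgroups of index two than nonempty sets of odd prime divisors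
  have h2 : Nat.card Y + 1 ≤ 2 ^ (d.primeFactors.erase 2).card :=
    (card_index_two_succ_le _).trans (quadData hsq h4).card_two_torsion_le
  have hXc : Nat.card X + 1 = 2 ^ (d.primeFactors.erase 2).card := by
    rw [Nat.card_eq_finsetCard, Finset.card_erase_add_one (Finset.empty_mem_powerset _),
      Finset.card_powerset]
  obtain ⟨S, hS⟩ := ((Nat.bijective_iff_injective_and_card Φ).mpr ⟨hΦ,
    le_antisymm (Nat.card_le_card_of_injective Φ hΦ) (by omega)⟩).2 ⟨M, hM⟩
  exact ⟨S.1, (hX S).1, (hX S).2, (show H S = M from congrArg Subtype.val hS) ▸ hH S⟩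

include hsq h4 in
/-- The norm subgroups of two independent characters generate: otherwise a genus character would be
trivial on both kernels. -/
private theorem sup_eq_top_of_indep {A₁ A₂ : Type*} [CommGroup A₁] [CommGroup A₂]
    {ψ₁ : (Kd d).fixingSubgroup →* A₁} {ψ₂ : (Kd d).fixingSubgroup →* A₂} [Finite ψ₁.range]
    (hψ₁ : Unram (Kd d) ψ₁) (hl₁ : Level (Kd d) ψ₁) (hψ₂ : Unram (Kd d) ψ₂)
    (hl₂ : Level (Kd d) ψ₂) {H₁ H₂ : Subgroup (ClassGroup (𝓞 (Kd d)))}
    (hd₁ : HasDens (pcount (Kd d) fun P => ¬ (cl P ∈ H₁ ↔ ψ₁ (fr (Kd d) P) = 1)) 0)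
    (hH₂ : NormGroup ψ₂ H₂) {j : ℕ} (hj : Nat.card ψ₂.range = 2 ^ j)
    (hindep : ∀ σ, ∃ τ, ψ₁ τ = 1 ∧ ψ₂ τ = ψ₂ σ) : H₁ ⊔ H₂ = ⊤ := by
  by_contra hne
  obtain ⟨M, hle, hM⟩ := exists_index_two_ge hne (k := j) (by
    rw [← hj, ← hH₂.1]
    exact Subgroup.index_dvd_of_le le_sup_right)
  obtain ⟨S, hS, hSne, hNM⟩ := exists_setChar_of_index_two hsq h4 hM
  refine setChar_ne_one hsq h4 hS hSne (MonoidHom.ext fun σ => ?_)
  have := hNM.finite
  have huM := unram_setChar hsq hS
  have h1 : ∀ σ, ψ₁ σ = 1 → setChar d S σ = 1 := fun σ hσ => by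
    refine eq_one_of_dens_zero hψ₁ huM hl₁ (level_setChar S)
      (hasDens_zero_or hd₁ hNM.2 fun P hP => ?_) hσ
    by_cases hm : cl P ∈ H₁ ↔ ψ₁ (fr (Kd d) P) = 1
    · exact Or.inr fun hm' => hP.2 (hm'.mp (hle (Subgroup.mem_sup_left (hm.mpr hP.1))))
    · exact Or.inl hm
  obtain ⟨τ, hτ₁, hτ₂⟩ := hindep σ
  have h2 : setChar d S (σ * τ⁻¹) = 1 :=
    hH₂.eq_one hNM hψ₂ hl₂ huM (level_setChar S) (le_sup_right.trans hle)
      (by rw [map_mul, map_inv, hτ₂, mul_inv_cancel])
  rw [map_mul, map_inv, h1 τ hτ₁, inv_one, mul_one] at h2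
  exact h2

variable {A : Type*} [CommGroup A] [Finite A]

include hsq h4 in
/-- The norm subgroup of an unramified character with values in a two group. -/
theorem exists_normGroup (ψ : (Kd d).fixingSubgroup →* A) (hψ : Unram (Kd d) ψ)
    (hlev : Level (Kd d) ψ) {k : ℕ} (hk : Nat.card ψ.range = 2 ^ k) :
    ∃ H, NormGroup ψ H := by
  classical
  have : Fact (Nat.Prime 2) := ⟨Nat.prime_two⟩
  have := isTotallyComplex_Kd (d := d) (by omega)
  -- the components of `ψ` in a decomposition of its image into cyclic groups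
  obtain ⟨ι, _, n, hn1, ⟨e⟩⟩ := CommGroup.equiv_prod_multiplicative_zmod_of_finite ψ.range
  have : ∀ i, NeZero (n i) := fun i => ⟨by have := hn1 i; omega⟩
  let χ : ∀ i, (Kd d).fixingSubgroup →* Multiplicative (ZMod (n i)) := fun i =>
    (Pi.evalMonoidHom _ i).comp (e.toMonoidHom.comp ψ.rangeRestrict)
  have hsurj : Function.Surjective (e.toMonoidHom.comp ψ.rangeRestrict) :=
    e.surjective.comp ψ.rangeRestrict_surjective
  have hχker : ∀ i σ, ψ σ = 1 → χ i σ = 1 := fun i σ h => by
    show e (ψ.rangeRestrict σ) i = 1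
    rw [show ψ.rangeRestrict σ = 1 from Subtype.ext h, map_one]
    rfl
  have hcardχ : ∀ i, Nat.card (χ i).range = n i := fun i => by
    rw [MonoidHom.range_eq_top.mpr ((Function.surjective_eval i).comp hsurj), Subgroup.card_top,
      Nat.card_congr Multiplicative.toAdd, Nat.card_zmod]
  have hprod : ∏ i, n i = 2 ^ k := by
    rw [← hk, Nat.card_congr e.toEquiv, Nat.card_pi]
    exact Finset.prod_congr rfl fun i _ => by rw [Nat.card_congr Multiplicative.toAdd,
      Nat.card_zmod]
  suffices key : ∀ s : Finset ι, ∃ H : Subgroup (ClassGroup (𝓞 (Kd d))),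
      H.index = ∏ i ∈ s, n i ∧
      HasDens (pcount (Kd d) fun P => ¬ (cl P ∈ H ↔ ∀ i ∈ s, χ i (fr (Kd d) P) = 1)) 0 by
    obtain ⟨H, hH1, hH2⟩ := key Finset.univ
    refine ⟨H, hH1.trans (hprod.trans hk.symm), ?_⟩
    have hiff : ∀ σ, (∀ i ∈ (Finset.univ : Finset ι), χ i σ = 1) ↔ ψ σ = 1 := fun σ =>
      ⟨fun h => congrArg Subtype.val ((map_eq_one_iff e e.injective).mp
        (funext fun i => h i (Finset.mem_univ i)) : ψ.rangeRestrict σ = 1),
        fun h i _ => hχker i σ h⟩
    simpa only [hiff] using hH2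
  -- intersect the norm subgroups of the components, one at a time
  intro s
  induction s using Finset.induction_on with
  | empty =>
    refine ⟨⊤, by simp, hasDens_finite 0 fun m _ => ?_⟩
    rw [pcount]
    split_ifs
    · have : IsEmpty {P : PrimeId (Kd d) // Ideal.absNorm P.1 = m ∧
          ¬ (cl P ∈ (⊤ : Subgroup (ClassGroup (𝓞 (Kd d)))) ↔
            ∀ i ∈ (∅ : Finset ι), χ i (fr (Kd d) P) = 1)} :=
        ⟨fun P => P.2.2 (iff_of_true (Subgroup.mem_top _) fun i hi =>
          absurd hi (Finset.notMem_empty i))⟩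
      rw [Nat.card_of_isEmpty, Nat.cast_zero]
    · rfl
  | insert i s his ih =>
    obtain ⟨H₁, hH₁, hd₁⟩ := ih
    obtain ⟨j, -, hj⟩ := (Nat.dvd_prime_pow Nat.prime_two).mp
      ((Finset.dvd_prod_of_mem n (Finset.mem_univ i)).trans hprod.dvd)
    have : IsCyclic (χ i).range := inferInstance
    obtain ⟨H₂, hH₂⟩ : ∃ H, NormGroup (χ i) H := exists_norm_group (rank_Kd (by omega))
      (unram_of_ker hψ (hχker i)) (level_of_ker hlev (hχker i)) ((hcardχ i).trans hj)
    let ψs : (Kd d).fixingSubgroup →* (∀ j : s, Multiplicative (ZMod (n j.1))) :=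
      MonoidHom.mk' (fun σ j => χ j.1 σ) fun a b => funext fun j => map_mul (χ j.1) a b
    have hψs : ∀ σ, ψs σ = 1 ↔ ∀ l ∈ s, χ l σ = 1 := fun σ =>
      ⟨fun h l hl => congrFun h ⟨l, hl⟩, fun h => funext fun l => h l.1 l.2⟩
    have hs : ∀ σ, ψ σ = 1 → ψs σ = 1 := fun σ h => (hψs σ).mpr fun l _ => hχker l σ h
    -- the `i`-th character is independent of those in `s`
    have htop : H₁ ⊔ H₂ = ⊤ := sup_eq_top_of_indep hsq h4 (ψ₁ := ψs) (unram_of_ker hψ hs)
      (level_of_ker hlev hs) (unram_of_ker hψ (hχker i)) (level_of_ker hlev (hχker i))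
      (by simpa only [hψs] using hd₁) hH₂ ((hcardχ i).trans hj) fun σ => by
        obtain ⟨τ, hτ⟩ := hsurj (Pi.mulSingle i (χ i σ))
        have ht : ∀ l, χ l τ =
            Pi.mulSingle (M := fun l => Multiplicative (ZMod (n l))) i (χ i σ) l :=
          fun l => congrFun hτ l
        exact ⟨τ, (hψs τ).mpr fun l hl => by
          rw [ht, Pi.mulSingle_eq_of_ne (fun e : l = i => his (e ▸ hl))],
          by rw [ht, Pi.mulSingle_eq_same]⟩
    refine ⟨H₁ ⊓ H₂, by rw [index_inf_eq_mul H₁ H₂ htop, Finset.prod_insert his, hH₁, hH₂.1,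
      hcardχ, mul_comm], hasDens_zero_or hd₁ hH₂.2 fun P hP => ?_⟩
    by_cases hm : cl P ∈ H₁ ↔ ∀ i ∈ s, χ i (fr (Kd d) P) = 1
    · refine Or.inr fun hm' => hP ?_
      rw [Finset.forall_mem_insert, Subgroup.mem_inf, hm, hm']
      exact and_comm
    · exact Or.inl hm

include hsq h4 in
/-- An unramified character into a two group is bounded by the two part of the class group. -/
theorem card_range_le (ψ : (Kd d).fixingSubgroup →* A) (hψ : Unram (Kd d) ψ)
    (hlev : Level (Kd d) ψ) {k : ℕ} (hk : Nat.card ψ.range = 2 ^ k) :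
    Nat.card ψ.range ≤ Nat.card {c : ClassGroup (𝓞 (Kd d)) // ∃ k : ℕ, c ^ 2 ^ k = 1} := by
  obtain ⟨H, hH, -⟩ := exists_normGroup hsq h4 ψ hψ hlev hk
  have : Fact (Nat.Prime 2) := ⟨Nat.prime_two⟩
  -- the index `2 ^ k` divides the class number: take a subgroup of that order
  obtain ⟨P, hP⟩ := Sylow.exists_subgroup_card_pow_prime (G := ClassGroup (𝓞 (Kd d))) 2 (n := k)
    (by rw [← hk, ← hH]; exact Subgroup.index_dvd_card H)
  rw [hk, ← hP]
  refine Nat.card_le_card_of_injective (fun x => ⟨x.1, k, ?_⟩) fun a b h =>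
    Subtype.ext (congrArg Subtype.val h :)
  have h1 : x ^ Nat.card P = 1 := pow_card_eq_one'
  rw [hP] at h1
  exact congrArg Subtype.val h1

include h4 in
omit [Finite A] in
/-- An unramified cubic character gives a cubic character of the class group. -/
theorem exists_cubic (ψ : (Kd d).fixingSubgroup →* A) (hψ : Unram (Kd d) ψ)
    (hlev : Level (Kd d) ψ) (h3 : Nat.card ψ.range = 3) :
    ∃ χ : ClassGroup (𝓞 (Kd d)) →* Multiplicative (ZMod 3), Function.Surjective χ ∧
      ∃ Z : Set ℕ, Negligible Z ∧ ∀ P : PrimeId (Kd d), (Ideal.absNorm P.1).Prime →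
        Ideal.absNorm P.1 ∉ Z → (χ (cl P) = 1 ↔ ψ (fr (Kd d) P) = 1) := by
  have : Fact (Nat.Prime 3) := ⟨Nat.prime_three⟩
  have := isTotallyComplex_Kd (d := d) (by omega)
  have : IsCyclic ψ.range := isCyclic_of_prime_card (p := 3) h3
  obtain ⟨H, hH, hd⟩ := exists_norm_group (rank_Kd (by omega)) hψ hlev (k := 1)
    (h3.trans (pow_one 3).symm)
  have : IsCyclic (ClassGroup (𝓞 (Kd d)) ⧸ H) :=
    isCyclic_of_prime_card (p := 3) (hH.trans h3)
  let e := zmodCyclicMulEquiv (inferInstance : IsCyclic (ClassGroup (𝓞 (Kd d)) ⧸ H))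
  have hc : Nat.card (ClassGroup (𝓞 (Kd d)) ⧸ H) = 3 := hH.trans h3
  let e' : Multiplicative (ZMod 3) ≃* ClassGroup (𝓞 (Kd d)) ⧸ H :=
    (AddEquiv.toMultiplicative (ZMod.ringEquivCongr hc.symm).toAddEquiv).trans e
  refine ⟨e'.symm.toMonoidHom.comp (QuotientGroup.mk' H),
    e'.symm.surjective.comp (QuotientGroup.mk'_surjective H),
    {ℓ | ∃ P : PrimeId (Kd d), Ideal.absNorm P.1 = ℓ ∧ ¬ (cl P ∈ H ↔ ψ (fr (Kd d) P) = 1)},
    negligible_of_dens hd, fun P _ hP => ?_⟩
  have hiff : cl P ∈ H ↔ ψ (fr (Kd d) P) = 1 := by_contra fun h => hP ⟨P, rfl, h⟩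
  rw [← hiff, MonoidHom.comp_apply]
  exact (map_eq_one_iff e'.symm e'.symm.injective).trans (QuotientGroup.eq_one_iff _)

end Quadratic

end Fermat.Agent.LT.ClassBound
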