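import Mathlib.NumberTheory.Zsqrtd.Basic
import Mathlib.Tactic

/-!
# The integers of `ℚ(√-d)` for squarefree `d ≡ 2 mod 4`
-/

set_option autoImplicit false

noncomputable section

namespace Fermat.Agent.LT.ClassBound

open NumberField Module

/-- A field generated by a square root of `-d`. -/
structure QuadData (d : ℕ) (K : Type*) [Field K] [NumberField K] where
  θ : K
  θ_sq : θ ^ 2 = -(d : K)
  deg : finrank ℚ K = 2
  c : K ≃ₐ[ℚ] K
  c_θ : c θ = -θ
  squarefree : Squarefree d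
  mod_four : d % 4 = 2

namespace QuadData

variable {d : ℕ} {K : Type*} [Field K] [NumberField K] (D : QuadData d K)

include D in
/-- The number `d` of the quadratic data is positive. -/
theorem pos : 0 < d := by have := D.mod_four; omega

theorem exists_rat_coords (x : K) : ∃ a b : ℚ, x = (a : K) + (b : K) * D.θ := by
  have hθ : ∀ q : ℚ, D.θ ≠ (q : K) := fun q hq => by
    have h := D.θ_sq
    rw [hq, ← Rat.cast_natCast, ← Rat.cast_pow, ← Rat.cast_neg, Rat.cast_inj] at h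
    have := D.pos
    have h1 : (0 : ℚ) < (d : ℚ) := Nat.cast_pos.mpr this
    nlinarith [sq_nonneg q]
  have hli : LinearIndependent ℚ ![(1 : K), D.θ] := by
    rw [LinearIndependent.pair_iff]
    intro s t h
    by_cases ht : t = 0
    · subst ht; simpa using h
    refine absurd ?_ (hθ (-s / t))
    rw [Rat.smul_def, Rat.smul_def, mul_one] at h
    rw [Rat.cast_div, Rat.cast_neg, eq_div_iff (Rat.cast_ne_zero.mpr ht)]
    linear_combination h
  have hspan := hli.span_eq_top_of_card_eq_finrank' (by rw [Fintype.card_fin, D.deg])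
  have hx : x ∈ Submodule.span ℚ (Set.range ![(1 : K), D.θ]) := by rw [hspan]; trivial
  rw [Submodule.mem_span_range_iff_exists_fun] at hx
  obtain ⟨f, hf⟩ := hx
  exact ⟨f 0, f 1, by rw [← hf, Fin.sum_univ_two]; simp [Rat.smul_def]⟩

theorem c_coords (a b : ℚ) : D.c ((a : K) + (b : K) * D.θ) = (a : K) - (b : K) * D.θ := by
  rw [map_add, map_mul, map_ratCast, map_ratCast, D.c_θ, mul_neg, ← sub_eq_add_neg]

theorem int_of_integral {q : ℚ} (h : IsIntegral ℤ (q : K)) : ∃ m : ℤ, (m : ℚ) = q := by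
  rw [show (q : K) = algebraMap ℚ K q from (eq_ratCast _ q).symm,
    isIntegral_algebraMap_iff (algebraMap ℚ K).injective] at h
  exact IsIntegrallyClosed.isIntegral_iff.mp h

theorem exists_int_coords (x : 𝓞 K) :
    ∃ a b : ℤ, (x : K) = (a : K) + (b : K) * D.θ := by
  obtain ⟨a, b, hab⟩ := D.exists_rat_coords (x : K)
  have hc : IsIntegral ℤ (D.c (x : K)) := x.2.map D.c.toAlgHom.toRingHom.toIntAlgHom
  -- the trace `2 a` and the norm `a² + d b²` are integers
  obtain ⟨A, hA⟩ := int_of_integral (K := K) (q := 2 * a) (by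
    rw [show ((2 * a : ℚ) : K) = (x : K) + D.c (x : K) by rw [hab, D.c_coords]; push_cast; ring]
    exact IsIntegral.add x.2 hc)
  obtain ⟨N, hN⟩ := int_of_integral (K := K) (q := a ^ 2 + d * b ^ 2) (by
    rw [show ((a ^ 2 + d * b ^ 2 : ℚ) : K) = (x : K) * D.c (x : K) by
      rw [hab, D.c_coords]; push_cast; linear_combination (b : K) ^ 2 * D.θ_sq]
    exact IsIntegral.mul x.2 hc)
  -- `2 b` is an integer as `d` is squarefree
  obtain ⟨B, hB⟩ : ∃ B : ℤ, (B : ℚ) = 2 * b := by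
    set q := 2 * b with hq
    refine ⟨q.num, ?_⟩
    suffices hden : q.den = 1 by
      conv_rhs => rw [← Rat.num_div_den q, hden, Nat.cast_one, div_one]
    have h1 : (d : ℚ) * q ^ 2 = ((4 * N - A ^ 2 : ℤ) : ℚ) := by
      push_cast
      rw [hq, hA, hN]
      ring
    rw [← Rat.num_div_den q, div_pow, ← mul_div_assoc, div_eq_iff (by positivity)] at h1
    have h2 : (d : ℤ) * q.num ^ 2 = (4 * N - A ^ 2) * (q.den : ℤ) ^ 2 := by exact_mod_cast h1
    have h3 : (q.den : ℤ) ^ 2 ∣ (d : ℤ) :=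
      (IsCoprime.pow (Int.isCoprime_iff_nat_coprime.mpr
        (by simpa using q.reduced.symm))).dvd_of_dvd_mul_right ⟨4 * N - A ^ 2, by rw [h2]; ring⟩
    have h4 : q.den * q.den ∣ d :=
      Int.natCast_dvd_natCast.mp (by rw [Nat.cast_mul, ← pow_two]; exact h3)
    exact Nat.isUnit_iff.mp (D.squarefree _ h4)
  -- as `d ≡ 2 mod 4`, both `2 a` and `2 b` are even
  have hkey : 4 * N = A ^ 2 + d * B ^ 2 := by
    have : ((4 * N : ℤ) : ℚ) = ((A ^ 2 + d * B ^ 2 : ℤ) : ℚ) := by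
      push_cast; rw [hA, hB, hN]; ring
    exact_mod_cast this
  obtain ⟨e, he⟩ : ∃ e : ℤ, (d : ℤ) = 4 * e + 2 :=
    ⟨(d / 4 : ℕ), by have := D.mod_four; omega⟩
  obtain ⟨a', ha'⟩ : Even A := by
    have h : Even (A ^ 2) := ⟨2 * N - (2 * e + 1) * B ^ 2,
      by rw [he] at hkey; linear_combination -hkey⟩
    exact (Int.even_pow.mp h).1
  obtain ⟨b', hb'⟩ : Even B := by
    have h : Even (B ^ 2) := ⟨N - a' ^ 2 - e * B ^ 2, by
      rw [he, ha'] at hkey
      linarith⟩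
    exact (Int.even_pow.mp h).1
  refine ⟨a', b', ?_⟩
  have e1 : (a' : ℚ) = a := by
    rw [ha'] at hA; push_cast at hA; linarith
  have e2 : (b' : ℚ) = b := by
    rw [hb'] at hB; push_cast at hB; linarith
  rw [hab, ← e1, ← e2, Rat.cast_intCast, Rat.cast_intCast]

/-- The root as an integer. -/
def Θ : 𝓞 K := ⟨D.θ, IsIntegral.of_pow (n := 2) two_pos (by
  rw [D.θ_sq, ← map_natCast (algebraMap ℤ K), ← map_neg]; exact isIntegral_algebraMap)⟩

/-- The chosen root `Θ` squares to `-d`. -/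
theorem Θ_sq : D.Θ ^ 2 = -(d : 𝓞 K) := RingOfIntegers.ext (by
  show algebraMap (𝓞 K) K (D.Θ ^ 2) = algebraMap (𝓞 K) K (-(d : 𝓞 K))
  rw [map_pow (algebraMap (𝓞 K) K), map_neg, map_natCast]; exact D.θ_sq)

/-- Every integer of the field is `a + b Θ` with integral coordinates. -/
theorem exists_coords (x : 𝓞 K) : ∃ a b : ℤ, x = (a : 𝓞 K) + (b : 𝓞 K) * D.Θ := by
  obtain ⟨a, b, h⟩ := D.exists_int_coords x
  refine ⟨a, b, RingOfIntegers.ext ?_⟩
  show algebraMap (𝓞 K) K x = algebraMap (𝓞 K) K ((a : 𝓞 K) + (b : 𝓞 K) * D.Θ)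
  rw [map_add (algebraMap (𝓞 K) K), map_mul (algebraMap (𝓞 K) K), map_intCast, map_intCast]
  exact h

/-- The structure map from `ℤ[√-d]`. -/
def ofZsqrtd : Zsqrtd (-(d : ℤ)) →+* 𝓞 K :=
  Zsqrtd.lift ⟨D.Θ, (pow_two D.Θ).symm.trans (D.Θ_sq.trans (by simp))⟩

theorem ofZsqrtd_bijective : Function.Bijective D.ofZsqrtd := by
  refine ⟨Zsqrtd.lift_injective _ fun n => ?_, fun x => ?_⟩
  · have := D.pos
    nlinarith [mul_self_nonneg n]
  · obtain ⟨a, b, h⟩ := D.exists_coords x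
    exact ⟨⟨a, b⟩, h.symm⟩

/-- The integers are `ℤ[√-d]`. -/
def ringEquiv : 𝓞 K ≃+* Zsqrtd (-(d : ℤ)) :=
  (RingEquiv.ofBijective D.ofZsqrtd D.ofZsqrtd_bijective).symm

/-- The residue map at a prime dividing `d`. -/
def resMap (v : ℕ) (hv : v ∣ d) : 𝓞 K →+* ZMod v :=
  (Zsqrtd.lift ⟨(0 : ZMod v), by
    rw [mul_zero, Int.cast_neg, Int.cast_natCast, (CharP.cast_eq_zero_iff (ZMod v) v d).mpr hv,
      neg_zero]⟩).comp D.ringEquiv.toRingHom

theorem resMap_coords (v : ℕ) (hv : v ∣ d) (a b : ℤ) :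
    D.resMap v hv ((a : 𝓞 K) + (b : 𝓞 K) * D.Θ) = (a : ZMod v) := by
  have h : D.ringEquiv ((a : 𝓞 K) + (b : 𝓞 K) * D.Θ) = ⟨a, b⟩ :=
    (RingEquiv.ofBijective D.ofZsqrtd D.ofZsqrtd_bijective).symm_apply_eq.mpr rfl
  show Zsqrtd.lift _ (D.ringEquiv _) = _
  rw [h]
  show ((a : ℤ) : ZMod v) + (b : ZMod v) * 0 = _
  rw [mul_zero, add_zero]

end QuadData

end Fermat.Agent.LT.ClassBound
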