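import Fermat.Agent.LT.ClassBound.Field
import Fermat.Agent.LT.ClassBound.Quad

/-!
# The field `ℚ(√-d)` and its unramified quadratic characters

For squarefree `d`, the characters `setChar` of products of `v*` over sets of odd prime divisors of
`d` are unramified (`unram_setChar`) and, if also `d ≡ 2 mod 4`, distinct (`setChar_injective`).
-/

set_option autoImplicit false

noncomputable section

namespace Fermat.Agent.LT.ClassBound

open NumberField Fermat.Agent.Arith Fermat.Agent.Arith.Density Fermat.Agent.Arith.Chebotarev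
open scoped IntermediateField

/-! ## The field `ℚ(√-d)` -/

/-- A square root of an integer. -/
def sqrtInt (c : ℤ) : QBar := (IsAlgClosed.exists_pow_nat_eq (c : QBar) two_pos).choose

/-- The chosen square root of `c` squares to `c`. -/
theorem sqrtInt_sq (c : ℤ) : sqrtInt c ^ 2 = (c : QBar) :=
  (IsAlgClosed.exists_pow_nat_eq (c : QBar) two_pos).choose_spec

/-- The chosen square root of a nonzero integer is nonzero. -/
theorem sqrtInt_ne_zero {c : ℤ} (hc : c ≠ 0) : sqrtInt c ≠ 0 := fun h => by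
  have := sqrtInt_sq c
  rw [h, zero_pow two_ne_zero] at this
  exact hc (Int.cast_eq_zero.mp this.symm)

/-- A Galois element sends the square root of an integer to itself or its negative. -/
theorem apply_sqrtInt (g : GQ) (c : ℤ) : g (sqrtInt c) = sqrtInt c ∨ g (sqrtInt c) = -sqrtInt c :=
  sq_eq_sq_iff_eq_or_eq_neg.mp (by rw [← map_pow, sqrtInt_sq, map_intCast])

/-- The field `ℚ(√-d)`. -/
def Kd (d : ℕ) : IntermediateField ℚ QBar := ℚ⟮sqrtInt (-(d : ℤ))⟯

theorem isIntegral_sqrtInt (c : ℤ) : IsIntegral ℤ (sqrtInt c) := by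
  refine IsIntegral.of_pow two_pos ?_
  rw [sqrtInt_sq, show (c : QBar) = algebraMap ℤ QBar c from rfl]
  exact isIntegral_algebraMap

/-- `ℚ(√-d)` is finite over `ℚ`. -/
instance finiteDimensional_Kd (d : ℕ) : FiniteDimensional ℚ (Kd d) :=
  IntermediateField.adjoin.finiteDimensional (isIntegral_sqrtInt _).tower_top

/-- `ℚ(√-d)` is normal over `ℚ`. -/
instance normal_Kd (d : ℕ) : Normal ℚ (Kd d) := by
  refine (IntermediateField.normal_iff_forall_map_le').mpr fun g => ?_
  rw [Kd, IntermediateField.adjoin_map, Set.image_singleton]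
  refine IntermediateField.adjoin_simple_le_iff.mpr ?_
  rcases apply_sqrtInt g (-(d : ℤ)) with h | h <;> rw [show (g : QBar →ₐ[ℚ] QBar) _ =
    g _ from rfl, h]
  · exact IntermediateField.mem_adjoin_simple_self ℚ _
  · exact neg_mem (IntermediateField.mem_adjoin_simple_self ℚ _)

/-- The generator. -/
def genKd (d : ℕ) : Kd d := ⟨sqrtInt (-(d : ℤ)), IntermediateField.mem_adjoin_simple_self ℚ _⟩

theorem genKd_sq (d : ℕ) : genKd d ^ 2 = -(d : Kd d) := Subtype.ext (by
  show sqrtInt (-(d : ℤ)) ^ 2 = _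
  rw [sqrtInt_sq]
  push_cast
  rfl)

theorem sqrtInt_not_rat {d : ℕ} (hd : 0 < d) (q : ℚ) : sqrtInt (-(d : ℤ)) ≠ (q : QBar) :=
  fun h => by
  have h2 := sqrtInt_sq (-(d : ℤ))
  rw [h, ← Rat.cast_pow, ← Rat.cast_intCast, Rat.cast_inj] at h2
  have : (0 : ℚ) < d := Nat.cast_pos.mpr hd
  push_cast at h2
  nlinarith [sq_nonneg q]

theorem finrank_Kd {d : ℕ} (hd : 0 < d) : Module.finrank ℚ (Kd d) = 2 := by
  have hint : IsIntegral ℚ (sqrtInt (-(d : ℤ))) := (isIntegral_sqrtInt _).tower_top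
  have hle : Module.finrank ℚ (Kd d) ≤ 2 := by
    rw [Kd, IntermediateField.adjoin.finrank hint]
    refine le_trans (Polynomial.natDegree_le_of_dvd (minpoly.dvd ℚ _
      (p := Polynomial.X ^ 2 - Polynomial.C (-(d : ℚ))) ?_)
      (Polynomial.X_pow_sub_C_ne_zero two_pos _)) (Polynomial.natDegree_X_pow_sub_C).le
    rw [map_sub, map_pow, Polynomial.aeval_X, Polynomial.aeval_C, sqrtInt_sq, sub_eq_zero, map_neg,
      map_natCast]
    push_cast
    rfl
  have hne : Module.finrank ℚ (Kd d) ≠ 1 := fun h1 => by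
    obtain ⟨q, hq⟩ := IntermediateField.mem_bot.mp
      (IntermediateField.finrank_eq_one_iff.mp h1 ▸ (genKd d).2 :
        sqrtInt (-(d : ℤ)) ∈ (⊥ : IntermediateField ℚ QBar))
    exact sqrtInt_not_rat hd q (hq.symm.trans (eq_ratCast _ q))
  have : 0 < Module.finrank ℚ (Kd d) := Module.finrank_pos
  omega

/-- The elements of `ℚ(√-d)` are the `a + b √-d`. -/
private theorem exists_rat_coords_of_mem {d : ℕ} (hd : 0 < d) {x : QBar} (hx : x ∈ Kd d) :
    ∃ a b : ℚ, x = (a : QBar) + (b : QBar) * sqrtInt (-(d : ℤ)) := by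
  have hsq : sqrtInt (-(d : ℤ)) ^ 2 = -(d : QBar) := by rw [sqrtInt_sq]; push_cast; rfl
  induction hx using IntermediateField.adjoin_induction with
  | mem y hy => exact ⟨0, 1, by rw [Set.mem_singleton_iff.mp hy]; simp⟩
  | algebraMap q => exact ⟨q, 0, by simp [eq_ratCast]⟩
  | add y z _ _ hy hz =>
    obtain ⟨a, b, rfl⟩ := hy
    obtain ⟨a', b', rfl⟩ := hz
    exact ⟨a + a', b + b', by push_cast; ring⟩
  | inv y _ hy =>
    obtain ⟨a, b, rfl⟩ := hy
    refine ⟨a / (a ^ 2 + d * b ^ 2), -b / (a ^ 2 + d * b ^ 2), ?_⟩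
    by_cases h0 : a ^ 2 + d * b ^ 2 = 0
    · have hb : b = 0 := by
        have : (0 : ℚ) < d := Nat.cast_pos.mpr hd
        by_contra hb
        have : (0 : ℚ) < b ^ 2 := by positivity
        nlinarith [sq_nonneg a]
      have ha : a = 0 := by
        rw [hb] at h0
        simpa using h0
      simp [ha, hb]
    · have h0' : ((a ^ 2 + d * b ^ 2 : ℚ) : QBar) ≠ 0 := by exact_mod_cast h0
      refine inv_eq_of_mul_eq_one_right ?_
      rw [Rat.cast_div, Rat.cast_div, Rat.cast_neg, div_mul_eq_mul_div, ← add_div,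
        ← mul_div_assoc, div_eq_one_iff_eq h0']
      push_cast
      linear_combination -(b : QBar) ^ 2 * hsq
  | mul y z _ _ hy hz =>
    obtain ⟨a, b, rfl⟩ := hy
    obtain ⟨a', b', rfl⟩ := hz
    refine ⟨a * a' - d * b * b', a * b' + a' * b, ?_⟩
    push_cast
    linear_combination (b : QBar) * b' * hsq

theorem exists_conj {d : ℕ} (hd : 0 < d) : ∃ c : Kd d ≃ₐ[ℚ] Kd d, c (genKd d) = -genKd d := by
  have : IsGalois ℚ (Kd d) := ⟨⟩
  have hcard : Nat.card (Kd d ≃ₐ[ℚ] Kd d) = 2 :=
    (IsGalois.card_aut_eq_finrank ℚ (Kd d)).trans (finrank_Kd hd)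
  have : Nontrivial (Kd d ≃ₐ[ℚ] Kd d) := Finite.one_lt_card_iff_nontrivial.mp (by omega)
  obtain ⟨c, hc⟩ := exists_ne (1 : Kd d ≃ₐ[ℚ] Kd d)
  refine ⟨c, (sq_eq_sq_iff_eq_or_eq_neg.mp ?_).resolve_left fun h => hc ?_⟩
  · rw [← map_pow, genKd_sq, map_neg, map_natCast]
  -- an automorphism fixing `√-d` is the identity
  obtain ⟨g, rfl⟩ := AlgEquiv.restrictNormalHom_surjective (K₁ := Kd d) QBar c
  refine (restrictNormalHom_eq_one_iff (Kd d)).mpr fun x hx => ?_
  have hg : g (sqrtInt (-(d : ℤ))) = sqrtInt (-(d : ℤ)) :=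
    (AlgEquiv.restrictNormal_commutes g (Kd d) (genKd d)).symm.trans
      (congrArg Subtype.val h)
  obtain ⟨a, b, hab⟩ := exists_rat_coords_of_mem hd hx
  rw [hab, map_add, map_mul, map_ratCast, map_ratCast, hg]

/-- The quadratic data. -/
def quadData {d : ℕ} (hsq : Squarefree d) (h4 : d % 4 = 2) : QuadData d (Kd d) where
  θ := genKd d
  θ_sq := genKd_sq d
  deg := finrank_Kd (by omega)
  c := (exists_conj (show 0 < d by omega)).choose
  c_θ := (exists_conj (show 0 < d by omega)).choose_spec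
  squarefree := hsq
  mod_four := h4

theorem isTotallyComplex_Kd {d : ℕ} (hd : 0 < d) : IsTotallyComplex (Kd d) := by
  refine ⟨fun w => ?_⟩
  rw [← InfinitePlace.not_isReal_iff_isComplex]
  intro hw
  obtain ⟨φ, hφ, -⟩ := hw
  have h := congrArg hφ.embedding (genKd_sq d)
  rw [map_pow, map_neg, map_natCast] at h
  have : (0 : ℝ) < d := Nat.cast_pos.mpr hd
  nlinarith [sq_nonneg (hφ.embedding (genKd d))]

theorem rank_Kd {d : ℕ} (hd : 0 < d) : NumberField.Units.rank (Kd d) = 0 := by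
  have := isTotallyComplex_Kd hd
  have h := InfinitePlace.card_add_two_mul_card_eq_rank (Kd d)
  rw [finrank_Kd hd, IsTotallyComplex.nrRealPlaces_eq_zero] at h
  rw [NumberField.Units.rank, InfinitePlace.card_eq_nrRealPlaces_add_nrComplexPlaces,
    IsTotallyComplex.nrRealPlaces_eq_zero]
  omega

/-! ## The characters of the `v*` -/

/-- `v* = ±v ≡ 1 mod 4`. -/
def pstar (v : ℕ) : ℤ := if v % 4 = 1 then (v : ℤ) else -(v : ℤ)

theorem pstar_natAbs (v : ℕ) : (pstar v).natAbs = v := by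
  rw [pstar]; split_ifs <;> simp

theorem pstar_emod {v : ℕ} (hv : v % 2 = 1) : pstar v % 4 = 1 := by
  rw [pstar]; split_ifs <;> omega

variable (d : ℕ)

/-- The sign of the action on a square root of `v*`. -/
def quadChar (v : ℕ) : (Kd d).fixingSubgroup →* ℤˣ where
  toFun σ := if (σ : GQ) (sqrtInt (pstar v)) = sqrtInt (pstar v) then 1 else -1
  map_one' := if_pos rfl
  map_mul' σ τ := by
    by_cases h0 : sqrtInt (pstar v) = 0
    · simp [h0]
    have hne : -sqrtInt (pstar v) ≠ sqrtInt (pstar v) := fun h => h0 (neg_eq_self.mp h)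
    rcases apply_sqrtInt (σ : GQ) (pstar v) with h1 | h1 <;>
      rcases apply_sqrtInt (τ : GQ) (pstar v) with h2 | h2 <;>
      simp [h1, h2, hne, map_neg]

/-- The product of the signs over a set of primes. -/
def setChar (S : Finset ℕ) : (Kd d).fixingSubgroup →* ℤˣ := ∏ v ∈ S, quadChar d v

variable {d}

theorem quadChar_eq_one_iff {v : ℕ} (σ : (Kd d).fixingSubgroup) :
    quadChar d v σ = 1 ↔ (σ : GQ) (sqrtInt (pstar v)) = sqrtInt (pstar v) := by
  show (if _ then (1 : ℤˣ) else -1) = 1 ↔ _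
  split_ifs with h
  · exact iff_of_true rfl h
  · exact iff_of_false (by decide) h

theorem setChar_apply (S : Finset ℕ) (σ : (Kd d).fixingSubgroup) :
    setChar d S σ = ∏ v ∈ S, quadChar d v σ := by
  rw [setChar, MonoidHom.finsetProd_apply]

theorem level_quadChar (v : ℕ) : Level (Kd d) (quadChar d v) :=
  ⟨ℚ⟮sqrtInt (pstar v)⟯, IntermediateField.adjoin.finiteDimensional
    (isIntegral_sqrtInt _).tower_top,
    fun σ hσ => (quadChar_eq_one_iff σ).mpr (hσ _ (IntermediateField.mem_adjoin_simple_self ℚ _))⟩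

section Inertia

variable {B : ValuationSubring QBar} {q : ℕ} {σ : GQ}

theorem sq_mem_nonunits {x : QBar} (hx : x ∈ B.nonunits) (hxB : x ∈ B) : x ^ 2 ∈ B.nonunits := by
  rw [pow_two]
  exact nonunits_mul_left hxB hx

theorem fix_of_sq {c : ℤ} (hB : B.LiesOverPrime q) (hq : q.Prime)
    (hσ : σ ∈ B.inertiaSubgroupIn ℚ) {x : QBar} (hx : x ^ 2 = (c : QBar)) (hc : ¬ (q : ℤ) ∣ 2 * c) :
    σ x = x := by
  have hint : IsIntegral ℤ x := IsIntegral.of_pow two_pos (by
    rw [hx, show (c : QBar) = algebraMap ℤ QBar c from rfl]; exact isIntegral_algebraMap)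
  refine (sq_eq_sq_iff_eq_or_eq_neg.mp (by rw [← map_pow, hx, map_intCast])).resolve_right fun h =>
    ?_
  -- otherwise `(σ x - x)² = 4 c` would be a nonunit
  have h1 := (mem_inertia_iff hB hq).mp hσ x hint
  rw [h] at h1
  have h2 := sq_mem_nonunits h1 (sub_mem (neg_mem (mem_of_isIntegral B hint))
    (mem_of_isIntegral B hint))
  have h3 : ((-x - x) ^ 2 : QBar) = ((2 * 2 * c : ℤ) : QBar) := by
    push_cast
    rw [← hx]
    ring
  rw [h3, intCast_mem_nonunits_iff hB hq] at h2
  rcases (Nat.prime_iff_prime_int.mp hq).dvd_or_dvd h2 with h4 | h4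
  · rcases (Nat.prime_iff_prime_int.mp hq).dvd_or_dvd h4 with h5 | h5 <;>
      exact hc (h5.mul_right c)
  · exact hc (h4.mul_left 2)

theorem fix_of_sq_mod_four {c : ℤ} (hB : B.LiesOverPrime 2) (hσ : σ ∈ B.inertiaSubgroupIn ℚ)
    {x : QBar} (hx : x ^ 2 = (c : QBar)) (hc : c % 4 = 1) : σ x = x := by
  obtain ⟨e, he⟩ : ∃ e : ℤ, c = 4 * e + 1 := ⟨c / 4, by omega⟩
  have hint : IsIntegral ℤ ((1 + x) / 2) := by
    refine ⟨Polynomial.X ^ 2 - Polynomial.X - Polynomial.C e, ?_, ?_⟩
    · rw [sub_sub]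
      exact Polynomial.monic_X_pow_sub (lt_of_le_of_lt (Polynomial.degree_add_le _ _) (max_lt
        (by rw [Polynomial.degree_X]; decide) (lt_of_le_of_lt Polynomial.degree_C_le (by decide))))
    · simp only [Polynomial.eval₂_sub, Polynomial.eval₂_pow, Polynomial.eval₂_X, Polynomial.eval₂_C]
      have hx' : x ^ 2 = 4 * (e : QBar) + 1 := by rw [hx, he]; push_cast; rfl
      rw [eq_intCast]
      linear_combination hx' / 4
  refine (sq_eq_sq_iff_eq_or_eq_neg.mp (by rw [← map_pow, hx, map_intCast])).resolve_right fun h =>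
    ?_
  -- otherwise `σ` moves the integer `(1 + x) / 2` by `x`, and `x² = c` is odd
  have h1 := (mem_inertia_iff hB Nat.prime_two).mp hσ _ hint
  rw [map_div₀, map_add, map_one, h, map_ofNat, show (1 + -x) / 2 - (1 + x) / 2 = -x by ring] at h1
  have h2 := sq_mem_nonunits h1 (neg_mem (mem_of_isIntegral B (IsIntegral.of_pow two_pos (by
    rw [hx, show (c : QBar) = algebraMap ℤ QBar c from rfl]; exact isIntegral_algebraMap))))
  rw [neg_sq, hx, intCast_mem_nonunits_iff hB Nat.prime_two] at h2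
  omega

end Inertia

/-! ## Unramifiedness and injectivity -/

theorem unram_quadChar (hsq : Squarefree d) {v : ℕ} (hv : v ∈ d.primeFactors.erase 2) :
    Unram (Kd d) (quadChar d v) := by
  obtain ⟨hv2, hv'⟩ := Finset.mem_erase.mp hv
  obtain ⟨hvp, hvd, hd0⟩ := Nat.mem_primeFactors.mp hv'
  have hodd : v % 2 = 1 := Nat.odd_iff.mp (hvp.odd_of_ne_two hv2)
  intro q hq B hB σ hσ
  rw [quadChar_eq_one_iff]
  by_cases hq2 : q = 2
  · subst hq2
    exact fix_of_sq_mod_four hB hσ (sqrtInt_sq _) (pstar_emod hodd)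
  by_cases hqv : q = v
  · -- at `v`, compare with the root of `-d / v*`, an integer prime to `v`
    subst hqv
    obtain ⟨e, he⟩ := hvd
    have hne : sqrtInt (pstar q) ≠ 0 := sqrtInt_ne_zero (by
      intro h0
      have := pstar_natAbs q
      rw [h0] at this
      exact hvp.ne_zero this.symm)
    set c : ℤ := if q % 4 = 1 then -(e : ℤ) else (e : ℤ) with hc
    have hcp : c * pstar q = -(d : ℤ) := by
      rw [hc, pstar, he]; split_ifs <;> push_cast <;> ring
    have hx : (sqrtInt (-(d : ℤ)) / sqrtInt (pstar q)) ^ 2 = (c : QBar) := by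
      rw [div_pow, sqrtInt_sq, sqrtInt_sq, ← hcp, Int.cast_mul, mul_div_assoc, div_self, mul_one]
      rw [← sqrtInt_sq]
      exact pow_ne_zero _ hne
    have hndvd : ¬ (q : ℤ) ∣ 2 * c := fun h => by
      have h1 : q ∣ 2 * e := by
        have := Int.natAbs_dvd_natAbs.mpr h
        rw [Int.natAbs_mul, Int.natAbs_natCast] at this
        rwa [show c.natAbs = e by rw [hc]; split_ifs <;> simp] at this
      rcases hvp.dvd_mul.mp h1 with h2 | h2
      · exact hv2 ((Nat.prime_dvd_prime_iff_eq hvp Nat.prime_two).mp h2)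
      · obtain ⟨e', rfl⟩ := h2
        exact hvp.ne_one (Nat.isUnit_iff.mp (hsq q ⟨e', by rw [he]; ring⟩))
    have h1 := fix_of_sq hB hq hσ hx hndvd
    have hθ : (σ : GQ) (sqrtInt (-(d : ℤ))) = sqrtInt (-(d : ℤ)) :=
      (IntermediateField.mem_fixingSubgroup_iff _ _).mp σ.2 _ (genKd d).2
    rw [map_div₀, hθ] at h1
    have hθ0 : sqrtInt (-(d : ℤ)) ≠ 0 := sqrtInt_ne_zero (by simpa using hd0)
    rw [div_eq_mul_inv, div_eq_mul_inv, mul_right_inj' hθ0, inv_inj] at h1
    exact h1
  · refine fix_of_sq hB hq hσ (sqrtInt_sq _) fun h => ?_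
    have h1 := Int.natAbs_dvd_natAbs.mpr h
    rw [Int.natAbs_mul, Int.natAbs_natCast, pstar_natAbs] at h1
    rcases hq.dvd_mul.mp h1 with h2 | h2
    · exact hq2 ((Nat.prime_dvd_prime_iff_eq hq Nat.prime_two).mp h2)
    · exact hqv ((Nat.prime_dvd_prime_iff_eq hq hvp).mp h2)

theorem unram_setChar (hsq : Squarefree d) {S : Finset ℕ} (hS : S ⊆ d.primeFactors.erase 2) :
    Unram (Kd d) (setChar d S) := fun q hq B hB σ hσ => by
  rw [setChar_apply]
  exact Finset.prod_eq_one fun v hv => unram_quadChar hsq (hS hv) q hq B hB σ hσ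

theorem level_setChar (S : Finset ℕ) : Level (Kd d) (setChar d S) := by
  classical
  induction S using Finset.induction_on with
  | empty => exact ⟨⊥, inferInstance, fun σ _ => by rw [setChar_apply, Finset.prod_empty]⟩
  | insert v S hv ih =>
    obtain ⟨L, hL, h1⟩ := level_quadChar (d := d) v
    obtain ⟨L', hL', h2⟩ := ih
    refine ⟨L ⊔ L', inferInstance, fun σ hσ => ?_⟩
    have h3 := h2 σ fun x hx => hσ x (le_sup_right (a := L) hx)
    rw [setChar_apply] at h3
    rw [setChar_apply, Finset.prod_insert hv, h1 σ fun x hx => hσ x (le_sup_left (b := L') hx), h3,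
      one_mul]

/-- A rational whose square is `± N` is an integer, up to sign. -/
private theorem exists_sq_eq_of_rat_sq {k : ℚ} {N : ℕ} (h : k ^ 2 = (N : ℚ) ∨ k ^ 2 = -(N : ℚ)) :
    ∃ k' : ℕ, k' ^ 2 = N := by
  have h' : k ^ 2 = (N : ℚ) := h.elim id fun h => by
    have h1 := sq_nonneg k
    have h2 : (0 : ℚ) ≤ N := Nat.cast_nonneg N
    linarith
  have hsqN : IsSquare (N : ℚ) := ⟨k, by rw [← h', pow_two]⟩
  obtain ⟨k', hk'⟩ := Rat.isSquare_natCast_iff.mp hsqN
  exact ⟨k', by rw [hk', pow_two]⟩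

/-- The product of the roots of the `v*` of a set of odd prime divisors is not in `ℚ(√-d)`. -/
private theorem prod_sqrtInt_notMem (hsq : Squarefree d) (h4 : d % 4 = 2) {S : Finset ℕ}
    (hS : S ⊆ d.primeFactors.erase 2) (hne : S.Nonempty) :
    ∏ v ∈ S, sqrtInt (pstar v) ∉ Kd d := by
  intro hmem
  set r : QBar := ∏ v ∈ S, sqrtInt (pstar v) with hr
  have hd : 0 < d := by omega
  obtain ⟨a, b, hab'⟩ := exists_rat_coords_of_mem hd hmem
  -- `r² = m = ± n` with `n` an odd divisor of `d`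
  set m : ℤ := ∏ v ∈ S, pstar v with hm
  have hr2 : r ^ 2 = (m : QBar) := by
    rw [hr, ← Finset.prod_pow, hm, Int.cast_prod]
    exact Finset.prod_congr rfl fun v _ => sqrtInt_sq _
  set n : ℕ := ∏ v ∈ S, v with hn
  have hmn : m.natAbs = n := by
    rw [hm, hn, ← Int.natAbsHom_apply, map_prod]
    exact Finset.prod_congr rfl fun v _ => pstar_natAbs v
  have hnd : n ∣ d := (Nat.prod_primeFactors_of_squarefree hsq) ▸
    Finset.prod_dvd_prod_of_subset _ _ _ (hS.trans (Finset.erase_subset _ _))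
  have hodd : n % 2 = 1 := by
    refine Nat.odd_iff.mp (Finset.prod_induction _ _ (fun x y hx hy =>
      hx.mul hy) odd_one fun v hv => ?_)
    obtain ⟨hv2, hv'⟩ := Finset.mem_erase.mp (hS hv)
    exact (Nat.prime_of_mem_primeFactors hv').odd_of_ne_two hv2
  have hθ2 : sqrtInt (-(d : ℤ)) ^ 2 = -(d : QBar) := by rw [sqrtInt_sq]; push_cast; rfl
  -- as `√-d` is irrational, `r` is rational or a rational multiple of `√-d`
  have hab0 : 2 * a * b = 0 := by
    by_contra hne0
    refine sqrtInt_not_rat hd ((m - a ^ 2 + d * b ^ 2) / (2 * a * b)) ?_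
    push_cast
    rw [eq_div_iff (show (2 : QBar) * a * b ≠ 0 by
      have h0 := (Rat.cast_ne_zero (α := QBar)).mpr hne0
      push_cast at h0
      exact h0)]
    rw [hab'] at hr2
    linear_combination hr2 - (b : QBar) ^ 2 * hθ2
  have hmQ : (m : ℚ) = n ∨ (m : ℚ) = -(n : ℚ) := by
    rcases Int.natAbs_eq m with h | h <;> rw [hmn] at h <;> rw [h] <;>
      [left; right] <;> push_cast <;> rfl
  rcases mul_eq_zero.mp hab0 with h | hb
  · -- purely imaginary: then `d n` is a square, but it is twice an odd number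
    have ha : a = 0 := by simpa using h
    subst ha
    have h5 : ((d * (b * d * b) : ℚ) : QBar) = ((-(d : ℚ) * m : ℚ) : QBar) := by
      rw [hab'] at hr2
      push_cast at hr2 ⊢
      linear_combination -(d : QBar) * hr2 + (d : QBar) * (b : QBar) ^ 2 * hθ2
    rw [Rat.cast_inj] at h5
    obtain ⟨k, hk⟩ := exists_sq_eq_of_rat_sq (k := d * b) (N := d * n) (by
      rcases hmQ with h | h <;> rw [h] at h5 <;> [right; left] <;> push_cast <;> linarith)
    obtain ⟨k', rfl⟩ : 2 ∣ k := by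
      refine Nat.prime_two.dvd_of_dvd_pow (n := 2) ?_
      rw [hk]
      exact Dvd.dvd.mul_right (Nat.dvd_of_mod_eq_zero (by omega)) n
    obtain ⟨e, he⟩ : ∃ e, d = 4 * e + 2 := ⟨d / 4, by omega⟩
    obtain ⟨f, hf⟩ : ∃ f, n = 2 * f + 1 := ⟨n / 2, by omega⟩
    have h6 : 4 * k' ^ 2 = 4 * (e * n + f) + 2 := by
      rw [show 4 * k' ^ 2 = (2 * k') ^ 2 by ring, hk, he, hf]; ring
    omega
  · -- rational: then `n` is a square, but it is squarefree and not `1`
    subst hb
    have h5 : ((a ^ 2 : ℚ) : QBar) = ((m : ℚ) : QBar) := by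
      rw [hab'] at hr2
      push_cast at hr2 ⊢
      linear_combination hr2
    rw [Rat.cast_inj] at h5
    obtain ⟨k, hk⟩ := exists_sq_eq_of_rat_sq (k := a) (N := n) (by
      rcases hmQ with h | h <;> rw [h] at h5 <;> [left; right] <;> exact h5)
    obtain ⟨v, hv⟩ := hne
    have hvp := Nat.prime_of_mem_primeFactors (Finset.mem_of_mem_erase (hS hv))
    have hvk : v ∣ k := hvp.dvd_of_dvd_pow (n := 2) (by rw [hk]; exact Finset.dvd_prod_of_mem _ hv)
    exact hvp.ne_one (Nat.isUnit_iff.mp (hsq v (by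
      rw [← pow_two]
      exact ((pow_dvd_pow_of_dvd hvk 2).trans hk.dvd).trans hnd)))

theorem setChar_ne_one (hsq : Squarefree d) (h4 : d % 4 = 2) {S : Finset ℕ}
    (hS : S ⊆ d.primeFactors.erase 2) (hne : S.Nonempty) : setChar d S ≠ 1 := by
  intro h1
  -- otherwise the product of the roots would be fixed by all `σ` fixing `ℚ(√-d)`
  refine prod_sqrtInt_notMem hsq h4 hS hne ?_
  rw [← InfiniteGalois.fixedField_fixingSubgroup (Kd d)]
  intro σ
  have h2 : setChar d S σ = 1 := by rw [h1]; rfl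
  rw [setChar_apply] at h2
  have h3 : ∀ v ∈ S, (σ : GQ) (sqrtInt (pstar v)) =
      ((quadChar d v σ : ℤ) : QBar) * sqrtInt (pstar v) := by
    intro v _
    by_cases h : quadChar d v σ = 1
    · rw [(quadChar_eq_one_iff σ).mp h, h]
      simp
    · have h' := (Int.units_eq_one_or (quadChar d v σ)).resolve_left h
      rw [(apply_sqrtInt _ _).resolve_left fun e => h ((quadChar_eq_one_iff σ).mpr e), h']
      simp
  show (σ : GQ) _ = _
  rw [map_prod, Finset.prod_congr rfl h3, Finset.prod_mul_distrib, ← Int.cast_prod,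
    ← Units.coe_prod, h2]
  simp

theorem setChar_injective (hsq : Squarefree d) (h4 : d % 4 = 2) {S T : Finset ℕ}
    (hS : S ⊆ d.primeFactors.erase 2) (hT : T ⊆ d.primeFactors.erase 2)
    (h : setChar d S = setChar d T) : S = T := by
  classical
  by_contra hne
  refine setChar_ne_one hsq h4 (S := symmDiff S T) (Finset.union_subset ?_ ?_) ?_ ?_
  · exact Finset.sdiff_subset.trans hS
  · exact Finset.sdiff_subset.trans hT
  · rw [Finset.nonempty_iff_ne_empty, ne_eq, ← Finset.bot_eq_empty, symmDiff_eq_bot]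
    exact hne
  ext σ
  have h1 : setChar d S σ = setChar d T σ := by rw [h]
  rw [setChar_apply, setChar_apply, ← Finset.prod_inter_mul_prod_sdiff S T,
    ← Finset.prod_inter_mul_prod_sdiff T S, Finset.inter_comm T S, mul_right_inj] at h1
  rw [setChar_apply, symmDiff_def, Finset.sup_eq_union,
    Finset.prod_union disjoint_sdiff_sdiff, h1, Int.units_mul_self]
  rfl

end Fermat.Agent.LT.ClassBound
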