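import Fermat.Agent.LT.ClassBound.Quad
import Mathlib.LinearAlgebra.FreeModule.IdealQuotient
import Mathlib.RingTheory.Ideal.Int
import Mathlib.RingTheory.Ideal.Quotient.HasFiniteQuotients

/-!
# The primes of `ℚ(√-d)` under conjugation
-/

set_option autoImplicit false

noncomputable section

namespace Fermat.Agent.LT.ClassBound.QuadData

open NumberField Module Ideal

variable {d : ℕ} {K : Type*} [Field K] [NumberField K] (D : QuadData d K)

/-- Conjugation on the integers. -/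
def conjO : 𝓞 K ≃+* 𝓞 K := RingOfIntegers.mapRingEquiv D.c.toRingEquiv

theorem coe_conjO (x : 𝓞 K) : algebraMap (𝓞 K) K (D.conjO x) = D.c (algebraMap (𝓞 K) K x) := rfl

theorem conjO_Θ : D.conjO D.Θ = -D.Θ := RingOfIntegers.ext (by
  show algebraMap (𝓞 K) K (D.conjO D.Θ) = algebraMap (𝓞 K) K (-D.Θ)
  rw [map_neg, D.coe_conjO]
  exact D.c_θ)

theorem conjO_coords (a b : ℤ) :
    D.conjO ((a : 𝓞 K) + (b : 𝓞 K) * D.Θ) = (a : 𝓞 K) + ((-b : ℤ) : 𝓞 K) * D.Θ := by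
  rw [map_add, map_mul, map_intCast, map_intCast, D.conjO_Θ, Int.cast_neg, mul_neg, neg_mul]

theorem conjO_conjO (x : 𝓞 K) : D.conjO (D.conjO x) = x := by
  obtain ⟨a, b, rfl⟩ := D.exists_coords x
  rw [D.conjO_coords, D.conjO_coords, neg_neg]

theorem mul_conjO_coords (a b : ℤ) :
    ((a : 𝓞 K) + (b : 𝓞 K) * D.Θ) * D.conjO ((a : 𝓞 K) + (b : 𝓞 K) * D.Θ) =
      (((a ^ 2 + d * b ^ 2).natAbs : ℕ) : 𝓞 K) := by
  rw [D.conjO_coords, Int.cast_neg]
  have h : (((a ^ 2 + d * b ^ 2).natAbs : ℕ) : 𝓞 K) = ((a ^ 2 + d * b ^ 2 : ℤ) : 𝓞 K) := by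
    rw [← Int.cast_natCast, Int.natAbs_of_nonneg (by positivity)]
  rw [h]
  push_cast
  linear_combination -(b : 𝓞 K) ^ 2 * D.Θ_sq

/-- Conjugation of ideals. -/
abbrev conjQ (I : Ideal (𝓞 K)) : Ideal (𝓞 K) := I.map (D.conjO : 𝓞 K →+* 𝓞 K)

theorem mem_conjQ {I : Ideal (𝓞 K)} {x : 𝓞 K} : x ∈ D.conjQ I ↔ D.conjO x ∈ I := by
  show x ∈ Ideal.map (D.conjO : 𝓞 K →+* 𝓞 K) I ↔ _
  exact (Ideal.mem_map_iff_of_surjective (D.conjO : 𝓞 K →+* 𝓞 K) D.conjO.surjective).trans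
      ⟨fun ⟨y, hy, e⟩ => by rw [← e]; exact (D.conjO_conjO y).symm ▸ hy,
    fun h => ⟨_, h, D.conjO_conjO x⟩⟩

theorem conjQ_conjQ (I : Ideal (𝓞 K)) : D.conjQ (D.conjQ I) = I := by
  ext x; rw [D.mem_conjQ, D.mem_conjQ, D.conjO_conjO]

theorem conjQ_natCast (n : ℕ) : D.conjQ (span {(n : 𝓞 K)}) = span {(n : 𝓞 K)} := by
  show Ideal.map (D.conjO : 𝓞 K →+* 𝓞 K) _ = _
  rw [Ideal.map_span, Set.image_singleton, map_natCast]

include D in
theorem absNorm_span_natCast (n : ℕ) : absNorm (span {(n : 𝓞 K)}) = n ^ 2 := by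
  rw [absNorm_span_singleton, ← map_natCast (algebraMap ℤ (𝓞 K)), Algebra.norm_algebraMap,
    Int.natAbs_pow, Int.natAbs_natCast, RingOfIntegers.rank, D.deg]

theorem absNorm_conjQ (I : Ideal (𝓞 K)) : absNorm (D.conjQ I) = absNorm I := by
  rw [absNorm_apply, absNorm_apply, Submodule.cardQuot_apply, Submodule.cardQuot_apply]
  exact (Nat.card_congr (Ideal.quotientEquiv I (D.conjQ I) D.conjO rfl).toEquiv).symm

include D in
/-- A rational prime in a prime ideal, with the two possible norms. -/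
theorem exists_prime_norm {Q : Ideal (𝓞 K)} [Q.IsPrime] (hQ : Q ≠ ⊥) :
    ∃ ℓ : ℕ, ℓ.Prime ∧ (ℓ : 𝓞 K) ∈ Q ∧ (absNorm Q = ℓ ∨ absNorm Q = ℓ ^ 2) := by
  have : NeZero Q := ⟨hQ⟩
  set ℓ := absNorm (Q.under ℤ) with hℓdef
  have hℓ : ℓ.Prime := Nat.absNorm_under_prime Q
  have hmem : (ℓ : 𝓞 K) ∈ Q := by
    rw [← Int.cast_natCast, Int.cast_mem_ideal_iff]
  have hdvd : absNorm Q ∣ ℓ ^ 2 := by
    rw [← D.absNorm_span_natCast]
    exact map_dvd absNorm (dvd_iff_le.mpr ((span_singleton_le_iff_mem Q).mpr hmem))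
  obtain ⟨i, hi, he⟩ := (Nat.dvd_prime_pow hℓ).mp hdvd
  have hi0 : i ≠ 0 := fun h => by
    rw [h, pow_zero] at he
    exact (inferInstance : Q.IsPrime).ne_top (absNorm_eq_one_iff.mp he)
  obtain rfl | rfl : i = 1 ∨ i = 2 := by omega
  · exact ⟨ℓ, hℓ, hmem, Or.inl (he.trans (pow_one ℓ))⟩
  · exact ⟨ℓ, hℓ, hmem, Or.inr he⟩

theorem eq_of_le_of_norm {I J : Ideal (𝓞 K)} (hle : I ≤ J) (hI : absNorm I ≠ 0)
    (h : absNorm I = absNorm J) : I = J := by
  obtain ⟨M, hM⟩ := dvd_iff_le.mpr hle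
  have hJ : absNorm J * absNorm M = absNorm J * 1 := by rw [← map_mul, ← hM, h, mul_one]
  have hM1 := absNorm_eq_one_iff.mp (Nat.eq_of_mul_eq_mul_left (Nat.pos_of_ne_zero (h ▸ hI)) hJ)
  rw [hM, hM1, Ideal.mul_top]

/-- The ramified prime over a divisor of `d`. -/
def ram (v : ℕ) (hv : v ∣ d) : Ideal (𝓞 K) := RingHom.ker (D.resMap v hv)

theorem mem_ram (v : ℕ) (hv : v ∣ d) (a b : ℤ) :
    (a : 𝓞 K) + (b : 𝓞 K) * D.Θ ∈ D.ram v hv ↔ (v : ℤ) ∣ a := by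
  rw [ram, RingHom.mem_ker, D.resMap_coords, ZMod.intCast_zmod_eq_zero_iff_dvd]

theorem resMap_surjective (v : ℕ) (hv : v ∣ d) : Function.Surjective (D.resMap v hv) := fun z => by
  obtain ⟨a, rfl⟩ := ZMod.intCast_surjective z
  exact ⟨(a : 𝓞 K), map_intCast _ a⟩

theorem absNorm_ram (v : ℕ) (hv : v ∣ d) : absNorm (D.ram v hv) = v := by
  rw [absNorm_apply, Submodule.cardQuot_apply, ram,
    Nat.card_congr (RingHom.quotientKerEquivOfSurjective (D.resMap_surjective v hv)).toEquiv,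
    Nat.card_zmod]

theorem conjQ_ram (v : ℕ) (hv : v ∣ d) : D.conjQ (D.ram v hv) = D.ram v hv := by
  ext x
  obtain ⟨a, b, rfl⟩ := D.exists_coords x
  rw [D.mem_conjQ, D.conjO_coords, D.mem_ram, D.mem_ram]

theorem ram_isMaximal (v : ℕ) [Fact v.Prime] (hv : v ∣ d) : (D.ram v hv).IsMaximal :=
  RingHom.ker_isMaximal_of_surjective _ (D.resMap_surjective v hv)

theorem ram_ne_bot (v : ℕ) (hv : v ∣ d) : D.ram v hv ≠ ⊥ := fun h => by
  have h1 := D.absNorm_ram v hv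
  rw [h, absNorm_bot] at h1
  rw [← h1] at hv
  exact D.pos.ne' (Nat.eq_zero_of_zero_dvd hv)

theorem ram_sq (v : ℕ) (hv : v ∣ d) : D.ram v hv * D.ram v hv = span {(v : 𝓞 K)} := by
  have hvc : Nat.Coprime v (d / v) := by
    refine Nat.coprime_of_squarefree_mul ?_
    rw [Nat.mul_div_cancel' hv]
    exact D.squarefree
  have hv0 : v ≠ 0 := fun h => D.pos.ne' (Nat.eq_zero_of_zero_dvd (h ▸ hv))
  refine (eq_of_le_of_norm ?_ (by rw [D.absNorm_span_natCast]; positivity) ?_).symm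
  · rw [span_singleton_le_iff_mem]
    have hmv : (v : 𝓞 K) ∈ D.ram v hv := by
      rw [ram, RingHom.mem_ker, map_natCast, ZMod.natCast_self]
    have hmθ : D.Θ ∈ D.ram v hv := by
      have h := (D.mem_ram v hv 0 1).mpr (dvd_zero _)
      simpa using h
    obtain ⟨s, t, hst⟩ : ∃ s t : ℤ, (v : ℤ) = s * (v : ℤ) ^ 2 + t * (d : ℤ) := by
      obtain ⟨w, hw⟩ := hv
      rw [hw, Nat.mul_div_cancel_left _ (Nat.pos_of_ne_zero hv0)] at hvc
      obtain ⟨s, t, h⟩ := Int.isCoprime_iff_nat_coprime.mpr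
        (by simpa using hvc : Nat.Coprime (v : ℤ).natAbs (w : ℤ).natAbs)
      exact ⟨s, t, by rw [hw]; push_cast; linear_combination -(v : ℤ) * h⟩
    have e : (v : 𝓞 K) = (s : 𝓞 K) * ((v : 𝓞 K) * (v : 𝓞 K)) - (t : 𝓞 K) * (D.Θ * D.Θ) := by
      have h := congrArg (fun z : ℤ => (z : 𝓞 K)) hst
      push_cast at h
      linear_combination h + (t : 𝓞 K) * D.Θ_sq
    rw [e]
    exact Ideal.sub_mem _ (mul_mem_left _ _ (mul_mem_mul hmv hmv))
      (mul_mem_left _ _ (mul_mem_mul hmθ hmθ))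
  · rw [D.absNorm_span_natCast, map_mul, D.absNorm_ram, sq]

/-- A prime of degree one fixed by conjugation is ramified. -/
private theorem eq_ram_of_conjQ_eq {Q : Ideal (𝓞 K)} [Q.IsPrime] (hQ : Q ≠ ⊥) {ℓ : ℕ} (hℓ : ℓ.Prime)
    (hmem : (ℓ : 𝓞 K) ∈ Q) (hn : absNorm Q = ℓ) (hc : D.conjQ Q = Q) :
    ∃ hv : ℓ ∣ d, Q = D.ram ℓ hv := by
  have : Fact ℓ.Prime := ⟨hℓ⟩
  have hmax : Q.IsMaximal := (inferInstance : Q.IsPrime).isMaximal hQ
  -- `√-d` is congruent to an integer `a`, and so is its negative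
  obtain ⟨a, ha⟩ : ∃ a : ℤ, D.Θ - (a : 𝓞 K) ∈ Q := by
    let := Ideal.Quotient.field Q
    have : CharP (𝓞 K ⧸ Q) ℓ := (CharP.charP_iff_prime_eq_zero hℓ).mpr (by
      rw [← map_natCast (Ideal.Quotient.mk Q), Ideal.Quotient.eq_zero_iff_mem]; exact hmem)
    have : Finite (𝓞 K ⧸ Q) := Ideal.finiteQuotientOfFreeOfNeBot Q hQ
    have hbij : Function.Bijective (ZMod.castHom dvd_rfl (𝓞 K ⧸ Q)) := by
      refine (Nat.bijective_iff_injective_and_card _).mpr ⟨RingHom.injective _, ?_⟩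
      rw [Nat.card_zmod, ← Submodule.cardQuot_apply, ← absNorm_apply, hn]
    obtain ⟨z, hz⟩ := hbij.2 (Ideal.Quotient.mk Q D.Θ)
    obtain ⟨a, rfl⟩ := ZMod.intCast_surjective z
    rw [map_intCast] at hz
    exact ⟨a, by rw [← Ideal.Quotient.eq, map_intCast]; exact hz.symm⟩
  have ha' : -D.Θ - (a : 𝓞 K) ∈ Q := by
    have h := (D.mem_conjQ (I := Q)).mp (hc.symm ▸ ha)
    rwa [map_sub, D.conjO_Θ, map_intCast] at h
  -- so `ℓ` divides `2 a`, hence `d`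
  have hℓd : ℓ ∣ d := by
    have h2a : ((2 * a : ℤ) : 𝓞 K) ∈ Q := by
      have h := Q.neg_mem (Q.add_mem ha ha')
      push_cast
      convert h using 1
      ring
    have hdiv : (absNorm (Q.under ℤ) : ℤ) ∣ 2 * a := Int.cast_mem_ideal_iff.mp h2a
    have hℓ' : absNorm (Q.under ℤ) = ℓ := by
      have : NeZero Q := ⟨hQ⟩
      refine ((Nat.prime_dvd_prime_iff_eq (Nat.absNorm_under_prime Q) hℓ).mp ?_)
      exact Int.natCast_dvd_natCast.mp
        (Int.cast_mem_ideal_iff.mp (by rwa [Int.cast_natCast]))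
    rw [hℓ'] at hdiv
    rcases Int.Prime.dvd_mul' hℓ hdiv with h | h
    · have h' : ℓ ∣ 2 := Int.natCast_dvd_natCast.mp h
      rw [(Nat.prime_dvd_prime_iff_eq hℓ Nat.prime_two).mp h']
      exact Nat.dvd_of_mod_eq_zero (by have := D.mod_four; omega)
    · have hθ : D.Θ ∈ Q := by
        have : (a : 𝓞 K) ∈ Q := Int.cast_mem_ideal_iff.mpr (hℓ' ▸ h)
        simpa using Q.add_mem ha this
      have hd : ((d : ℤ) : 𝓞 K) ∈ Q := by
        have := Q.neg_mem (Q.mul_mem_left D.Θ hθ)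
        rw [← pow_two, D.Θ_sq, neg_neg] at this
        exact_mod_cast this
      exact Int.natCast_dvd_natCast.mp (hℓ' ▸ Int.cast_mem_ideal_iff.mp hd)
  have hθQ : D.Θ ∈ Q := by
    refine (inferInstance : Q.IsPrime).mem_of_pow_mem 2 ?_
    rw [D.Θ_sq]
    obtain ⟨w, hw⟩ := hℓd
    rw [hw, Nat.cast_mul]
    exact Q.neg_mem (Q.mul_mem_right _ hmem)
  refine ⟨hℓd, ?_⟩
  refine ((D.ram_isMaximal ℓ hℓd).eq_of_le hmax.ne_top fun x hx => ?_).symm
  obtain ⟨s, t, rfl⟩ := D.exists_coords x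
  obtain ⟨w, rfl⟩ := (D.mem_ram ℓ hℓd s t).mp hx
  push_cast
  exact Q.add_mem (Q.mul_mem_right _ hmem) (Q.mul_mem_left _ hθQ)

/-- The prime ideals: inert, split, or ramified. -/
theorem prime_cases {Q : Ideal (𝓞 K)} [Q.IsPrime] (hQ : Q ≠ ⊥) :
    (∃ ℓ : ℕ, Q = span {(ℓ : 𝓞 K)}) ∨
      (D.conjQ Q ≠ Q ∧ Q * D.conjQ Q = span {((absNorm Q : ℕ) : 𝓞 K)}) ∨
      ∃ (v : ℕ) (hv : v ∣ d), v.Prime ∧ Q = D.ram v hv := by
  obtain ⟨ℓ, hℓ, hmem, hn | hn⟩ := D.exists_prime_norm hQ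
  swap
  · -- degree two: inert
    refine Or.inl ⟨ℓ, (eq_of_le_of_norm ((span_singleton_le_iff_mem Q).mpr hmem) ?_ ?_).symm⟩
    · rw [D.absNorm_span_natCast]; exact pow_ne_zero 2 hℓ.ne_zero
    · rw [D.absNorm_span_natCast, hn]
  right
  have hmax : Q.IsMaximal := (inferInstance : Q.IsPrime).isMaximal hQ
  by_cases hc : D.conjQ Q = Q
  · obtain ⟨hv, h⟩ := D.eq_ram_of_conjQ_eq hQ hℓ hmem hn hc
    exact Or.inr ⟨ℓ, hv, hℓ, h⟩
  · refine Or.inl ⟨hc, ?_⟩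
    have : (D.conjQ Q).IsMaximal := by
      rcases Ideal.map_eq_top_or_isMaximal_of_surjective (D.conjO : 𝓞 K →+* 𝓞 K)
          D.conjO.surjective hmax with h | h
      · exact absurd ((D.conjQ_conjQ Q).symm.trans ((congrArg D.conjQ h).trans (Ideal.map_top _)))
          hmax.ne_top
      · exact h
    rw [hn]
    refine (eq_of_le_of_norm ?_ ?_ ?_).symm
    · rw [mul_eq_inf_of_isCoprime (Ideal.isCoprime_iff_sup_eq.mpr
        (hmax.coprime_of_ne inferInstance fun h => hc h.symm))]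
      exact le_inf ((span_singleton_le_iff_mem _).mpr hmem)
        ((span_singleton_le_iff_mem _).mpr ((D.mem_conjQ).mpr (by rwa [map_natCast])))
    · rw [D.absNorm_span_natCast]; exact pow_ne_zero 2 hℓ.ne_zero
    · rw [D.absNorm_span_natCast, map_mul, D.absNorm_conjQ, hn, sq]

/-- An ideal times its conjugate. -/
theorem mul_conjQ (I : Ideal (𝓞 K)) : I * D.conjQ I = span {((absNorm I : ℕ) : 𝓞 K)} := by
  induction I using UniqueFactorizationMonoid.induction_on_prime with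
  | h₁ =>
    rw [Submodule.zero_eq_bot, Ideal.bot_mul, absNorm_bot, Nat.cast_zero,
      span_singleton_eq_bot.mpr rfl]
  | h₂ x hx =>
    rw [Ideal.isUnit_iff.mp hx, absNorm_top, Nat.cast_one, Ideal.top_mul]
    show Ideal.map _ ⊤ = _
    rw [Ideal.map_top, span_singleton_one]
  | h₃ a p _ hp ih =>
    have := Ideal.isPrime_of_prime hp
    have hp' : p * D.conjQ p = span {((absNorm p : ℕ) : 𝓞 K)} := by
      rcases D.prime_cases hp.ne_zero with ⟨ℓ, rfl⟩ | ⟨-, h⟩ | ⟨v, hv, -, rfl⟩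
      · rw [D.conjQ_natCast, span_singleton_mul_span_singleton, D.absNorm_span_natCast, ← pow_two,
          Nat.cast_pow]
      · exact h
      · rw [D.conjQ_ram, D.ram_sq, D.absNorm_ram]
    show p * a * Ideal.map _ (p * a) = _
    rw [Ideal.map_mul, mul_mul_mul_comm]
    show p * D.conjQ p * (a * D.conjQ a) = _
    rw [hp', ih, span_singleton_mul_span_singleton, map_mul, Nat.cast_mul]

end Fermat.Agent.LT.ClassBound.QuadData
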