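import Fermat.Agent.LT.ClassBound.Lattice
import Mathlib.Algebra.Lie.OfAssociative
import Mathlib.NumberTheory.NumberField.InfinitePlace.TotallyRealComplex
import Mathlib.NumberTheory.NumberField.Units.DirichletTheorem
import Mathlib.RingTheory.Henselian
import Mathlib.RingTheory.IntegralClosure.IntegralRestrict
import Mathlib.RingTheory.PicardGroup
import Mathlib.RingTheory.SimpleRing.Principal

/-!
# The units of a cyclic extension of prime power degree

`L/K` cyclic of degree `p ^ k`, `K` totally complex with finitely many units: the Herbrand count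
`p ^ k * [E_K : N E_L] ≤ [ker N : (g - 1) E_L]`.

Main result: `herbrand_count`.
-/

set_option autoImplicit false

noncomputable section

namespace Fermat.Agent.LT.ClassBound

open Module NumberField NumberField.Units

variable {K L : Type*} [Field K] [NumberField K] [Field L] [NumberField L] [Algebra K L]
  [IsGalois K L]

/-! ## The Galois action on units -/

/-- The Galois action on the integers. -/
abbrev act (h : L ≃ₐ[K] L) : 𝓞 L ≃ₐ[𝓞 K] 𝓞 L := galRestrict (𝓞 K) K L (𝓞 L) h

omit [NumberField L] in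
theorem coe_act (h : L ≃ₐ[K] L) (x : 𝓞 L) : ((act h x : 𝓞 L) : L) = h (x : L) :=
  algebraMap_galRestrict_apply (𝓞 K) h x

/-- The Galois action on the units. -/
def unitAct (h : L ≃ₐ[K] L) : (𝓞 L)ˣ →* (𝓞 L)ˣ :=
  Units.map (act h).toRingEquiv.toRingHom.toMonoidHom

omit [NumberField L] in
theorem coe_unitAct (h : L ≃ₐ[K] L) (u : (𝓞 L)ˣ) :
    (((unitAct h u : (𝓞 L)ˣ) : 𝓞 L) : L) = h ((u : 𝓞 L) : L) := coe_act h _

omit [NumberField L] in
theorem unitAct_one (u : (𝓞 L)ˣ) : unitAct (1 : L ≃ₐ[K] L) u = u :=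
  Units.ext (RingOfIntegers.ext (coe_unitAct 1 u))

omit [NumberField L] in
theorem unitAct_mul (h h' : L ≃ₐ[K] L) (u : (𝓞 L)ˣ) :
    unitAct (h * h') u = unitAct h (unitAct h' u) :=
  Units.ext (RingOfIntegers.ext (by
    rw [coe_unitAct, coe_unitAct, coe_unitAct]
    rfl))

/-- `u ↦ h u / u`. -/
def delta (h : L ≃ₐ[K] L) : (𝓞 L)ˣ →* (𝓞 L)ˣ where
  toFun u := unitAct h u / u
  map_one' := by simp
  map_mul' u v := by rw [map_mul, mul_div_mul_comm]

/-- The relative norm of units. -/
def unitNorm (K L : Type*) [Field K] [NumberField K] [Field L] [NumberField L] [Algebra K L] :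
    (𝓞 L)ˣ →* (𝓞 K)ˣ := Units.map (Algebra.intNorm (𝓞 K) (𝓞 L) : 𝓞 L →* 𝓞 K)

omit [IsGalois K L] in
theorem coe_unitNorm (u : (𝓞 L)ˣ) :
    (((unitNorm K L u : (𝓞 K)ˣ) : 𝓞 K) : K) = Algebra.norm K ((u : 𝓞 L) : L) :=
  Algebra.algebraMap_intNorm (A := 𝓞 K) (K := K) (L := L) (B := 𝓞 L) _

theorem delta_range_le (h : L ≃ₐ[K] L) : (delta h).range ≤ (unitNorm K L).ker := by
  rintro _ ⟨u, rfl⟩
  have : unitNorm K L (unitAct h u) = unitNorm K L u := Units.ext (RingOfIntegers.ext (by
    rw [coe_unitNorm, coe_unitNorm, coe_unitAct, Algebra.norm_eq_of_algEquiv]))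
  show unitNorm K L (unitAct h u / u) = 1
  rw [map_div, this, div_self']

omit [NumberField L] in
theorem torsion_mapsTo (h : L ≃ₐ[K] L) :
    torsion L ≤ (torsion L).comap (unitAct h) := fun u hu =>
  show IsOfFinOrder (unitAct h u) from (unitAct h).isOfFinOrder hu

/-! ## The lattice of units modulo torsion -/

/-- The units modulo torsion. -/
def UnitLat (L : Type*) [Field L] [NumberField L] : Type _ := Additive ((𝓞 L)ˣ ⧸ torsion L)

instance (L : Type*) [Field L] [NumberField L] : AddCommGroup (UnitLat L) :=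
  inferInstanceAs (AddCommGroup (Additive ((𝓞 L)ˣ ⧸ torsion L)))

/-- A basis of the units modulo torsion. -/
def unitLatBasis (L : Type*) [Field L] [NumberField L] : Basis (Fin (rank L)) ℤ (UnitLat L) :=
  basisModTorsion L

instance (L : Type*) [Field L] [NumberField L] : Module.Free ℤ (UnitLat L) :=
  Module.Free.of_basis (unitLatBasis L)

instance (L : Type*) [Field L] [NumberField L] : Module.Finite ℤ (UnitLat L) :=
  Module.Finite.of_basis (unitLatBasis L)

theorem finrank_unitLat (L : Type*) [Field L] [NumberField L] :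
    finrank ℤ (UnitLat L) = rank L := by
  rw [finrank_eq_card_basis (unitLatBasis L), Fintype.card_fin]

/-- A group hom between unit lattices as a linear map. -/
def toLat {L' : Type*} [Field L'] [NumberField L']
    (f : (𝓞 L')ˣ ⧸ torsion L' →* (𝓞 L)ˣ ⧸ torsion L) : UnitLat L' →ₗ[ℤ] UnitLat L :=
  AddMonoidHom.toIntLinearMap
    { toFun := fun v : UnitLat L' => (Additive.ofMul (f v.toMul) : UnitLat L)
      map_zero' := congrArg Additive.ofMul f.map_one
      map_add' := fun v w => congrArg Additive.ofMul (f.map_mul v.toMul w.toMul) }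

/-- The Galois action on units modulo torsion. -/
def latAct : (L ≃ₐ[K] L) →* Module.End ℤ (UnitLat L) where
  toFun h := toLat (QuotientGroup.map (torsion L) (torsion L)
    (unitAct h) (torsion_mapsTo h))
  map_one' := LinearMap.ext fun v => by
    obtain ⟨u, hu⟩ := QuotientGroup.mk_surjective v.toMul
    rw [show v = Additive.ofMul (u : (𝓞 L)ˣ ⧸ torsion L) from (congrArg Additive.ofMul hu).symm]
    exact congrArg (fun w : (𝓞 L)ˣ => Additive.ofMul (w : (𝓞 L)ˣ ⧸ torsion L)) (unitAct_one u)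
  map_mul' h h' := LinearMap.ext fun v => by
    obtain ⟨u, hu⟩ := QuotientGroup.mk_surjective v.toMul
    rw [show v = Additive.ofMul (u : (𝓞 L)ˣ ⧸ torsion L) from (congrArg Additive.ofMul hu).symm]
    exact congrArg (fun w : (𝓞 L)ˣ => Additive.ofMul (w : (𝓞 L)ˣ ⧸ torsion L)) (unitAct_mul h h' u)

/-- The class of a unit modulo torsion. -/
abbrev modTors (u : (𝓞 L)ˣ) : UnitLat L :=
  Additive.ofMul (u : (𝓞 L)ˣ ⧸ torsion L)

theorem modTors_surjective : Function.Surjective (modTors (L := L)) := fun v => by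
  obtain ⟨u, hu⟩ := QuotientGroup.mk_surjective v.toMul
  exact ⟨u, congrArg Additive.ofMul hu⟩

theorem latAct_modTors (h : L ≃ₐ[K] L) (u : (𝓞 L)ˣ) :
    latAct h (modTors u) = modTors (unitAct h u) := rfl

theorem latAct_sub_one (h : L ≃ₐ[K] L) (u : (𝓞 L)ˣ) :
    (latAct h - 1) (modTors u) = modTors (delta h u) := by
  rw [LinearMap.sub_apply, Module.End.one_apply, latAct_modTors]
  exact (congrArg Additive.ofMul (QuotientGroup.mk_div (torsion L) (unitAct h u) u)).symm

theorem modTors_eq_zero_iff {u : (𝓞 L)ˣ} : modTors u = 0 ↔ u ∈ torsion L :=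
  Additive.ofMul.injective.eq_iff.trans (QuotientGroup.eq_one_iff u)

theorem modTors_eq_iff {u v : (𝓞 L)ˣ} : modTors u = modTors v ↔ u⁻¹ * v ∈ torsion L :=
  Additive.ofMul.injective.eq_iff.trans QuotientGroup.eq

/-- A unit fixed modulo torsion has a power that is fixed. -/
theorem pow_torsionOrder_fixed {h : L ≃ₐ[K] L} {u : (𝓞 L)ˣ}
    (hu : latAct h (modTors u) = modTors u) :
    unitAct h (u ^ torsionOrder L) = u ^ torsionOrder L := by
  rw [latAct_modTors, modTors_eq_iff] at hu
  have h1 : ((unitAct h u)⁻¹ * u) ^ torsionOrder L = 1 := by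
    have := congrArg Subtype.val (pow_card_eq_one' (x := (⟨_, hu⟩ : torsion L)))
    rw [SubmonoidClass.coe_pow, OneMemClass.coe_one] at this
    exact this
  rw [mul_pow, inv_pow, inv_mul_eq_one] at h1
  rw [map_pow, h1]

omit [NumberField K] [NumberField L] [IsGalois K L] in
/-- A unit in a subfield. -/
theorem exists_unit_of_mem (F : IntermediateField K L) (u : (𝓞 L)ˣ)
    (hu : ((u : 𝓞 L) : L) ∈ F) :
    ∃ z : (𝓞 F)ˣ, Units.map (algebraMap (𝓞 F) (𝓞 L) : 𝓞 F →* 𝓞 L) z = u := by
  have hinv : (((u⁻¹ : (𝓞 L)ˣ) : 𝓞 L) : L) ∈ F := by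
    have : (((u⁻¹ : (𝓞 L)ˣ) : 𝓞 L) : L) = ((u : 𝓞 L) : L)⁻¹ := by
      refine eq_inv_of_mul_eq_one_left ?_
      rw [← map_mul, ← Units.val_mul, inv_mul_cancel, Units.val_one, map_one]
    rw [this]; exact F.inv_mem hu
  have hint : ∀ (x : 𝓞 L) (hx : (x : L) ∈ F), IsIntegral ℤ (⟨(x : L), hx⟩ : F) := fun x hx =>
    (isIntegral_algHom_iff (F.val.toRingHom.toIntAlgHom) F.val.injective).mp x.2
  refine ⟨⟨⟨⟨_, hu⟩, hint _ hu⟩, ⟨⟨_, hinv⟩, hint _ hinv⟩, ?_, ?_⟩, ?_⟩
  · refine RingOfIntegers.ext (Subtype.ext ?_)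
    show ((u : 𝓞 L) : L) * (((u⁻¹ : (𝓞 L)ˣ) : 𝓞 L) : L) = 1
    rw [← map_mul, ← Units.val_mul, mul_inv_cancel, Units.val_one, map_one]
  · refine RingOfIntegers.ext (Subtype.ext ?_)
    show (((u⁻¹ : (𝓞 L)ˣ) : 𝓞 L) : L) * ((u : 𝓞 L) : L) = 1
    rw [← map_mul, ← Units.val_mul, inv_mul_cancel, Units.val_one, map_one]
  · exact Units.ext (RingOfIntegers.ext rfl)

section Subfield

variable (F : IntermediateField K L)

/-- Units of a subfield modulo torsion. -/
def subLat [NumberField F] :
    UnitLat F →ₗ[ℤ] UnitLat L :=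
  toLat (QuotientGroup.map (torsion F) (torsion L)
    (Units.map (algebraMap (𝓞 F) (𝓞 L) : 𝓞 F →* 𝓞 L))
    fun _ hz => (Units.map (algebraMap (𝓞 F) (𝓞 L) : 𝓞 F →* 𝓞 L)).isOfFinOrder hz)

omit [NumberField K] [IsGalois K L] in
theorem subLat_injective [NumberField F] : Function.Injective (subLat F) := by
  rw [injective_iff_map_eq_zero]
  intro v hv
  obtain ⟨z, hz⟩ := QuotientGroup.mk_surjective v.toMul
  rw [show v = Additive.ofMul (z : (𝓞 F)ˣ ⧸ torsion F) from (congrArg Additive.ofMul hz).symm]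
    at hv ⊢
  have hmem : Units.map (algebraMap (𝓞 F) (𝓞 L) : 𝓞 F →* 𝓞 L) z ∈ torsion L :=
    (QuotientGroup.eq_one_iff _).mp (congrArg Additive.toMul hv)
  have hinj : Function.Injective (Units.map (algebraMap (𝓞 F) (𝓞 L) : 𝓞 F →* 𝓞 L)) :=
    Units.map_injective fun a b h => RingOfIntegers.ext (Subtype.ext
      (congrArg (fun x : 𝓞 L => (x : L)) h))
  exact congrArg Additive.ofMul ((QuotientGroup.eq_one_iff z).mpr
    ((hinj.isOfFinOrder_iff).mp hmem))

end Subfield

/-! ## Fixed ranks -/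

theorem rank_add_one (F : Type*) [Field F] [NumberField F] [IsTotallyComplex F] :
    2 * (rank F + 1) = finrank ℚ F := by
  have h1 : InfinitePlace.nrRealPlaces F = 0 := IsTotallyComplex.nrRealPlaces_eq_zero F
  have h2 := InfinitePlace.card_add_two_mul_card_eq_rank F
  have h3 := InfinitePlace.card_eq_nrRealPlaces_add_nrComplexPlaces F
  have h4 : 0 < Fintype.card (InfinitePlace F) := Fintype.card_pos
  simp only [rank]
  omega

variable [IsTotallyComplex K] (hK : rank K = 0)

omit [IsTotallyComplex K] in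
include hK in
theorem torsion_eq_top : torsion K = ⊤ := by
  have : Subsingleton (UnitLat K) :=
    Module.finrank_zero_iff.mp (by rw [finrank_unitLat, hK])
  exact eq_top_iff.mpr fun u _ => modTors_eq_zero_iff.mp (Subsingleton.elim _ (0 : UnitLat K))

omit [IsTotallyComplex K] in
include hK in
theorem finite_units : Finite (𝓞 K)ˣ := by
  have h := torsion_eq_top hK
  exact Finite.of_equiv (torsion K) ((MulEquiv.subgroupCongr h).trans Subgroup.topEquiv).toEquiv

variable {g : L ≃ₐ[K] L} (hg : ∀ x, x ∈ Subgroup.zpowers g)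

omit [IsTotallyComplex K] in
include hg in
theorem mem_range_of_fixed {x : L} (h : g x = x) : x ∈ Set.range (algebraMap K L) := by
  refine (IsGalois.mem_range_algebraMap_iff_fixed x).mpr fun f => ?_
  obtain ⟨m, rfl⟩ := hg f
  exact (MulAction.mem_stabilizer_iff).mp
    ((MulAction.stabilizer (L ≃ₐ[K] L) x).zpow_mem (show g • x = x from h) m)

omit [IsTotallyComplex K] in
include hg in
theorem exists_unit_of_fixed {u : (𝓞 L)ˣ} (h : unitAct g u = u) :
    ∃ z : (𝓞 K)ˣ, Units.map (algebraMap (𝓞 K) (𝓞 L) : 𝓞 K →* 𝓞 L) z = u := by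
  -- a fixed unit and its inverse lie in `K`
  have key : ∀ v : (𝓞 L)ˣ, unitAct g v = v → ∃ z : 𝓞 K, algebraMap (𝓞 K) (𝓞 L) z = v :=
    fun v hv => by
    obtain ⟨y, hy⟩ := mem_range_of_fixed hg (x := ((v : 𝓞 L) : L)) (by rw [← coe_unitAct, hv])
    exact ⟨⟨y, (isIntegral_algHom_iff (algebraMap K L).toIntAlgHom
      (algebraMap K L).injective).mp (by rw [show (algebraMap K L).toIntAlgHom y = _ from hy]
                                         exact (v : 𝓞 L).2)⟩, RingOfIntegers.ext hy⟩
  obtain ⟨a, ha⟩ := key u h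
  obtain ⟨b, hb⟩ := key u⁻¹ (by rw [map_inv, h])
  have hinj : Function.Injective (algebraMap (𝓞 K) (𝓞 L)) := fun x y e => RingOfIntegers.ext
    ((algebraMap K L).injective (congrArg (fun x : 𝓞 L => (x : L)) e))
  exact ⟨⟨a, b, hinj (by rw [map_mul, ha, hb, map_one, ← Units.val_mul, mul_inv_cancel,
    Units.val_one]),
    hinj (by rw [map_mul, ha, hb, map_one, ← Units.val_mul, inv_mul_cancel, Units.val_one])⟩,
    Units.ext ha⟩

omit [IsTotallyComplex K] in
include hK hg in
theorem latAct_sub_one_injective : Function.Injective ⇑(latAct g - 1) := by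
  rw [injective_iff_map_eq_zero]
  intro v hv
  obtain ⟨u, rfl⟩ := modTors_surjective v
  obtain ⟨z, hz⟩ := exists_unit_of_fixed hg (pow_torsionOrder_fixed (h := g) (sub_eq_zero.mp hv))
  have hz' : IsOfFinOrder z := by
    have h : z ∈ torsion K := by rw [torsion_eq_top hK]; trivial
    exact h
  have h1 := (Units.map (algebraMap (𝓞 K) (𝓞 L) : 𝓞 K →* 𝓞 L)).isOfFinOrder hz'
  rw [hz] at h1
  exact congrArg Additive.ofMul ((QuotientGroup.eq_one_iff u).mpr
    (h1.of_pow (torsionOrder_pos L).ne'))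

variable {p : ℕ} [Fact p.Prime] {k : ℕ} (hn : finrank K L = p ^ k)

omit [IsTotallyComplex K] [Fact (Nat.Prime p)] in
include hg hn in
theorem orderOf_gen : orderOf g = p ^ k := by
  rw [orderOf_eq_card_of_forall_mem_zpowers hg, IsGalois.card_aut_eq_finrank, hn]

include hK hg hn in
/-- The rank of the units modulo torsion fixed by `g ^ (p ^ i)`. -/
theorem finrank_fixed {i : ℕ} (hi : i ≤ k) :
    finrank ℤ (LinearMap.ker (latAct (g ^ p ^ i) - 1)) + 1 = p ^ i := by
  set H := Subgroup.zpowers (g ^ p ^ i)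
  set F := IntermediateField.fixedField H
  have : IsTotallyComplex F := ⟨fun w => by
    rw [← InfinitePlace.not_isReal_iff_isComplex]
    exact fun hw => InfinitePlace.not_isReal_iff_isComplex.mpr
      (IsTotallyComplex.isComplex (w.comap (algebraMap K F))) (hw.comap _)⟩
  have hmemF : ∀ x : L, x ∈ F ↔ (g ^ p ^ i) x = x := fun x => by
    refine ⟨fun hx => hx ⟨_, Subgroup.mem_zpowers _⟩, fun h ⟨f, hf⟩ => ?_⟩
    obtain ⟨m, rfl⟩ := hf
    exact (MulAction.mem_stabilizer_iff).mp
      ((MulAction.stabilizer (L ≃ₐ[K] L) x).zpow_mem (show (g ^ p ^ i) • x = x from h) m)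
  -- the fixed field of `g ^ (p ^ i)` has degree `p ^ i`
  have hF : finrank K F = p ^ i := by
    have h1 := Module.finrank_mul_finrank K F L
    rw [IntermediateField.finrank_fixedField_eq_card, Nat.card_zpowers, hn,
      orderOf_pow' g (pow_ne_zero i (Fact.out : p.Prime).ne_zero), orderOf_gen hg hn,
      Nat.gcd_eq_right (pow_dvd_pow p hi), Nat.pow_div hi (Fact.out : p.Prime).pos] at h1
    refine Nat.eq_of_mul_eq_mul_right (pow_pos (Fact.out : p.Prime).pos (k - i)) ?_
    rw [h1, ← pow_add, Nat.add_sub_cancel' hi]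
  have hrank : rank F + 1 = p ^ i := by
    have h1 := rank_add_one F
    have h2 := rank_add_one K
    rw [← Module.finrank_mul_finrank ℚ K F, hF, ← h2, hK] at h1
    linarith
  set U := LinearMap.ker (latAct (g ^ p ^ i) - 1)
  -- the units of the subfield are fixed
  have hle : LinearMap.range (subLat F) ≤ U := by
    rintro _ ⟨v, rfl⟩
    obtain ⟨z, hz⟩ := QuotientGroup.mk_surjective v.toMul
    rw [show v = Additive.ofMul (z : (𝓞 F)ˣ ⧸ torsion F) from (congrArg Additive.ofMul hz).symm]
    rw [LinearMap.mem_ker]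
    show (latAct (g ^ p ^ i) - 1) (modTors (Units.map (algebraMap (𝓞 F) (𝓞 L) : 𝓞 F →* 𝓞 L) z)) = 0
    rw [LinearMap.sub_apply, Module.End.one_apply, latAct_modTors, sub_eq_zero]
    refine congrArg modTors ?_
    exact Units.ext (RingOfIntegers.ext ((coe_unitAct _ _).trans
      ((hmemF _).mp (((z : 𝓞 F) : F)).2)))
  -- conversely, a multiple of a fixed class comes from the subfield
  have hsub : finrank ℤ U ≤ finrank ℤ (LinearMap.range (subLat F)) := by
    let m : U →ₗ[ℤ] LinearMap.range (subLat F) := (((torsionOrder L : ℤ) • U.subtype)).codRestrict _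
      fun v => by
        obtain ⟨u, hu⟩ := modTors_surjective (v : UnitLat L)
        have hfix := pow_torsionOrder_fixed (h := g ^ p ^ i) (u := u)
          (by rw [hu]; exact sub_eq_zero.mp (LinearMap.mem_ker.mp v.2))
        obtain ⟨z, hz⟩ := exists_unit_of_mem F (u ^ torsionOrder L)
          ((hmemF _).mpr (by rw [← coe_unitAct, hfix]))
        refine ⟨Additive.ofMul (z : (𝓞 F)ˣ ⧸ torsion F), ?_⟩
        show modTors (Units.map (algebraMap (𝓞 F) (𝓞 L) : 𝓞 F →* 𝓞 L) z) = _
        rw [hz, LinearMap.smul_apply, Submodule.subtype_apply, ← hu, natCast_zsmul]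
        rfl
    refine LinearMap.finrank_le_finrank_of_injective (f := m) fun a b h => ?_
    have h' := congrArg Subtype.val h
    simp only [m, LinearMap.codRestrict_apply, LinearMap.smul_apply, Submodule.subtype_apply] at h'
    exact Subtype.ext (smul_right_injective _ (Nat.cast_ne_zero.mpr (torsionOrder_pos L).ne') h')
  rw [le_antisymm hsub (Submodule.finrank_mono hle), LinearMap.finrank_range_of_inj
    (subLat_injective F), finrank_unitLat, hrank]

/-! ## The Herbrand count -/

omit [IsTotallyComplex K] in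
theorem mk_modTors_eq_iff (g : L ≃ₐ[K] L) (u v : (𝓞 L)ˣ) :
    (Submodule.Quotient.mk (modTors v) : _ ⧸ LinearMap.range (latAct g - 1)) =
        Submodule.Quotient.mk (modTors u) ↔ u⁻¹ * v ∈ (delta g).range ⊔ torsion L := by
  have e : modTors v - modTors u = modTors (u⁻¹ * v) := by
    refine congrArg Additive.ofMul ?_
    show (v : (𝓞 L)ˣ ⧸ torsion L) / (u : (𝓞 L)ˣ ⧸ torsion L) = _
    rw [← QuotientGroup.mk_div, div_eq_inv_mul]
  rw [Submodule.Quotient.eq, e, Subgroup.mem_sup]
  constructor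
  · rintro ⟨w, hw⟩
    obtain ⟨a, rfl⟩ := modTors_surjective w
    rw [latAct_sub_one] at hw
    exact ⟨delta g a, ⟨a, rfl⟩, (delta g a)⁻¹ * (u⁻¹ * v), modTors_eq_iff.mp hw,
      mul_inv_cancel_left _ _⟩
  · rintro ⟨_, ⟨a, rfl⟩, t, ht, h⟩
    refine ⟨modTors a, ?_⟩
    rw [latAct_sub_one, modTors_eq_iff, ← h, inv_mul_cancel_left]
    exact ht

omit [IsTotallyComplex K] in
/-- The cokernel of `g - 1` on the lattice is the group of units modulo `(g - 1) E` and torsion. -/
theorem card_coker_eq_index (g : L ≃ₐ[K] L) :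
    Nat.card (UnitLat L ⧸ LinearMap.range (latAct g - 1)) =
      ((delta g).range ⊔ torsion L).index := by
  rw [Subgroup.index_eq_card]
  let φ : (𝓞 L)ˣ → UnitLat L ⧸ LinearMap.range (latAct g - 1) :=
    fun u => Submodule.Quotient.mk (modTors u)
  refine Nat.card_congr (Equiv.ofBijective (Quotient.lift φ fun a b h =>
    ((mk_modTors_eq_iff g a b).mpr (QuotientGroup.leftRel_apply.mp h)).symm) ⟨?_, ?_⟩).symm
  · intro a b
    induction a using QuotientGroup.induction_on
    induction b using QuotientGroup.induction_on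
    exact fun h => QuotientGroup.eq.mpr ((mk_modTors_eq_iff g _ _).mp (Eq.symm h))
  · intro z
    obtain ⟨w, rfl⟩ := Submodule.Quotient.mk_surjective _ z
    obtain ⟨u, rfl⟩ := modTors_surjective w
    exact ⟨(u : (𝓞 L)ˣ ⧸ ((delta g).range ⊔ torsion L)), rfl⟩

omit [IsTotallyComplex K] [Fact (Nat.Prime p)] in
include hg hn in
theorem latAct_pow_eq_one : (latAct g) ^ p ^ k = 1 := by
  rw [← map_pow, ← orderOf_gen hg hn, pow_orderOf_eq_one, map_one]

include hK hg hn in
theorem exists_strict {i : ℕ} (hi : i < k) :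
    ∃ v, ((latAct g) ^ p ^ (i + 1)) v = v ∧ ((latAct g) ^ p ^ i) v ≠ v := by
  by_contra hne
  push Not at hne
  have hle : LinearMap.ker (latAct (g ^ p ^ (i + 1)) - 1) ≤
      LinearMap.ker (latAct (g ^ p ^ i) - 1) := fun v hv => by
    rw [LinearMap.mem_ker, LinearMap.sub_apply, sub_eq_zero, map_pow] at hv ⊢
    exact hne v hv
  have h1 := Submodule.finrank_mono hle
  have h2 := finrank_fixed hK hg hn (show i + 1 ≤ k by omega)
  have h3 := finrank_fixed hK hg hn hi.le
  have h4 : p ^ i < p ^ (i + 1) := Nat.pow_lt_pow_succ (Fact.out : p.Prime).one_lt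
  omega

include hK hg hn in
theorem pow_le_index_sup : p ^ k ≤ ((delta g).range ⊔ torsion L).index :=
  have h1 := latAct_pow_eq_one hg hn
  have h2 := latAct_sub_one_injective hK hg
  le_of_le_of_eq (pow_le_card p k (V := UnitLat L) (latAct g) h1 h2
    fun _i hi => exists_strict hK hg hn hi) (card_coker_eq_index g)

omit [IsTotallyComplex K] in
include hK hg in
theorem card_le_relIndex : Nat.card (𝓞 K)ˣ ≤ (delta g).range.relIndex (torsion L) := by
  set T := torsion L
  set d' : T →* (𝓞 L)ˣ := (delta g).comp T.subtype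
  have := finite_units hK
  -- the fixed torsion contains the units of `K`
  have h1 : Nat.card (𝓞 K)ˣ ≤ Nat.card d'.ker := by
    refine Nat.card_le_card_of_injective (fun z =>
      ⟨⟨Units.map (algebraMap (𝓞 K) (𝓞 L) : 𝓞 K →* 𝓞 L) z,
      MonoidHom.isOfFinOrder _ (isOfFinOrder_of_finite z)⟩, ?_⟩) fun a b h => ?_
    · show unitAct g _ / _ = (1 : (𝓞 L)ˣ)
      rw [div_eq_one]
      exact Units.ext (RingOfIntegers.ext ((coe_unitAct g _).trans (g.commutes ((z : 𝓞 K) : K))))
    · have h' := congrArg (fun t : d'.ker => (((t : T) : (𝓞 L)ˣ) : 𝓞 L)) h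
      exact Units.ext (RingOfIntegers.ext ((algebraMap K L).injective
        (congrArg (fun x : 𝓞 L => (x : L)) h')))
  -- only images of torsion elements are torsion
  have h2 : (delta g).range ⊓ T ≤ d'.range := by
    rintro _ ⟨⟨u, rfl⟩, hu⟩
    refine ⟨⟨u, ?_⟩, rfl⟩
    have hz := latAct_sub_one_injective hK hg (a₁ := modTors u) (a₂ := 0) (by
      rw [map_zero, latAct_sub_one, modTors_eq_zero_iff]
      exact hu)
    exact modTors_eq_zero_iff.mp hz
  have : Finite d'.range := Finite.of_surjective _ d'.rangeRestrict_surjective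
  have h4 : ((delta g).range ⊓ T).relIndex T * Nat.card ((delta g).range ⊓ T : Subgroup (𝓞 L)ˣ) =
      Nat.card T := by
    rw [Subgroup.relIndex, mul_comm, ← Nat.card_congr (Subgroup.subgroupOfEquivOfLe
      (inf_le_right : (delta g).range ⊓ T ≤ T)).toEquiv]
    exact Subgroup.card_mul_index _
  have h5 : Nat.card ((delta g).range ⊓ T : Subgroup (𝓞 L)ˣ) ≤ Nat.card d'.range :=
    Nat.card_le_card_of_injective _ (Subgroup.inclusion_injective h2)
  have h6 : Nat.card d'.ker * Nat.card d'.range = Nat.card T := by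
    rw [← Nat.card_congr (QuotientGroup.quotientKerEquivRange d').toEquiv, ← Subgroup.index_eq_card]
    exact Subgroup.card_mul_index _
  rw [Subgroup.inf_relIndex_right] at h4
  refine h1.trans (Nat.le_of_mul_le_mul_right (c := Nat.card d'.range) ?_ Nat.card_pos)
  rw [h6, ← h4]
  exact Nat.mul_le_mul_left _ h5

include hK hg hn in
/-- **The Herbrand count.** -/
theorem herbrand_count :
    p ^ k * (unitNorm K L).range.index ≤ (delta g).range.relIndex (unitNorm K L).ker := by
  have := finite_units hK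
  set R := (delta g).range
  set N := unitNorm K L
  -- `[E : R]` is `[ker N : R] · |N E|`, and also at least `|E_K| · p ^ k`
  have h1 : R.relIndex N.ker * N.ker.index = R.index :=
    Subgroup.relIndex_mul_index (delta_range_le g)
  have h2 : N.ker.index = Nat.card N.range := by
    rw [Subgroup.index_eq_card, Nat.card_congr (QuotientGroup.quotientKerEquivRange N).toEquiv]
  have h3 : Nat.card N.range * N.range.index = Nat.card (𝓞 K)ˣ := Subgroup.card_mul_index _
  have h4 : R.index = R.relIndex (R ⊔ torsion L) * (R ⊔ torsion L).index :=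
    (Subgroup.relIndex_mul_index le_sup_left).symm
  rw [Subgroup.relIndex_sup_left] at h4
  have h5 : Nat.card (𝓞 K)ˣ * p ^ k ≤ R.index := h4 ▸
    Nat.mul_le_mul (card_le_relIndex hK hg) (pow_le_index_sup hK hg hn)
  rw [← h1, h2] at h5
  refine Nat.le_of_mul_le_mul_right (c := Nat.card N.range) ?_ Nat.card_pos
  calc p ^ k * N.range.index * Nat.card N.range = Nat.card (𝓞 K)ˣ * p ^ k := by rw [← h3]; ring
    _ ≤ _ := h5

end Fermat.Agent.LT.ClassBound
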